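import Mathlib

/-!
# The constant-rank lemma over a local ring (split rank factorisation)

Let `R` be a local ring with residue field `k` and `A` an `m × n` matrix over `R`.  Suppose
there is a jointly injective family of ring homomorphisms `χ i : R →+* K i` into fields
("points") such that the rank of `A` at every point is at most its rank `ρ` at the closed point.
Then `A` has a *split rank factorisation* (`RankFact A ρ`):

  `A = B * C`,  `B' * B = 1`,  `C * C' = 1`   with `B : m × ρ`, `C : ρ × n`.

Such a factorisation is stable under EVERY base change `θ : R →+* S` (`RankFact.map`) and it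
describes kernel and range of `A` (and of all its base changes) as free direct summands:

* `range A = range B`, the columns of `B` are a basis, `B * B'` is a projection onto it;
* `ker A = ker C = range (1 - C' * C)`, and `1 - C' * C` is a projection onto it;
* the rank of `A.map θ` is `ρ` for every field-valued `θ`.

No minors, no tensor products.
-/

set_option autoImplicit false

open Matrix

namespace Fermat.Agent.Lib.LinAlg.ConstRank

universe u v w

variable {R : Type u} [CommRing R]
variable {m : Type v} {n : Type w} [Fintype m] [Fintype n]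

/-- A split rank factorisation of `A`: `A = B * C` with `B` split injective and `C` split
surjective. -/
structure RankFact (A : Matrix m n R) (ρ : ℕ) where
  /-- the columns of `B` are a basis of the range of `A` -/
  B : Matrix m (Fin ρ) R
  /-- the coordinates of the columns of `A` in the columns of `B` -/
  C : Matrix (Fin ρ) n R
  /-- a left inverse of `B` -/
  B' : Matrix (Fin ρ) m R
  /-- a right inverse of `C` -/
  C' : Matrix n (Fin ρ) R
  fact : A = B * C
  hB : B' * B = 1
  hC : C * C' = 1

namespace RankFact

variable {A : Matrix m n R} {ρ : ℕ}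

/-- Base change of a split rank factorisation along any ring homomorphism. -/
def map {S : Type*} [CommRing S] (h : RankFact A ρ) (θ : R →+* S) : RankFact (A.map θ) ρ where
  B := h.B.map θ
  C := h.C.map θ
  B' := h.B'.map θ
  C' := h.C'.map θ
  fact := by rw [← Matrix.map_mul, ← h.fact]
  hB := by rw [← Matrix.map_mul, h.hB, Matrix.map_one _ θ.map_zero θ.map_one]
  hC := by rw [← Matrix.map_mul, h.hC, Matrix.map_one _ θ.map_zero θ.map_one]

@[simp] theorem map_B {S : Type*} [CommRing S] (h : RankFact A ρ) (θ : R →+* S) :
    (h.map θ).B = h.B.map θ := rfl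

@[simp] theorem map_C {S : Type*} [CommRing S] (h : RankFact A ρ) (θ : R →+* S) :
    (h.map θ).C = h.C.map θ := rfl

@[simp] theorem map_B' {S : Type*} [CommRing S] (h : RankFact A ρ) (θ : R →+* S) :
    (h.map θ).B' = h.B'.map θ := rfl

@[simp] theorem map_C' {S : Type*} [CommRing S] (h : RankFact A ρ) (θ : R →+* S) :
    (h.map θ).C' = h.C'.map θ := rfl

/-- `B' * A = C`. -/
theorem B'_mul (h : RankFact A ρ) : h.B' * A = h.C := by
  have h1 : h.B' * A = h.B' * (h.B * h.C) := congrArg (fun X => h.B' * X) h.fact
  rw [h1, ← Matrix.mul_assoc, h.hB, Matrix.one_mul]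

/-- `A * C' = B`. -/
theorem mul_C' (h : RankFact A ρ) : A * h.C' = h.B := by
  have h1 : A * h.C' = h.B * h.C * h.C' := congrArg (fun X => X * h.C') h.fact
  rw [h1, Matrix.mul_assoc, h.hC, Matrix.mul_one]

/-- `B * B' * A = A`. -/
theorem proj_mul (h : RankFact A ρ) : h.B * h.B' * A = A := by
  rw [Matrix.mul_assoc, h.B'_mul, ← h.fact]

/-- `A * (C' * C) = A`. -/
theorem mul_proj (h : RankFact A ρ) : A * (h.C' * h.C) = A := by
  rw [← Matrix.mul_assoc, h.mul_C', ← h.fact]

/-- `B` is injective. -/
theorem mulVec_B_injective (h : RankFact A ρ) : Function.Injective h.B.mulVec := by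
  intro x y hxy
  have h1 := congrArg h.B'.mulVec hxy
  rwa [Matrix.mulVec_mulVec, Matrix.mulVec_mulVec, h.hB, Matrix.one_mulVec,
    Matrix.one_mulVec] at h1

/-- `C` is surjective. -/
theorem mulVec_C_surjective (h : RankFact A ρ) : Function.Surjective h.C.mulVec := by
  intro y
  refine ⟨h.C'.mulVec y, ?_⟩
  rw [Matrix.mulVec_mulVec, h.hC, Matrix.one_mulVec]

/-- The range of `A` is the range of `B`. -/
theorem range_eq (h : RankFact A ρ) :
    LinearMap.range A.mulVecLin = LinearMap.range h.B.mulVecLin := by
  apply le_antisymm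
  · rintro _ ⟨x, rfl⟩
    refine ⟨h.C.mulVec x, ?_⟩
    simp only [Matrix.mulVecLin_apply]
    rw [Matrix.mulVec_mulVec, ← h.fact]
  · rintro _ ⟨y, rfl⟩
    refine ⟨h.C'.mulVec y, ?_⟩
    simp only [Matrix.mulVecLin_apply]
    rw [Matrix.mulVec_mulVec, h.mul_C']

/-- The kernel of `A` is the kernel of `C`. -/
theorem ker_eq (h : RankFact A ρ) :
    LinearMap.ker A.mulVecLin = LinearMap.ker h.C.mulVecLin := by
  ext x
  simp only [LinearMap.mem_ker, Matrix.mulVecLin_apply]
  constructor
  · intro hx
    have h1 := congrArg h.B'.mulVec hx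
    rwa [Matrix.mulVec_mulVec, h.B'_mul, Matrix.mulVec_zero] at h1
  · intro hx
    have h1 : A.mulVec x = (h.B * h.C).mulVec x := congrArg (fun X => Matrix.mulVec X x) h.fact
    rw [h1, ← Matrix.mulVec_mulVec, hx, Matrix.mulVec_zero]

/-- Membership in the range of `A`: fixed by the projection `B * B'`. -/
theorem mem_range_iff (h : RankFact A ρ) (y : m → R) :
    y ∈ LinearMap.range A.mulVecLin ↔ (h.B * h.B').mulVec y = y := by
  rw [h.range_eq]
  constructor
  · rintro ⟨x, rfl⟩
    simp only [Matrix.mulVecLin_apply]
    rw [Matrix.mulVec_mulVec, Matrix.mul_assoc, h.hB, Matrix.mul_one]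
  · intro hy
    refine ⟨h.B'.mulVec y, ?_⟩
    simp only [Matrix.mulVecLin_apply]
    rw [Matrix.mulVec_mulVec, hy]

/-- Membership in the kernel of `A`: fixed by the projection `1 - C' * C`. -/
theorem mem_ker_iff [DecidableEq n] (h : RankFact A ρ) (x : n → R) :
    x ∈ LinearMap.ker A.mulVecLin ↔ (1 - h.C' * h.C).mulVec x = x := by
  rw [h.ker_eq]
  simp only [LinearMap.mem_ker, Matrix.mulVecLin_apply]
  constructor
  · intro hx
    rw [Matrix.sub_mulVec, Matrix.one_mulVec, ← Matrix.mulVec_mulVec, hx, Matrix.mulVec_zero,
      sub_zero]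
  · intro hx
    rw [← hx, Matrix.mulVec_mulVec, Matrix.mul_sub, Matrix.mul_one, ← Matrix.mul_assoc, h.hC,
      Matrix.one_mul, sub_self, Matrix.zero_mulVec]

/-- The kernel of `A` is the range of the projection `1 - C' * C`. -/
theorem ker_eq_range [DecidableEq n] (h : RankFact A ρ) :
    LinearMap.ker A.mulVecLin = LinearMap.range (1 - h.C' * h.C).mulVecLin := by
  ext x
  rw [h.mem_ker_iff]
  constructor
  · intro hx
    exact ⟨x, hx⟩
  · rintro ⟨y, rfl⟩
    simp only [Matrix.mulVecLin_apply]
    rw [Matrix.mulVec_mulVec]
    congr 1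
    rw [Matrix.sub_mul, Matrix.one_mul, Matrix.mul_sub, Matrix.mul_one, Matrix.mul_assoc,
      ← Matrix.mul_assoc h.C, h.hC, Matrix.one_mul, sub_self, sub_zero]

/-- `B * B'` is idempotent. -/
theorem proj_range_idem (h : RankFact A ρ) : (h.B * h.B') * (h.B * h.B') = h.B * h.B' := by
  rw [Matrix.mul_assoc, ← Matrix.mul_assoc h.B', h.hB, Matrix.one_mul]

/-- `C' * C` is idempotent. -/
theorem proj_coimage_idem (h : RankFact A ρ) : (h.C' * h.C) * (h.C' * h.C) = h.C' * h.C := by
  rw [Matrix.mul_assoc, ← Matrix.mul_assoc h.C, h.hC, Matrix.one_mul]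

/-- The columns of `B` are linearly independent. -/
theorem linearIndependent_col_B (h : RankFact A ρ) : LinearIndependent R h.B.col :=
  Matrix.mulVec_injective_iff.1 h.mulVec_B_injective

/-- Over a field, a matrix with a split rank factorisation of size `ρ` has rank `ρ`. -/
theorem rank_eq {K : Type*} [Field K] {A : Matrix m n K} {ρ : ℕ} (h : RankFact A ρ) :
    A.rank = ρ := by
  apply le_antisymm
  · calc A.rank = (h.B * h.C).rank := by rw [← h.fact]
      _ ≤ h.B.rank := Matrix.rank_mul_le_left _ _
      _ ≤ Fintype.card (Fin ρ) := Matrix.rank_le_card_width _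
      _ = ρ := Fintype.card_fin ρ
  · have h1 : (1 : Matrix (Fin ρ) (Fin ρ) K) = h.B' * A * h.C' := by
      rw [h.B'_mul, h.hC]
    calc ρ = Fintype.card (Fin ρ) := (Fintype.card_fin ρ).symm
      _ = (1 : Matrix (Fin ρ) (Fin ρ) K).rank := Matrix.rank_one.symm
      _ = (h.B' * A * h.C').rank := by rw [← h1]
      _ ≤ (h.B' * A).rank := Matrix.rank_mul_le_left _ _
      _ ≤ A.rank := Matrix.rank_mul_le_right _ _

/-- The rank of every field-valued base change is `ρ`. -/
theorem rank_map_eq (h : RankFact A ρ) {K : Type*} [Field K] (θ : R →+* K) :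
    (A.map θ).rank = ρ :=
  (h.map θ).rank_eq

end RankFact

/-! ### Existence -/

section Exists

variable [IsLocalRing R]

/-- A square matrix over a local ring which is the identity modulo the maximal ideal is
invertible. -/
theorem isUnit_det_of_map_residue_eq_one {ρ : ℕ} (G : Matrix (Fin ρ) (Fin ρ) R)
    (hG : G.map (IsLocalRing.residue R) = 1) : IsUnit G.det := by
  have h1 : IsLocalRing.residue R G.det = 1 := by
    rw [RingHom.map_det, RingHom.mapMatrix_apply, hG, Matrix.det_one]
  by_contra hu
  have h2 : G.det ∈ IsLocalRing.maximalIdeal R := (IsLocalRing.mem_maximalIdeal _).2 hu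
  have h3 : IsLocalRing.residue R G.det = 0 := (IsLocalRing.residue_eq_zero_iff _).2 h2
  rw [h3] at h1
  exact zero_ne_one h1

/-- **The constant-rank lemma.**  If the rank of `A` at every point of a jointly injective
family of field-valued points is at most its rank at the closed point, then `A` has a split rank
factorisation (whose size is the rank at the closed point). -/
theorem exists_rankFact (A : Matrix m n R) {ι : Type*} {K : ι → Type*} [∀ i, Field (K i)]
    (χ : ∀ i, R →+* K i) (hχ : ∀ r : R, (∀ i, χ i r = 0) → r = 0)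
    (hrank : ∀ i, (A.map (χ i)).rank ≤ (A.map (IsLocalRing.residue R)).rank) :
    Nonempty (RankFact A (A.map (IsLocalRing.residue R)).rank) := by
  classical
  set k := IsLocalRing.ResidueField R
  set res : R →+* k := IsLocalRing.residue R with hres
  set Abar : Matrix m n k := A.map res with hAbar
  set ρ := Abar.rank with hρ
  -- choose `ρ` linearly independent columns of `Abar`
  obtain ⟨κ, a, ha, hspan, hli⟩ := exists_linearIndependent' k Abar.col
  have : Finite κ := Finite.of_injective a ha
  let _ : Fintype κ := Fintype.ofFinite κ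
  have hcard : Fintype.card κ = ρ := by
    rw [hρ, Matrix.rank_eq_finrank_span_cols, ← hspan, finrank_span_eq_card hli]
  let e : κ ≃ Fin ρ := Fintype.equivFinOfCardEq hcard
  let J : Fin ρ → n := a ∘ e.symm
  have hliJ : LinearIndependent k (Abar.col ∘ J) := by
    have := hli.comp e.symm e.symm.injective
    exact this
  -- the matrix of the chosen columns
  let B : Matrix m (Fin ρ) R := A.submatrix id J
  have hBbar : B.map res = Abar.submatrix id J := rfl
  have hBcol : (B.map res).col = Abar.col ∘ J := by
    funext j i
    rfl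
  -- a left inverse modulo the maximal ideal
  have hinj : Function.Injective (B.map res).mulVec := by
    rw [Matrix.mulVec_injective_iff, hBcol]
    exact hliJ
  have hker : LinearMap.ker (B.map res).mulVecLin = ⊥ :=
    LinearMap.ker_eq_bot.2 hinj
  obtain ⟨g, hg⟩ := LinearMap.exists_leftInverse_of_injective _ hker
  let Gbar : Matrix (Fin ρ) m k := LinearMap.toMatrix' g
  have hGbar : Gbar * B.map res = 1 := by
    have h1 : LinearMap.toMatrix' (g.comp (B.map res).mulVecLin) = 1 := by
      rw [hg, LinearMap.toMatrix'_id]
    rw [LinearMap.toMatrix'_comp, ← Matrix.toLin'_apply', LinearMap.toMatrix'_toLin'] at h1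
    exact h1
  -- lift it
  have hsurj : Function.Surjective res := IsLocalRing.residue_surjective
  let B0 : Matrix (Fin ρ) m R := Matrix.of fun i j => (hsurj (Gbar i j)).choose
  have hB0 : B0.map res = Gbar := by
    ext i j
    exact (hsurj (Gbar i j)).choose_spec
  have hdet : IsUnit (B0 * B).det := by
    apply isUnit_det_of_map_residue_eq_one
    rw [Matrix.map_mul, hB0]
    exact hGbar
  let B' : Matrix (Fin ρ) m R := (B0 * B)⁻¹ * B0
  have hB'B : B' * B = 1 := by
    show (B0 * B)⁻¹ * B0 * B = 1
    rw [Matrix.mul_assoc]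
    exact Matrix.nonsing_inv_mul _ hdet
  -- the column selector
  let C' : Matrix n (Fin ρ) R := Matrix.of fun l j => if l = J j then 1 else 0
  have hAC' : A * C' = B := by
    ext i j
    simp only [Matrix.mul_apply, C', Matrix.of_apply, mul_ite, mul_one, mul_zero,
      Finset.sum_ite_eq', Finset.mem_univ, if_true, B, Matrix.submatrix_apply, id]
  -- the factorisation, checked at all points
  have hfact : B * B' * A = A := by
    have key : ∀ i, (B * B' * A).map (χ i) = A.map (χ i) := by
      intro i
      set θ := χ i with hθ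
      set Aθ := A.map θ with hAθ
      set Bθ := B.map θ with hBθ
      set Bθ' := B'.map θ with hBθ'
      have h1 : Bθ' * Bθ = 1 := by
        rw [hBθ', hBθ, ← Matrix.map_mul, hB'B, Matrix.map_one _ θ.map_zero θ.map_one]
      have hinjθ : Function.Injective Bθ.mulVec := by
        intro x y hxy
        have h2 := congrArg Bθ'.mulVec hxy
        rwa [Matrix.mulVec_mulVec, Matrix.mulVec_mulVec, h1, Matrix.one_mulVec,
          Matrix.one_mulVec] at h2
      have hliθ : LinearIndependent (K i) Bθ.col := Matrix.mulVec_injective_iff.1 hinjθ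
      have hle : Submodule.span (K i) (Set.range Bθ.col) ≤
          Submodule.span (K i) (Set.range Aθ.col) := by
        apply Submodule.span_mono
        rintro _ ⟨j, rfl⟩
        exact ⟨J j, rfl⟩
      have hfin : Module.finrank (K i) (Submodule.span (K i) (Set.range Aθ.col)) ≤
          Module.finrank (K i) (Submodule.span (K i) (Set.range Bθ.col)) := by
        rw [finrank_span_eq_card hliθ, Fintype.card_fin, ← Matrix.rank_eq_finrank_span_cols]
        exact hrank i
      have heq := Submodule.eq_of_le_of_finrank_le hle hfin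
      have hmem : ∀ j, Aθ.col j ∈ LinearMap.range Bθ.mulVecLin := by
        intro j
        rw [Matrix.range_mulVecLin, heq]
        exact Submodule.subset_span ⟨j, rfl⟩
      rw [Matrix.map_mul, Matrix.map_mul]
      show Bθ * Bθ' * Aθ = Aθ
      ext r j
      obtain ⟨y, hy⟩ := hmem j
      have h3 : (Bθ * Bθ').mulVec (Aθ.col j) = Aθ.col j := by
        rw [← hy]
        simp only [Matrix.mulVecLin_apply]
        rw [Matrix.mulVec_mulVec, Matrix.mul_assoc, h1, Matrix.mul_one]
      have h4 := congrFun h3 r
      simp only [Matrix.mulVec, dotProduct, Matrix.col_apply] at h4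
      rw [Matrix.mul_apply]
      exact h4
    ext r j
    have h5 : (B * B' * A) r j - A r j = 0 := by
      apply hχ
      intro i
      have h6 := congrFun (congrFun (key i) r) j
      simp only [Matrix.map_apply] at h6
      rw [map_sub, h6, sub_self]
    exact sub_eq_zero.1 h5
  refine ⟨{ B := B, C := B' * A, B' := B', C' := C', fact := ?_, hB := hB'B, hC := ?_ }⟩
  · rw [← Matrix.mul_assoc, hfact]
  · rw [Matrix.mul_assoc, hAC', hB'B]

/-- The constant-rank lemma, with the rank named. -/
theorem exists_rankFact' (A : Matrix m n R) {ι : Type*} {K : ι → Type*} [∀ i, Field (K i)]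
    (χ : ∀ i, R →+* K i) (hχ : ∀ r : R, (∀ i, χ i r = 0) → r = 0) (ρ : ℕ)
    (hρ : (A.map (IsLocalRing.residue R)).rank = ρ)
    (hrank : ∀ i, (A.map (χ i)).rank ≤ ρ) : Nonempty (RankFact A ρ) := by
  subst hρ
  exact exists_rankFact A χ hχ hrank

end Exists

end Fermat.Agent.Lib.LinAlg.ConstRank
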