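import Fermat.Agent.Lib.LinAlg.ConstRank

/-!
# Consumer forms of the constant-rank lemma: kernel bases and graph form

This file continues `Fermat.Agent.Lib.LinAlg.ConstRank`.

* `KerFact A ν` : a *split kernel basis* of `A`: matrices `N : n × ν`, `N' : ν × n`, `X : n × m`
  with `N' * N = 1`, `A * N = 0`, `N * N' + X * A = 1`.  It is stable under every base change
  (`KerFact.map`) and says that `ker A = range N` is a free direct summand with the columns of
  `N` as a basis (and the same after every base change).
* `RankFact.exists_kerFact` : over a local ring, a split rank factorisation of size `ρ` yields a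
  split kernel basis of size `card n - ρ`.
* `GraphFact M p q` : *graph form* of the column space `W` of `M : m × κ` with respect to two
  families of coordinates `p : α → m` ("the first `a` coordinates") and `q : γ → m`
  ("the remaining coordinates"): a two-sided inverse `T'` of the `p`-rows of `M` and the matrix
  `Φ = (q-rows of M) * T' : γ × α`.  Then `W = {w | w ∘ q = Φ (w ∘ p)}` is the graph of `Φ`
  (`GraphFact.mem_range_iff`), `Φ` only depends on `W` (`GraphFact.Φ_unique`), and all this is
  stable under every base change (`GraphFact.map`, `GraphFact.mem_range_map_iff`).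
* `exists_graphFact` : over a local ring, if the `p`-rows of `M` are invertible modulo the
  maximal ideal (i.e. the reduction of `W` projects isomorphically onto the `p`-coordinates),
  then `M` has a graph form.
-/

set_option autoImplicit false

open Matrix

namespace Fermat.Agent.Lib.LinAlg.ConstRank

universe u v w

/-! ### Inverses over a local ring, detected modulo the maximal ideal -/

section LocalInverse

variable {R : Type u} [CommRing R] [IsLocalRing R]

/-- A square matrix (any finite index type) over a local ring which is the identity modulo the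
maximal ideal is invertible. -/
theorem isUnit_det_of_map_residue_eq_one' {ι : Type*} [Fintype ι] [DecidableEq ι]
    (G : Matrix ι ι R) (hG : G.map (IsLocalRing.residue R) = 1) : IsUnit G.det := by
  have h1 : IsLocalRing.residue R G.det = 1 := by
    rw [RingHom.map_det, RingHom.mapMatrix_apply, hG, Matrix.det_one]
  by_contra hu
  have h2 : G.det ∈ IsLocalRing.maximalIdeal R := (IsLocalRing.mem_maximalIdeal _).2 hu
  have h3 : IsLocalRing.residue R G.det = 0 := (IsLocalRing.residue_eq_zero_iff _).2 h2
  rw [h3] at h1
  exact zero_ne_one h1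

/-- Every matrix over the residue field lifts. -/
theorem exists_map_residue_eq {m n : Type*} (G : Matrix m n (IsLocalRing.ResidueField R)) :
    ∃ G0 : Matrix m n R, G0.map (IsLocalRing.residue R) = G := by
  refine ⟨Matrix.of fun i j => (IsLocalRing.residue_surjective (G i j)).choose, ?_⟩
  ext i j
  exact (IsLocalRing.residue_surjective (G i j)).choose_spec

/-- A matrix over a local ring which is injective modulo the maximal ideal has a left inverse. -/
theorem exists_leftInverse_of_residue {m κ : Type*} [Fintype m] [Fintype κ] [DecidableEq κ]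
    (M : Matrix m κ R)
    (hM : Function.Injective (M.map (IsLocalRing.residue R)).mulVec) :
    ∃ L : Matrix κ m R, L * M = 1 := by
  classical
  have hker : LinearMap.ker (M.map (IsLocalRing.residue R)).mulVecLin = ⊥ :=
    LinearMap.ker_eq_bot.2 hM
  obtain ⟨g, hg⟩ := LinearMap.exists_leftInverse_of_injective _ hker
  have hGbar : LinearMap.toMatrix' g * M.map (IsLocalRing.residue R) = 1 := by
    have h1 : LinearMap.toMatrix' (g.comp (M.map (IsLocalRing.residue R)).mulVecLin) = 1 := by
      rw [hg, LinearMap.toMatrix'_id]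
    rw [LinearMap.toMatrix'_comp, ← Matrix.toLin'_apply', LinearMap.toMatrix'_toLin'] at h1
    exact h1
  obtain ⟨L0, hL0⟩ := exists_map_residue_eq (R := R) (LinearMap.toMatrix' g)
  have hdet : IsUnit (L0 * M).det := by
    apply isUnit_det_of_map_residue_eq_one'
    rw [Matrix.map_mul, hL0]
    exact hGbar
  refine ⟨(L0 * M)⁻¹ * L0, ?_⟩
  rw [Matrix.mul_assoc]
  exact Matrix.nonsing_inv_mul _ hdet

/-- A matrix over a local ring which is surjective modulo the maximal ideal has a right
inverse. -/
theorem exists_rightInverse_of_residue {m κ : Type*} [Fintype m] [Fintype κ] [DecidableEq m]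
    (M : Matrix m κ R)
    (hM : Function.Surjective (M.map (IsLocalRing.residue R)).mulVec) :
    ∃ L : Matrix κ m R, M * L = 1 := by
  obtain ⟨Lbar, hLbar⟩ := Matrix.mulVec_surjective_iff_exists_right_inverse.1 hM
  obtain ⟨L0, hL0⟩ := exists_map_residue_eq (R := R) Lbar
  have hdet : IsUnit (M * L0).det := by
    apply isUnit_det_of_map_residue_eq_one'
    rw [Matrix.map_mul, hL0]
    exact hLbar
  refine ⟨L0 * (M * L0)⁻¹, ?_⟩
  rw [← Matrix.mul_assoc]
  exact Matrix.mul_nonsing_inv _ hdet

/-- A matrix over a local ring which is bijective modulo the maximal ideal has a two-sided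
inverse. -/
theorem exists_inverse_of_residue {m κ : Type*} [Fintype m] [Fintype κ] [DecidableEq m]
    [DecidableEq κ] (M : Matrix m κ R)
    (hM : Function.Bijective (M.map (IsLocalRing.residue R)).mulVec) :
    ∃ L : Matrix κ m R, L * M = 1 ∧ M * L = 1 := by
  obtain ⟨L1, hL1⟩ := exists_leftInverse_of_residue M hM.1
  obtain ⟨L2, hL2⟩ := exists_rightInverse_of_residue M hM.2
  have h12 : L1 = L2 := by
    calc L1 = L1 * (M * L2) := by rw [hL2, Matrix.mul_one]
      _ = (L1 * M) * L2 := by rw [Matrix.mul_assoc]
      _ = L2 := by rw [hL1, Matrix.one_mul]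
  exact ⟨L1, hL1, by rw [h12]; exact hL2⟩

end LocalInverse

/-! ### Splitting idempotent matrices over a local ring -/

section Idempotent

/-- Over a field, finitely many of the columns of a matrix form a basis of its column space. -/
theorem exists_basis_cols {K : Type*} [Field K] {m n : Type*} [Finite n]
    (A : Matrix m n K) :
    ∃ (ρ : ℕ) (J : Fin ρ → n), LinearIndependent K (A.col ∘ J) ∧
      Submodule.span K (Set.range (A.col ∘ J)) = Submodule.span K (Set.range A.col) := by
  classical
  obtain ⟨κ, a, ha, hspan, hli⟩ := exists_linearIndependent' K A.col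
  have : Finite κ := Finite.of_injective a ha
  let _ : Fintype κ := Fintype.ofFinite κ
  let e : κ ≃ Fin (Fintype.card κ) := Fintype.equivFin κ
  refine ⟨Fintype.card κ, a ∘ e.symm, ?_, ?_⟩
  · exact hli.comp e.symm e.symm.injective
  · rw [← hspan]
    congr 1
    ext x
    constructor
    · rintro ⟨j, rfl⟩
      exact ⟨e.symm j, rfl⟩
    · rintro ⟨j, rfl⟩
      exact ⟨e j, by simp⟩

variable {R : Type u} [CommRing R] [IsLocalRing R]
variable {n : Type w} [Fintype n] [DecidableEq n]

/-- **Idempotent matrices over a local ring split**: `P = N * N'` with `N' * N = 1`.  (The image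
of `P` is free with the columns of `N` as a basis.) -/
theorem exists_split_of_idempotent (P : Matrix n n R) (hP : P * P = P) :
    ∃ (ν : ℕ) (N : Matrix n (Fin ν) R) (N' : Matrix (Fin ν) n R), N' * N = 1 ∧ N * N' = P := by
  classical
  set k := IsLocalRing.ResidueField R
  set res : R →+* k := IsLocalRing.residue R with hres
  set Q : Matrix n n R := 1 - P with hQ
  have hPQ : P * Q = 0 := by
    rw [hQ, Matrix.mul_sub, Matrix.mul_one, hP, sub_self]
  obtain ⟨ν, J, hliJ, hspanJ⟩ := exists_basis_cols (P.map res)
  obtain ⟨ρ', J', -, hspanJ'⟩ := exists_basis_cols (Q.map res)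
  -- the chosen columns
  set N : Matrix n (Fin ν) R := P.submatrix id J with hN
  set QJ : Matrix n (Fin ρ') R := Q.submatrix id J' with hQJ
  have hPN : P * N = N := by
    ext i j
    have h1 := congrFun (congrFun hP i) (J j)
    simpa [Matrix.mul_apply, hN] using h1
  have hPQJ : P * QJ = 0 := by
    ext i j
    have h1 := congrFun (congrFun hPQ i) (J' j)
    simpa [Matrix.mul_apply, hQJ] using h1
  -- a left inverse of `N`
  have hNcol : (N.map res).col = (P.map res).col ∘ J := by
    funext j i
    rfl
  have hinj : Function.Injective (N.map res).mulVec := by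
    rw [Matrix.mulVec_injective_iff, hNcol]
    exact hliJ
  obtain ⟨L, hL⟩ := exists_leftInverse_of_residue N hinj
  -- `[N | QJ]` is surjective modulo the maximal ideal
  set M : Matrix n (Fin ν ⊕ Fin ρ') R := Matrix.fromCols N QJ with hM
  have hsurj : Function.Surjective (M.map res).mulVec := by
    intro x
    have hx : x ∈ LinearMap.range (M.map res).mulVecLin := by
      rw [Matrix.range_mulVecLin]
      have hsum : x = (P.map res).mulVec x + (Q.map res).mulVec x := by
        rw [← Matrix.add_mulVec, ← Matrix.map_add (hf := res.map_add), hQ, add_sub_cancel,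
          Matrix.map_one _ res.map_zero res.map_one, Matrix.one_mulVec]
      rw [hsum]
      apply Submodule.add_mem
      · have h1 : (P.map res).mulVec x ∈ LinearMap.range (P.map res).mulVecLin := ⟨x, rfl⟩
        rw [Matrix.range_mulVecLin, ← hspanJ] at h1
        refine Submodule.span_mono ?_ h1
        rintro _ ⟨j, rfl⟩
        refine ⟨Sum.inl j, ?_⟩
        funext i
        rfl
      · have h1 : (Q.map res).mulVec x ∈ LinearMap.range (Q.map res).mulVecLin := ⟨x, rfl⟩
        rw [Matrix.range_mulVecLin, ← hspanJ'] at h1
        refine Submodule.span_mono ?_ h1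
        rintro _ ⟨j, rfl⟩
        refine ⟨Sum.inr j, ?_⟩
        funext i
        rfl
    obtain ⟨y, hy⟩ := hx
    exact ⟨y, hy⟩
  obtain ⟨Rr, hRr⟩ := exists_rightInverse_of_residue M hsurj
  have hsplit : N * Rr.toRows₁ + QJ * Rr.toRows₂ = 1 := by
    rw [← Matrix.fromCols_mul_fromRows, Matrix.fromRows_toRows]
    exact hRr
  have hNN' : N * Rr.toRows₁ = P := by
    have h1 : P * (N * Rr.toRows₁ + QJ * Rr.toRows₂) = P := by rw [hsplit, Matrix.mul_one]
    rw [Matrix.mul_add, ← Matrix.mul_assoc, ← Matrix.mul_assoc, hPN, hPQJ, Matrix.zero_mul,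
      add_zero] at h1
    exact h1
  refine ⟨ν, N, Rr.toRows₁, ?_, hNN'⟩
  calc Rr.toRows₁ * N = (L * N) * (Rr.toRows₁ * N) := by rw [hL, Matrix.one_mul]
    _ = L * (N * Rr.toRows₁) * N := by simp only [Matrix.mul_assoc]
    _ = L * (P * N) := by rw [hNN', Matrix.mul_assoc]
    _ = 1 := by rw [hPN, hL]

end Idempotent

/-! ### Split kernel bases -/

section Ker

variable {R : Type u} [CommRing R]
variable {m : Type v} {n : Type w} [Fintype m] [Fintype n]

/-- A split kernel basis of `A`: the columns of `N` are a basis of `ker A`, which is a direct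
summand (`N * N'` is a projection onto it), and this persists after every base change. -/
structure KerFact [DecidableEq n] (A : Matrix m n R) (ν : ℕ) where
  /-- the columns of `N` are a basis of the kernel of `A` -/
  N : Matrix n (Fin ν) R
  /-- a left inverse of `N` -/
  N' : Matrix (Fin ν) n R
  /-- witness that the kernel is not bigger than the range of `N` -/
  X : Matrix n m R
  hN : N' * N = 1
  hAN : A * N = 0
  hX : N * N' + X * A = 1

namespace KerFact

variable [DecidableEq n] {A : Matrix m n R} {ν : ℕ}

/-- Base change of a split kernel basis along any ring homomorphism. -/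
def map {S : Type*} [CommRing S] (k : KerFact A ν) (θ : R →+* S) : KerFact (A.map θ) ν where
  N := k.N.map θ
  N' := k.N'.map θ
  X := k.X.map θ
  hN := by rw [← Matrix.map_mul, k.hN, Matrix.map_one _ θ.map_zero θ.map_one]
  hAN := by rw [← Matrix.map_mul, k.hAN, Matrix.map_zero _ θ.map_zero]
  hX := by
    rw [← Matrix.map_mul, ← Matrix.map_mul, ← Matrix.map_add (hf := θ.map_add), k.hX,
      Matrix.map_one _ θ.map_zero θ.map_one]

@[simp] theorem map_N {S : Type*} [CommRing S] (k : KerFact A ν) (θ : R →+* S) :
    (k.map θ).N = k.N.map θ := rfl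

@[simp] theorem map_N' {S : Type*} [CommRing S] (k : KerFact A ν) (θ : R →+* S) :
    (k.map θ).N' = k.N'.map θ := rfl

@[simp] theorem map_X {S : Type*} [CommRing S] (k : KerFact A ν) (θ : R →+* S) :
    (k.map θ).X = k.X.map θ := rfl

/-- `N` is injective. -/
theorem mulVec_N_injective (k : KerFact A ν) : Function.Injective k.N.mulVec := by
  intro x y hxy
  have h1 := congrArg k.N'.mulVec hxy
  rwa [Matrix.mulVec_mulVec, Matrix.mulVec_mulVec, k.hN, Matrix.one_mulVec,
    Matrix.one_mulVec] at h1

/-- The columns of `N` are linearly independent. -/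
theorem linearIndependent_col_N (k : KerFact A ν) : LinearIndependent R k.N.col :=
  Matrix.mulVec_injective_iff.1 k.mulVec_N_injective

/-- The columns of `N` lie in the kernel. -/
theorem mulVec_N (k : KerFact A ν) (y : Fin ν → R) : A.mulVec (k.N.mulVec y) = 0 := by
  rw [Matrix.mulVec_mulVec, k.hAN, Matrix.zero_mulVec]

/-- Kernel vectors are fixed by the projection `N * N'`. -/
theorem proj_of_mem_ker (k : KerFact A ν) {x : n → R} (hx : A.mulVec x = 0) :
    (k.N * k.N').mulVec x = x := by
  have h1 : (k.N * k.N' + k.X * A).mulVec x = x := by rw [k.hX, Matrix.one_mulVec]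
  rwa [Matrix.add_mulVec, ← Matrix.mulVec_mulVec (M := k.X), hx, Matrix.mulVec_zero, add_zero]
    at h1

/-- Membership in the kernel of `A`: fixed by the projection `N * N'`. -/
theorem mem_ker_iff (k : KerFact A ν) (x : n → R) :
    A.mulVec x = 0 ↔ (k.N * k.N').mulVec x = x := by
  constructor
  · exact k.proj_of_mem_ker
  · intro hx
    rw [← hx, ← Matrix.mulVec_mulVec]
    exact k.mulVec_N _

/-- Membership in the kernel of `A`: being a combination of the columns of `N`. -/
theorem mem_ker_iff_exists (k : KerFact A ν) (x : n → R) :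
    A.mulVec x = 0 ↔ ∃ y : Fin ν → R, k.N.mulVec y = x := by
  constructor
  · intro hx
    refine ⟨k.N'.mulVec x, ?_⟩
    rw [Matrix.mulVec_mulVec]
    exact k.proj_of_mem_ker hx
  · rintro ⟨y, rfl⟩
    exact k.mulVec_N y

/-- The kernel of `A` is the range of `N`. -/
theorem ker_eq_range (k : KerFact A ν) :
    LinearMap.ker A.mulVecLin = LinearMap.range k.N.mulVecLin := by
  ext x
  rw [LinearMap.mem_ker, Matrix.mulVecLin_apply, k.mem_ker_iff_exists]
  rfl

/-- `N * N'` is idempotent. -/
theorem proj_idem (k : KerFact A ν) : (k.N * k.N') * (k.N * k.N') = k.N * k.N' := by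
  rw [Matrix.mul_assoc, ← Matrix.mul_assoc k.N', k.hN, Matrix.one_mul]

/-- `A * (N * N') = 0`. -/
theorem mul_proj (k : KerFact A ν) : A * (k.N * k.N') = 0 := by
  rw [← Matrix.mul_assoc, k.hAN, Matrix.zero_mul]

/-- The free direct summand `ker A` with its basis: the linear equivalence
`R^ν ≃ ker A` given by `N` (with inverse given by `N'`). -/
def kerEquiv (k : KerFact A ν) : (Fin ν → R) ≃ₗ[R] LinearMap.ker A.mulVecLin where
  toFun y := ⟨k.N.mulVec y, by
    rw [LinearMap.mem_ker, Matrix.mulVecLin_apply]
    exact k.mulVec_N y⟩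
  map_add' y z := by
    apply Subtype.ext
    simp [Matrix.mulVec_add]
  map_smul' c y := by
    apply Subtype.ext
    simp [Matrix.mulVec_smul]
  invFun x := k.N'.mulVec x.1
  left_inv y := by
    show k.N'.mulVec (k.N.mulVec y) = y
    rw [Matrix.mulVec_mulVec, k.hN, Matrix.one_mulVec]
  right_inv x := by
    apply Subtype.ext
    show k.N.mulVec (k.N'.mulVec x.1) = x.1
    rw [Matrix.mulVec_mulVec]
    exact k.proj_of_mem_ker (LinearMap.mem_ker.1 x.2)

@[simp] theorem kerEquiv_apply_coe (k : KerFact A ν) (y : Fin ν → R) :
    (k.kerEquiv y : n → R) = k.N.mulVec y := rfl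

@[simp] theorem kerEquiv_symm_apply (k : KerFact A ν) (x : LinearMap.ker A.mulVecLin) :
    k.kerEquiv.symm x = k.N'.mulVec x.1 := rfl

end KerFact

/-- Over a field, the size of a split kernel basis is the nullity. -/
theorem KerFact.rank_add_eq {K : Type*} [Field K] [DecidableEq n] {A : Matrix m n K} {ν : ℕ}
    (k : KerFact A ν) : A.rank + ν = Fintype.card n := by
  have h1 := LinearMap.finrank_range_add_finrank_ker A.mulVecLin
  rw [Module.finrank_fintype_fun_eq_card] at h1
  have h2 : Module.finrank K (LinearMap.ker A.mulVecLin) = ν := by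
    rw [← k.kerEquiv.finrank_eq, Module.finrank_fintype_fun_eq_card, Fintype.card_fin]
  rw [h2] at h1
  exact h1

/-- Over a nontrivial ring, the sizes of a split rank factorisation and a split kernel basis add
up to the number of columns. -/
theorem RankFact.add_eq_card [Nontrivial R] [DecidableEq n] {A : Matrix m n R} {ρ ν : ℕ}
    (h : RankFact A ρ) (k : KerFact A ν) : ρ + ν = Fintype.card n := by
  obtain ⟨I, hI⟩ := Ideal.exists_maximal R
  let _ : Field (R ⧸ I) := Ideal.Quotient.field I
  have h1 := (k.map (Ideal.Quotient.mk I)).rank_add_eq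
  rw [(h.map (Ideal.Quotient.mk I)).rank_eq] at h1
  exact h1

/-- **Kernel form of the constant-rank lemma.**  Over a local ring, a matrix with a split rank
factorisation has a split kernel basis: its kernel is a free direct summand, with a basis that
remains a basis of the kernel after every base change. -/
theorem RankFact.exists_kerFact' [IsLocalRing R] [DecidableEq n] {A : Matrix m n R} {ρ : ℕ}
    (h : RankFact A ρ) : ∃ ν : ℕ, ρ + ν = Fintype.card n ∧ Nonempty (KerFact A ν) := by
  have hP : (1 - h.C' * h.C) * (1 - h.C' * h.C) = 1 - h.C' * h.C := by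
    rw [Matrix.sub_mul, Matrix.one_mul, Matrix.mul_sub, Matrix.mul_one, h.proj_coimage_idem,
      sub_self, sub_zero]
  obtain ⟨ν, N, N', hN, hNN'⟩ := exists_split_of_idempotent _ hP
  have hAN : A * N = 0 := by
    calc A * N = A * (N * (N' * N)) := by rw [hN, Matrix.mul_one]
      _ = A * (N * N') * N := by simp only [Matrix.mul_assoc]
      _ = 0 := by
        rw [hNN', Matrix.mul_sub, Matrix.mul_one, h.mul_proj, sub_self, Matrix.zero_mul]
  let k : KerFact A ν :=
    { N := N, N' := N', X := h.C' * h.B', hN := hN, hAN := hAN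
      hX := by rw [hNN', Matrix.mul_assoc, h.B'_mul, sub_add_cancel] }
  exact ⟨ν, h.add_eq_card k, ⟨k⟩⟩

/-- Kernel form of the constant-rank lemma, with the size of the kernel basis named. -/
theorem RankFact.exists_kerFact [IsLocalRing R] [DecidableEq n] {A : Matrix m n R} {ρ : ℕ}
    (h : RankFact A ρ) : Nonempty (KerFact A (Fintype.card n - ρ)) := by
  obtain ⟨ν, hν, ⟨k⟩⟩ := h.exists_kerFact'
  have : ν = Fintype.card n - ρ := by omega
  subst this
  exact ⟨k⟩

/-- The free direct summand `range A` with its basis: the linear equivalence `R^ρ ≃ range A`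
given by `B` (with inverse given by `B'`). -/
def RankFact.rangeEquiv {A : Matrix m n R} {ρ : ℕ} (h : RankFact A ρ) :
    (Fin ρ → R) ≃ₗ[R] LinearMap.range A.mulVecLin where
  toFun y := ⟨h.B.mulVec y, by
    rw [h.range_eq]
    exact ⟨y, rfl⟩⟩
  map_add' y z := by
    apply Subtype.ext
    simp [Matrix.mulVec_add]
  map_smul' c y := by
    apply Subtype.ext
    simp [Matrix.mulVec_smul]
  invFun x := h.B'.mulVec x.1
  left_inv y := by
    show h.B'.mulVec (h.B.mulVec y) = y
    rw [Matrix.mulVec_mulVec, h.hB, Matrix.one_mulVec]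
  right_inv x := by
    apply Subtype.ext
    show h.B.mulVec (h.B'.mulVec x.1) = x.1
    rw [Matrix.mulVec_mulVec]
    exact (h.mem_range_iff x.1).1 x.2

@[simp] theorem RankFact.rangeEquiv_apply_coe {A : Matrix m n R} {ρ : ℕ} (h : RankFact A ρ)
    (y : Fin ρ → R) : (h.rangeEquiv y : m → R) = h.B.mulVec y := rfl

@[simp] theorem RankFact.rangeEquiv_symm_apply {A : Matrix m n R} {ρ : ℕ} (h : RankFact A ρ)
    (x : LinearMap.range A.mulVecLin) : h.rangeEquiv.symm x = h.B'.mulVec x.1 := rfl

end Ker

/-! ### Graph form -/

section Graph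

variable {R : Type u} [CommRing R]
variable {m : Type v} {κ : Type*} {α : Type*} {γ : Type*}
variable [Fintype κ] [Fintype α] [DecidableEq κ] [DecidableEq α]

/-- Graph form of the column space `W` of `M` with respect to the coordinates `p` ("the first
coordinates") and `q` ("the remaining coordinates"): the `p`-rows of `M` are invertible, with
inverse `T'`, and `Φ = (q-rows of M) * T'`.  Then `W` is the graph of `Φ`. -/
structure GraphFact (M : Matrix m κ R) (p : α → m) (q : γ → m) where
  /-- the inverse of the `p`-rows of `M` -/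
  T' : Matrix κ α R
  /-- the matrix whose graph is the column space of `M` -/
  Φ : Matrix γ α R
  hT : M.submatrix p id * T' = 1
  hT' : T' * M.submatrix p id = 1
  hΦ : M.submatrix q id * T' = Φ

namespace GraphFact

variable {M : Matrix m κ R} {p : α → m} {q : γ → m}

/-- Base change of a graph form along any ring homomorphism. -/
def map {S : Type*} [CommRing S] (g : GraphFact M p q) (θ : R →+* S) :
    GraphFact (M.map θ) p q where
  T' := g.T'.map θ
  Φ := g.Φ.map θ
  hT := by
    have h1 : (M.map θ).submatrix p id = (M.submatrix p id).map θ := rfl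
    rw [h1, ← Matrix.map_mul, g.hT, Matrix.map_one _ θ.map_zero θ.map_one]
  hT' := by
    have h1 : (M.map θ).submatrix p id = (M.submatrix p id).map θ := rfl
    rw [h1, ← Matrix.map_mul, g.hT', Matrix.map_one _ θ.map_zero θ.map_one]
  hΦ := by
    have h1 : (M.map θ).submatrix q id = (M.submatrix q id).map θ := rfl
    rw [h1, ← Matrix.map_mul, g.hΦ]

@[simp] theorem map_T' {S : Type*} [CommRing S] (g : GraphFact M p q) (θ : R →+* S) :
    (g.map θ).T' = g.T'.map θ := rfl

/-- **Compatibility with base change**: the graph matrix of the base change is the base change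
of the graph matrix. -/
@[simp] theorem map_Φ {S : Type*} [CommRing S] (g : GraphFact M p q) (θ : R →+* S) :
    (g.map θ).Φ = g.Φ.map θ := rfl

/-- The normalised basis `E = M * T'` of the column space: its `p`-rows are the identity and its
`q`-rows are `Φ`. -/
def E (g : GraphFact M p q) : Matrix m α R := M * g.T'

theorem E_submatrix_p (g : GraphFact M p q) : g.E.submatrix p id = 1 := g.hT

theorem E_submatrix_q (g : GraphFact M p q) : g.E.submatrix q id = g.Φ := g.hΦ

theorem E_apply_p (g : GraphFact M p q) (a b : α) : g.E (p a) b = (1 : Matrix α α R) a b :=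
  congrFun (congrFun g.hT a) b

theorem E_apply_q (g : GraphFact M p q) (c : γ) (b : α) : g.E (q c) b = g.Φ c b :=
  congrFun (congrFun g.hΦ c) b

/-- `E * (p-rows of M) = M`. -/
theorem E_mul (g : GraphFact M p q) : g.E * M.submatrix p id = M := by
  rw [E, Matrix.mul_assoc, g.hT', Matrix.mul_one]

theorem map_E {S : Type*} [CommRing S] (g : GraphFact M p q) (θ : R →+* S) :
    (g.map θ).E = g.E.map θ := by
  rw [E, E, Matrix.map_mul, map_T']

/-- `M` and its normalised basis `E` have the same column space. -/
theorem range_E (g : GraphFact M p q) :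
    LinearMap.range g.E.mulVecLin = LinearMap.range M.mulVecLin := by
  apply le_antisymm
  · rintro _ ⟨u, rfl⟩
    refine ⟨g.T'.mulVec u, ?_⟩
    simp only [Matrix.mulVecLin_apply]
    rw [Matrix.mulVec_mulVec, E]
  · rintro _ ⟨x, rfl⟩
    refine ⟨(M.submatrix p id).mulVec x, ?_⟩
    simp only [Matrix.mulVecLin_apply]
    rw [Matrix.mulVec_mulVec, g.E_mul]

/-- The `p`-coordinates of `E u` are `u`. -/
theorem E_mulVec_comp_p (g : GraphFact M p q) (u : α → R) : (g.E.mulVec u) ∘ p = u := by
  have h1 : (g.E.mulVec u) ∘ p = (g.E.submatrix p id).mulVec u := rfl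
  rw [h1, g.E_submatrix_p, Matrix.one_mulVec]

/-- The `q`-coordinates of `E u` are `Φ u`. -/
theorem E_mulVec_comp_q (g : GraphFact M p q) (u : α → R) :
    (g.E.mulVec u) ∘ q = g.Φ.mulVec u := by
  have h1 : (g.E.mulVec u) ∘ q = (g.E.submatrix q id).mulVec u := rfl
  rw [h1, g.E_submatrix_q]

/-- The `q`-coordinates of a vector of the column space are `Φ` of its `p`-coordinates. -/
theorem mulVec_comp_q (g : GraphFact M p q) (x : κ → R) :
    (M.mulVec x) ∘ q = g.Φ.mulVec ((M.mulVec x) ∘ p) := by
  have h1 : (M.mulVec x) ∘ q = (M.submatrix q id).mulVec x := rfl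
  have h2 : (M.mulVec x) ∘ p = (M.submatrix p id).mulVec x := rfl
  rw [h1, h2, ← g.hΦ, Matrix.mulVec_mulVec, Matrix.mul_assoc, g.hT', Matrix.mul_one]

/-- Vectors of the column space lie on the graph of `Φ`. -/
theorem comp_q_of_mem (g : GraphFact M p q) {w : m → R}
    (hw : w ∈ LinearMap.range M.mulVecLin) : w ∘ q = g.Φ.mulVec (w ∘ p) := by
  obtain ⟨x, rfl⟩ := hw
  exact g.mulVec_comp_q x

/-- A vector of the column space is determined by its `p`-coordinates: `w = E (w ∘ p)`. -/
theorem eq_E_mulVec_of_mem (g : GraphFact M p q) {w : m → R}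
    (hw : w ∈ LinearMap.range M.mulVecLin) : w = g.E.mulVec (w ∘ p) := by
  obtain ⟨x, rfl⟩ := hw
  have h2 : (M.mulVec x) ∘ p = (M.submatrix p id).mulVec x := rfl
  simp only [Matrix.mulVecLin_apply]
  rw [h2, Matrix.mulVec_mulVec, g.E_mul]

/-- **Graph form.**  If the coordinates `p` and `q` together exhaust the rows, the column space
of `M` is the graph of `Φ`. -/
theorem mem_range_iff (g : GraphFact M p q) (hpq : ∀ i, i ∈ Set.range p ∨ i ∈ Set.range q)
    (w : m → R) : w ∈ LinearMap.range M.mulVecLin ↔ w ∘ q = g.Φ.mulVec (w ∘ p) := by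
  constructor
  · exact g.comp_q_of_mem
  · intro hw
    rw [← g.range_E]
    refine ⟨w ∘ p, ?_⟩
    simp only [Matrix.mulVecLin_apply]
    funext i
    rcases hpq i with ⟨a, rfl⟩ | ⟨c, rfl⟩
    · exact congrFun (g.E_mulVec_comp_p (w ∘ p)) a
    · have h1 := congrFun (g.E_mulVec_comp_q (w ∘ p)) c
      have h2 := congrFun hw c
      simp only [Function.comp_apply] at h1 h2
      rw [h1, h2]

/-- **Graph form after base change.**  The column space of every base change of `M` is the graph
of the base change of `Φ`. -/
theorem mem_range_map_iff {S : Type*} [CommRing S] (g : GraphFact M p q)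
    (hpq : ∀ i, i ∈ Set.range p ∨ i ∈ Set.range q) (θ : R →+* S) (w : m → S) :
    w ∈ LinearMap.range (M.map θ).mulVecLin ↔ w ∘ q = (g.Φ.map θ).mulVec (w ∘ p) :=
  (g.map θ).mem_range_iff hpq w

/-- Every `u` is the vector of `p`-coordinates of exactly one vector of the column space. -/
theorem existsUnique_comp_p (g : GraphFact M p q) (u : α → R) :
    ∃! w : m → R, w ∈ LinearMap.range M.mulVecLin ∧ w ∘ p = u := by
  refine ⟨g.E.mulVec u, ⟨?_, g.E_mulVec_comp_p u⟩, ?_⟩
  · rw [← g.range_E]
    exact ⟨u, rfl⟩
  · rintro w ⟨hw, rfl⟩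
    exact g.eq_E_mulVec_of_mem hw

/-- **Uniqueness of the graph matrix**: any matrix `Φ'` such that the column space of `M` lies on
the graph of `Φ'` is `Φ`. -/
theorem Φ_eq_of_forall (g : GraphFact M p q) (Φ' : Matrix γ α R)
    (h : ∀ w ∈ LinearMap.range M.mulVecLin, w ∘ q = Φ'.mulVec (w ∘ p)) : Φ' = g.Φ := by
  ext c b
  have hmem : g.E.mulVec (Pi.single b 1) ∈ LinearMap.range M.mulVecLin := by
    rw [← g.range_E]
    exact ⟨_, rfl⟩
  have h1 := h _ hmem
  rw [g.E_mulVec_comp_p, g.E_mulVec_comp_q] at h1
  have h2 := congrFun h1 c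
  simpa using h2.symm

/-- The graph matrix only depends on the column space (even: is monotone in it). -/
theorem Φ_unique {κ' : Type*} [Fintype κ'] [DecidableEq κ'] {M' : Matrix m κ' R}
    (g : GraphFact M p q) (g' : GraphFact M' p q)
    (hrange : LinearMap.range M.mulVecLin ≤ LinearMap.range M'.mulVecLin) : g.Φ = g'.Φ :=
  (g.Φ_eq_of_forall g'.Φ fun _ hw => g'.comp_q_of_mem (hrange hw)).symm

end GraphFact

/-- For rows indexed by a sum type and the two canonical families of coordinates, the normalised
basis is the block matrix `[1; Φ]`. -/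
theorem GraphFact.E_eq_fromRows {M : Matrix (α ⊕ γ) κ R}
    (g : GraphFact M Sum.inl Sum.inr) : g.E = Matrix.fromRows 1 g.Φ := by
  ext i b
  rcases i with a | c
  · exact g.E_apply_p a b
  · exact g.E_apply_q c b

/-- The two canonical families of coordinates of a sum type exhaust it. -/
theorem range_inl_or_range_inr (α γ : Type*) (i : α ⊕ γ) :
    i ∈ Set.range (Sum.inl : α → α ⊕ γ) ∨ i ∈ Set.range (Sum.inr : γ → α ⊕ γ) := by
  rcases i with a | c
  · exact Or.inl ⟨a, rfl⟩
  · exact Or.inr ⟨c, rfl⟩

/-- The graph of a matrix `Φ` (the column space of `[1; Φ]`) is in graph form, with graph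
matrix `Φ`. -/
def GraphFact.ofGraph (Φ : Matrix γ α R) :
    GraphFact (Matrix.fromRows (1 : Matrix α α R) Φ) Sum.inl Sum.inr where
  T' := 1
  Φ := Φ
  hT := by
    rw [Matrix.mul_one]
    ext a b
    rfl
  hT' := by
    rw [Matrix.one_mul]
    ext a b
    rfl
  hΦ := by
    rw [Matrix.mul_one]
    ext c b
    rfl

/-- **Existence of the graph form over a local ring.**  If the `p`-rows of `M` are bijective
modulo the maximal ideal (i.e. the reduction of the column space of `M`, which then is free on
the columns of `M`, projects isomorphically onto the `p`-coordinates), then the column space of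
`M` is the graph of a matrix `Φ`. -/
theorem exists_graphFact [IsLocalRing R] (M : Matrix m κ R) (p : α → m) (q : γ → m)
    (hbij : Function.Bijective ((M.submatrix p id).map (IsLocalRing.residue R)).mulVec) :
    Nonempty (GraphFact M p q) := by
  obtain ⟨T', h1, h2⟩ := exists_inverse_of_residue (M.submatrix p id) hbij
  exact ⟨{ T' := T', Φ := M.submatrix q id * T', hT := h2, hT' := h1, hΦ := rfl }⟩

variable {n : Type w} [Fintype n]

/-- Graph form of the range of a constant-rank matrix: if the reduction of `range A` projects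
isomorphically onto the `p`-coordinates, then `range A` is the graph of a matrix. -/
theorem RankFact.exists_graphFact [IsLocalRing R] [Fintype m] {A : Matrix m n R} {ρ : ℕ}
    (h : RankFact A ρ) (p : α → m) (q : γ → m)
    (hproj : Function.Bijective
      (fun w : LinearMap.range (A.map (IsLocalRing.residue R)).mulVecLin =>
        (w : m → IsLocalRing.ResidueField R) ∘ p)) :
    Nonempty (GraphFact h.B p q) := by
  apply ConstRank.exists_graphFact
  have h1 : ((h.B.submatrix p id).map (IsLocalRing.residue R)).mulVec =
      (fun w : LinearMap.range (A.map (IsLocalRing.residue R)).mulVecLin =>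
        (w : m → IsLocalRing.ResidueField R) ∘ p) ∘ (h.map (IsLocalRing.residue R)).rangeEquiv := by
    funext x
    rfl
  rw [h1]
  exact hproj.comp (h.map (IsLocalRing.residue R)).rangeEquiv.bijective

/-- The range of every base change of `A` is the graph of the base change of `Φ`. -/
theorem RankFact.mem_range_map_iff_graph [Fintype m] {A : Matrix m n R} {ρ : ℕ}
    (h : RankFact A ρ) {p : α → m} {q : γ → m} (g : GraphFact h.B p q)
    (hpq : ∀ i, i ∈ Set.range p ∨ i ∈ Set.range q) {S : Type*} [CommRing S] (θ : R →+* S)
    (w : m → S) :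
    w ∈ LinearMap.range (A.map θ).mulVecLin ↔ w ∘ q = (g.Φ.map θ).mulVec (w ∘ p) := by
  rw [(h.map θ).range_eq]
  exact g.mem_range_map_iff hpq θ w

end Graph

/-! ### Graph form of kernels -/

section KerGraph

variable {R : Type u} [CommRing R]
variable {m : Type v} {n : Type w} [Fintype m] [Fintype n] [DecidableEq n]
variable {α : Type*} {γ : Type*} [Fintype α] [DecidableEq α]

/-- Graph form of the kernel of a constant-rank matrix: if the reduction of `ker A` projects
isomorphically onto the `p`-coordinates, then `ker A` is the graph of a matrix. -/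
theorem KerFact.exists_graphFact [IsLocalRing R] {A : Matrix m n R} {ν : ℕ}
    (k : KerFact A ν) (p : α → n) (q : γ → n)
    (hproj : Function.Bijective
      (fun w : LinearMap.ker (A.map (IsLocalRing.residue R)).mulVecLin =>
        (w : n → IsLocalRing.ResidueField R) ∘ p)) :
    Nonempty (GraphFact k.N p q) := by
  apply ConstRank.exists_graphFact
  have h1 : ((k.N.submatrix p id).map (IsLocalRing.residue R)).mulVec =
      (fun w : LinearMap.ker (A.map (IsLocalRing.residue R)).mulVecLin =>
        (w : n → IsLocalRing.ResidueField R) ∘ p) ∘ (k.map (IsLocalRing.residue R)).kerEquiv := by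
    funext x
    rfl
  rw [h1]
  exact hproj.comp (k.map (IsLocalRing.residue R)).kerEquiv.bijective

/-- The kernel of every base change of `A` is the graph of the base change of `Φ`. -/
theorem KerFact.mem_ker_map_iff_graph {A : Matrix m n R} {ν : ℕ}
    (k : KerFact A ν) {p : α → n} {q : γ → n} (g : GraphFact k.N p q)
    (hpq : ∀ i, i ∈ Set.range p ∨ i ∈ Set.range q) {S : Type*} [CommRing S] (θ : R →+* S)
    (w : n → S) :
    (A.map θ).mulVec w = 0 ↔ w ∘ q = (g.Φ.map θ).mulVec (w ∘ p) := by
  rw [← g.mem_range_map_iff hpq θ w, ← Matrix.mulVecLin_apply, ← LinearMap.mem_ker,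
    (k.map θ).ker_eq_range]
  rfl

/-- **One-call kernel graph form.**  Over a local ring, let `A` have a split rank factorisation
(e.g. from `exists_rankFact`) and let the reduction of `ker A` project isomorphically onto the
`p`-coordinates, where `p` and `q` together exhaust the columns.  Then there is a matrix `Φ`
such that, for every base change `θ` to a ring `S` (in a fixed universe), the kernel of `A.map θ`
is the graph of `Φ.map θ`; and `Φ` is the unique matrix with this property for `θ = id`. -/
theorem RankFact.exists_kerGraph [IsLocalRing R] {A : Matrix m n R} {ρ : ℕ}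
    (h : RankFact A ρ) (p : α → n) (q : γ → n)
    (hpq : ∀ i, i ∈ Set.range p ∨ i ∈ Set.range q)
    (hproj : Function.Bijective
      (fun w : LinearMap.ker (A.map (IsLocalRing.residue R)).mulVecLin =>
        (w : n → IsLocalRing.ResidueField R) ∘ p)) :
    ∃ Φ : Matrix γ α R,
      (∀ (S : Type u) [CommRing S] (θ : R →+* S) (w : n → S),
        (A.map θ).mulVec w = 0 ↔ w ∘ q = (Φ.map θ).mulVec (w ∘ p)) ∧
      ∀ Φ' : Matrix γ α R,
        (∀ w : n → R, A.mulVec w = 0 → w ∘ q = Φ'.mulVec (w ∘ p)) → Φ' = Φ := by
  obtain ⟨k⟩ := h.exists_kerFact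
  obtain ⟨g⟩ := k.exists_graphFact p q hproj
  refine ⟨g.Φ, fun S _ θ w => k.mem_ker_map_iff_graph g hpq θ w, fun Φ' hΦ' => ?_⟩
  apply g.Φ_eq_of_forall
  intro w hw
  apply hΦ'
  rw [← k.ker_eq_range] at hw
  exact LinearMap.mem_ker.1 hw

end KerGraph

/-! ### The constant-rank lemma in kernel-dimension form -/

section KerDim

variable {R : Type u} [CommRing R] [IsLocalRing R]
variable {m : Type v} {n : Type w} [Fintype m] [Fintype n] [DecidableEq n]

omit [Fintype m] [DecidableEq n] in
/-- Rank–nullity for matrices over a field. -/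
theorem rank_add_finrank_ker {K : Type*} [Field K] (A : Matrix m n K) :
    A.rank + Module.finrank K (LinearMap.ker A.mulVecLin) = Fintype.card n := by
  have h1 := LinearMap.finrank_range_add_finrank_ker A.mulVecLin
  rw [Module.finrank_fintype_fun_eq_card] at h1
  exact h1

/-- **The constant-rank lemma, kernel-dimension form.**  If the kernel of `A` at every point of a
jointly injective family of field-valued points is at least as big as at the closed point
(where it has dimension `ν`), then `A` has a split rank factorisation of size `card n - ν` and a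
split kernel basis of size `ν`. -/
theorem exists_rankFact_kerFact_of_finrank_ker (A : Matrix m n R) {ι : Type*} {K : ι → Type*}
    [∀ i, Field (K i)] (χ : ∀ i, R →+* K i) (hχ : ∀ r : R, (∀ i, χ i r = 0) → r = 0) (ν : ℕ)
    (hres : Module.finrank (IsLocalRing.ResidueField R)
      (LinearMap.ker (A.map (IsLocalRing.residue R)).mulVecLin) = ν)
    (hpts : ∀ i, ν ≤ Module.finrank (K i) (LinearMap.ker (A.map (χ i)).mulVecLin)) :
    Nonempty (RankFact A (Fintype.card n - ν)) ∧ Nonempty (KerFact A ν) := by
  have h0 := rank_add_finrank_ker (A.map (IsLocalRing.residue R))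
  rw [hres] at h0
  have hρ : (A.map (IsLocalRing.residue R)).rank = Fintype.card n - ν := by omega
  have hrank : ∀ i, (A.map (χ i)).rank ≤ Fintype.card n - ν := by
    intro i
    have h1 := rank_add_finrank_ker (A.map (χ i))
    have h2 := hpts i
    omega
  obtain ⟨h⟩ := exists_rankFact' A χ hχ _ hρ hrank
  obtain ⟨k⟩ := h.exists_kerFact
  have hν : Fintype.card n - (Fintype.card n - ν) = ν := by omega
  rw [hν] at k
  exact ⟨⟨h⟩, ⟨k⟩⟩

/-- A split kernel basis, projected to coordinates `p` on which the kernel at the closed point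
injects, is split injective: the projected kernel is again a free direct summand with basis the
columns of `N.submatrix p id` (and this persists after every base change, since a left inverse
does). -/
theorem KerFact.exists_leftInverse_submatrix {A : Matrix m n R} {ν : ℕ} (k : KerFact A ν)
    {α : Type*} [Fintype α] (p : α → n)
    (hinj : ∀ w : n → IsLocalRing.ResidueField R,
      (A.map (IsLocalRing.residue R)).mulVec w = 0 → w ∘ p = 0 → w = 0) :
    ∃ L : Matrix (Fin ν) α R, L * k.N.submatrix p id = 1 := by
  apply exists_leftInverse_of_residue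
  intro x y hxy
  have h1 : ((k.N.map (IsLocalRing.residue R)).mulVec (x - y)) ∘ p = 0 := by
    have h2 : ((k.N.map (IsLocalRing.residue R)).mulVec (x - y)) ∘ p =
        ((k.N.submatrix p id).map (IsLocalRing.residue R)).mulVec (x - y) := rfl
    rw [h2, Matrix.mulVec_sub, hxy, sub_self]
  have h3 := hinj _ ((k.map (IsLocalRing.residue R)).mulVec_N (x - y)) h1
  have h4 := (k.map (IsLocalRing.residue R)).mulVec_N_injective
    (h3.trans (Matrix.mulVec_zero _).symm)
  exact sub_eq_zero.1 h4

end KerDim

end Fermat.Agent.Lib.LinAlg.ConstRank
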