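/-
The lattice lemma for Tate's Euler characteristic ((EC) brick (χ-L1) of TW):
the eigenvalue multiplicities modulo `p` of a finite-order automorphism `a` of a lattice `E`
(`a ^ m = 1`, `p ∤ m`) are determined by the ranks of the fixed sublattices of the powers of `a`.

* `exists_charpoly_eq_prod_cyclotomic` : `charpoly a = ∏_{d ∣ m} Φ_d ^ e d`;
* `finrank_ker_baseChange_sub_smul` : for a field `k` with `m ≠ 0` in `k` and `ζ ∈ k` a primitive
  `d`-th root of unity, `dim ker (a ⊗ k - ζ) = e d`;
* `finrank_ker_pow_sub_one_eq` : `rank ker (a ^ j - 1) = ∑_{d ∣ j} φ(d) * e d` for `j ∣ m`;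
* `finrank_eigenspace_eq_of_finrank_fixed_eq` : the comparison form for two lattices.
-/
import Mathlib

set_option autoImplicit false

namespace Fermat.Agent.Lib.CycloMult

open Polynomial Module TensorProduct

universe u v

section Field

variable {K : Type u} [Field K] {W : Type v} [AddCommGroup W] [Module K W]
  [FiniteDimensional K W]

/-- The roots of the characteristic polynomial of an endomorphism of order dividing `m` are
`m`-th roots of unity. -/
theorem pow_eq_one_of_isRoot_charpoly (B : Module.End K W) (m : ℕ) (hB : B ^ m = 1) {μ : K}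
    (hμ : B.charpoly.IsRoot μ) : μ ^ m = 1 := by
  rw [← Module.End.hasEigenvalue_iff_isRoot_charpoly] at hμ
  obtain ⟨v, hv⟩ := hμ.exists_hasEigenvector
  have h1 : (B ^ m) v = μ ^ m • v := hv.pow_apply m
  rw [hB, Module.End.one_apply] at h1
  have h2 : (μ ^ m - 1) • v = 0 := by rw [sub_smul, one_smul, ← h1, sub_self]
  rcases smul_eq_zero.mp h2 with h | h
  · exact sub_eq_zero.mp h
  · exact absurd h hv.2

/-- For an endomorphism of order dividing `m`, `m ≠ 0` in `K`, geometric and algebraic
multiplicities of eigenvalues agree. -/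
theorem finrank_ker_sub_smul_eq_rootMultiplicity (B : Module.End K W) (m : ℕ)
    (hmK : (m : K) ≠ 0) (hB : B ^ m = 1) (μ : K) :
    finrank K (LinearMap.ker (B - μ • (1 : Module.End K W))) = B.charpoly.rootMultiplicity μ := by
  have hsep : (X ^ m - 1 : K[X]).Separable := by
    have := separable_X_pow_sub_C (1 : K) hmK one_ne_zero
    simpa using this
  have hss : B.IsSemisimple :=
    Module.End.isSemisimple_of_squarefree_aeval_eq_zero hsep.squarefree (by simp [hB])
  rw [← LinearMap.finrank_maxGenEigenspace_eq,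
    hss.isFinitelySemisimple.maxGenEigenspace_eq_eigenspace, Module.End.eigenspace_def]

/-- Additivity of the kernel dimension over a product of pairwise coprime polynomials. -/
theorem finrank_ker_aeval_prod (B : Module.End K W) {ι : Type*} (s : Finset ι) (g : ι → K[X])
    (hg : (s : Set ι).Pairwise fun i j => IsCoprime (g i) (g j)) :
    finrank K (LinearMap.ker (aeval B (∏ i ∈ s, g i))) =
      ∑ i ∈ s, finrank K (LinearMap.ker (aeval B (g i))) := by
  classical
  induction s using Finset.induction_on with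
  | empty =>
    have h : LinearMap.ker (1 : Module.End K W) = ⊥ := LinearMap.ker_id
    rw [Finset.prod_empty, Finset.sum_empty, map_one, h, finrank_bot]
  | insert a s ha ih =>
    rw [Finset.prod_insert ha, Finset.sum_insert ha]
    have hcop : IsCoprime (g a) (∏ i ∈ s, g i) :=
      IsCoprime.prod_right fun i hi => hg (Finset.mem_insert_self a s)
        (Finset.mem_insert_of_mem hi) (fun h => ha (h ▸ hi))
    have h1 := sup_ker_aeval_eq_ker_aeval_mul_of_coprime B hcop
    have h2 := disjoint_ker_aeval_of_isCoprime B hcop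
    have h3 := Submodule.finrank_sup_add_finrank_inf_eq (LinearMap.ker (aeval B (g a)))
      (LinearMap.ker (aeval B (∏ i ∈ s, g i)))
    rw [h2.eq_bot, finrank_bot, add_zero, h1] at h3
    rw [h3, ih (hg.mono (Finset.coe_subset.mpr (Finset.subset_insert a s)))]

/-- The fixed space of `B ^ j` is the sum of the eigenspaces for the `j`-th roots of unity. -/
theorem finrank_ker_pow_sub_one (B : Module.End K W) (j : ℕ) (hj : 0 < j) {ζ : K}
    (hζ : IsPrimitiveRoot ζ j) :
    finrank K (LinearMap.ker (B ^ j - 1)) =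
      ∑ μ ∈ nthRootsFinset j (1 : K),
        finrank K (LinearMap.ker (B - μ • (1 : Module.End K W))) := by
  have h1 : B ^ j - 1 = aeval B (∏ μ ∈ nthRootsFinset j (1 : K), (X - C μ)) := by
    rw [← X_pow_sub_one_eq_prod hj hζ]
    simp
  rw [h1, finrank_ker_aeval_prod]
  · refine Finset.sum_congr rfl fun μ _ => ?_
    have h2 : aeval B (X - C μ) = B - μ • (1 : Module.End K W) := by
      simp [Algebra.algebraMap_eq_smul_one]
    rw [h2]
  · intro a _ b _ hab
    exact isCoprime_X_sub_C_of_isUnit_sub (sub_ne_zero.mpr hab).isUnit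

end Field

section Cyclotomic

variable {K : Type u} [Field K]

open Classical in
theorem rootMultiplicity_cyclotomic (d : ℕ) (hd : (d : K) ≠ 0) (μ : K) :
    (cyclotomic d K).rootMultiplicity μ = if IsPrimitiveRoot μ d then 1 else 0 := by
  have : NeZero (d : K) := ⟨hd⟩
  split_ifs with h
  · apply le_antisymm
    · rw [← count_roots]
      exact count_roots_le_one (separable_cyclotomic d K) μ
    · exact (rootMultiplicity_pos (cyclotomic_ne_zero d K)).mpr (isRoot_cyclotomic_iff.mpr h)
  · exact rootMultiplicity_eq_zero fun hr => h (isRoot_cyclotomic_iff.mp hr)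

open Classical in
/-- Root multiplicities of a product of powers of cyclotomic polynomials. -/
theorem rootMultiplicity_prod_cyclotomic (m : ℕ) (hmK : (m : K) ≠ 0) (e : ℕ → ℕ) (μ : K) :
    (∏ d ∈ m.divisors, cyclotomic d K ^ e d).rootMultiplicity μ =
      ∑ d ∈ m.divisors, if IsPrimitiveRoot μ d then e d else 0 := by
  have hne : (∏ d ∈ m.divisors, cyclotomic d K ^ e d) ≠ 0 :=
    Finset.prod_ne_zero_iff.mpr fun d _ => pow_ne_zero _ (cyclotomic_ne_zero d K)
  rw [← count_roots, roots_prod _ _ hne, Multiset.count_bind]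
  show ∑ d ∈ m.divisors, Multiset.count μ (cyclotomic d K ^ e d).roots = _
  refine Finset.sum_congr rfl fun d hd => ?_
  have hdK : (d : K) ≠ 0 := by
    intro h0
    obtain ⟨c, rfl⟩ := Nat.dvd_of_mem_divisors hd
    apply hmK
    rw [Nat.cast_mul, h0, zero_mul]
  rw [roots_pow, Multiset.count_nsmul, count_roots, rootMultiplicity_cyclotomic d hdK]
  split_ifs <;> simp

open Classical in
theorem sum_ite_isPrimitiveRoot (m : ℕ) (e : ℕ → ℕ) {μ : K} {d : ℕ} (hd : d ∈ m.divisors)
    (hμ : IsPrimitiveRoot μ d) :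
    (∑ d' ∈ m.divisors, if IsPrimitiveRoot μ d' then e d' else 0) = e d := by
  rw [Finset.sum_eq_single d]
  · rw [if_pos hμ]
  · intro d' _ hne
    rw [if_neg fun h => hne (h.unique hμ)]
  · intro h
    exact absurd hd h

end Cyclotomic

/-- A monic rational polynomial all of whose complex roots are `m`-th roots of unity is a product
of cyclotomic polynomials `Φ_d`, `d ∣ m`. -/
theorem exists_eq_prod_cyclotomic_rat (m : ℕ) (hm : 0 < m) :
    ∀ (n : ℕ) (g : ℚ[X]), g.natDegree = n → g.Monic →
      (∀ z : ℂ, (g.map (algebraMap ℚ ℂ)).IsRoot z → z ^ m = 1) →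
      ∃ e : ℕ → ℕ, g = ∏ d ∈ m.divisors, cyclotomic d ℚ ^ e d := by
  intro n
  induction n using Nat.strong_induction_on with
  | _ n ih =>
    intro g hn hg hroots
    by_cases h0 : g.natDegree = 0
    · refine ⟨fun _ => 0, ?_⟩
      rw [eq_one_of_monic_natDegree_zero hg h0]
      simp
    · have hdeg : (g.map (algebraMap ℚ ℂ)).degree ≠ 0 := by
        rw [degree_map]
        intro h
        exact h0 (natDegree_eq_zero_iff_degree_le_zero.mpr h.le)
      obtain ⟨z, hz⟩ := IsAlgClosed.exists_root (g.map (algebraMap ℚ ℂ)) hdeg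
      have hzm := hroots z hz
      have hzprim : IsPrimitiveRoot z (orderOf z) := IsPrimitiveRoot.orderOf z
      have hd : orderOf z ∣ m := orderOf_dvd_of_pow_eq_one hzm
      have hdpos : 0 < orderOf z := Nat.pos_of_dvd_of_pos hd hm
      have hmin : cyclotomic (orderOf z) ℚ = minpoly ℚ z := cyclotomic_eq_minpoly_rat hzprim hdpos
      have hdvd : cyclotomic (orderOf z) ℚ ∣ g := by
        rw [hmin]
        apply minpoly.dvd
        rwa [IsRoot.def, eval_map, ← aeval_def] at hz
      obtain ⟨g', rfl⟩ := hdvd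
      have hg' : g'.Monic := (cyclotomic.monic _ ℚ).of_mul_monic_left hg
      have hdeg' : g'.natDegree < n := by
        rw [← hn, (cyclotomic.monic _ ℚ).natDegree_mul hg', natDegree_cyclotomic]
        have := Nat.totient_pos.mpr hdpos
        omega
      obtain ⟨e', he'⟩ := ih g'.natDegree hdeg' g' rfl hg' (fun w hw => hroots w (by
        rw [Polynomial.map_mul]
        exact root_mul_left_of_isRoot _ hw))
      refine ⟨fun x => e' x + if x = orderOf z then 1 else 0, ?_⟩
      have hmem : orderOf z ∈ m.divisors := Nat.mem_divisors.mpr ⟨hd, hm.ne'⟩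
      simp only [pow_add, Finset.prod_mul_distrib, pow_ite, pow_one, pow_zero]
      rw [Finset.prod_ite_eq' m.divisors (orderOf z) (fun x => cyclotomic x ℚ), if_pos hmem,
        ← he', mul_comm]

section Lattice

variable {E : Type v} [AddCommGroup E] [Module.Free ℤ E] [Module.Finite ℤ E]

/-- The characteristic polynomial of a lattice automorphism of order dividing `m` is a product of
cyclotomic polynomials `Φ_d`, `d ∣ m`. -/
theorem exists_charpoly_eq_prod_cyclotomic (a : Module.End ℤ E) (m : ℕ) (hm : 0 < m)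
    (ha : a ^ m = 1) : ∃ e : ℕ → ℕ, a.charpoly = ∏ d ∈ m.divisors, cyclotomic d ℤ ^ e d := by
  have hroots : ∀ z : ℂ, ((a.charpoly.map (Int.castRingHom ℚ)).map (algebraMap ℚ ℂ)).IsRoot z →
      z ^ m = 1 := by
    intro z hz
    rw [Polynomial.map_map] at hz
    have hcp : (a.baseChange ℂ).charpoly = a.charpoly.map (algebraMap ℤ ℂ) :=
      LinearMap.charpoly_baseChange a ℂ
    have hB : (a.baseChange ℂ) ^ m = 1 := by
      rw [← LinearMap.baseChange_pow, ha, LinearMap.baseChange_one]
    refine pow_eq_one_of_isRoot_charpoly (a.baseChange ℂ) m hB (μ := z) ?_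
    rw [hcp]
    have hring : (algebraMap ℚ ℂ).comp (Int.castRingHom ℚ) = algebraMap ℤ ℂ :=
      RingHom.ext_int _ _
    rw [← hring]
    exact hz
  obtain ⟨e, he⟩ := exists_eq_prod_cyclotomic_rat m hm _ (a.charpoly.map (Int.castRingHom ℚ)) rfl
    ((LinearMap.charpoly_monic a).map _) hroots
  refine ⟨e, ?_⟩
  apply Polynomial.map_injective (Int.castRingHom ℚ) Int.cast_injective
  simp only [he, Polynomial.map_prod, Polynomial.map_pow, map_cyclotomic_int]

/-- The dimension of an eigenspace of `a ⊗ k` in terms of the cyclotomic multiplicities. -/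
theorem finrank_ker_baseChange_sub_smul (a : Module.End ℤ E) (m : ℕ) (ha : a ^ m = 1)
    (e : ℕ → ℕ) (he : a.charpoly = ∏ d ∈ m.divisors, cyclotomic d ℤ ^ e d) (k : Type u) [Field k]
    (hmk : (m : k) ≠ 0) {ζ : k} {d : ℕ} (hd : d ∣ m) (hζ : IsPrimitiveRoot ζ d) :
    finrank k (LinearMap.ker (a.baseChange k - ζ • (1 : Module.End k (k ⊗[ℤ] E)))) = e d := by
  have hm0 : m ≠ 0 := fun h => hmk (by rw [h, Nat.cast_zero])
  have hB : (a.baseChange k) ^ m = 1 := by
    rw [← LinearMap.baseChange_pow, ha, LinearMap.baseChange_one]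
  rw [finrank_ker_sub_smul_eq_rootMultiplicity (a.baseChange k) m hmk hB,
    LinearMap.charpoly_baseChange a k, he, Polynomial.map_prod]
  simp only [Polynomial.map_pow, map_cyclotomic]
  rw [rootMultiplicity_prod_cyclotomic m hmk e ζ]
  exact sum_ite_isPrimitiveRoot m e (Nat.mem_divisors.mpr ⟨hd, hm0⟩) hζ

omit [Module.Free ℤ E] in
/-- Eigenvalues of `a ⊗ k` are `m`-th roots of unity. -/
theorem finrank_ker_baseChange_sub_smul_eq_zero (a : Module.End ℤ E) (m : ℕ) (ha : a ^ m = 1)
    (k : Type u) [Field k] (hmk : (m : k) ≠ 0) {ζ : k} (hζ : ζ ^ m ≠ 1) :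
    finrank k (LinearMap.ker (a.baseChange k - ζ • (1 : Module.End k (k ⊗[ℤ] E)))) = 0 := by
  have hB : (a.baseChange k) ^ m = 1 := by
    rw [← LinearMap.baseChange_pow, ha, LinearMap.baseChange_one]
  rw [finrank_ker_sub_smul_eq_rootMultiplicity (a.baseChange k) m hmk hB]
  exact rootMultiplicity_eq_zero fun hr => hζ (pow_eq_one_of_isRoot_charpoly _ m hB hr)

/-- Kernels of endomorphisms of a lattice commute with flat base change to a field. -/
theorem finrank_ker_eq_finrank_ker_baseChange (K : Type u) [Field K] [Module.Flat ℤ K]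
    (g : Module.End ℤ E) :
    finrank ℤ (LinearMap.ker g) = finrank K (LinearMap.ker (g.baseChange K)) := by
  have e := LinearMap.tensorKerEquiv K K g
  have h1 : finrank K (K ⊗[ℤ] LinearMap.ker g) = finrank ℤ (LinearMap.ker g) :=
    Module.finrank_baseChange
  rw [← h1]
  exact e.finrank_eq

/-- The ranks of the fixed sublattices in terms of the cyclotomic multiplicities. -/
theorem finrank_ker_pow_sub_one_eq (a : Module.End ℤ E) (m : ℕ) (hm : 0 < m) (ha : a ^ m = 1)
    (e : ℕ → ℕ) (he : a.charpoly = ∏ d ∈ m.divisors, cyclotomic d ℤ ^ e d) (j : ℕ) (hj : j ∣ m) :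
    finrank ℤ (LinearMap.ker (a ^ j - 1)) = ∑ d ∈ j.divisors, d.totient * e d := by
  classical
  have hjpos : 0 < j := Nat.pos_of_dvd_of_pos hj hm
  have hmC : (m : ℂ) ≠ 0 := Nat.cast_ne_zero.mpr hm.ne'
  rw [finrank_ker_eq_finrank_ker_baseChange ℂ (a ^ j - 1)]
  have h1 : (a ^ j - 1).baseChange ℂ = (a.baseChange ℂ) ^ j - 1 := by
    rw [LinearMap.baseChange_sub, LinearMap.baseChange_pow, LinearMap.baseChange_one]
  rw [h1, finrank_ker_pow_sub_one (a.baseChange ℂ) j hjpos
    (Complex.isPrimitiveRoot_exp j hjpos.ne'),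
    IsPrimitiveRoot.nthRoots_one_eq_biUnion_primitiveRoots,
    Finset.sum_biUnion (fun x _ y _ hxy => IsPrimitiveRoot.disjoint hxy)]
  refine Finset.sum_congr rfl fun d hd => ?_
  have hdj : d ∣ j := Nat.dvd_of_mem_divisors hd
  have hdpos : 0 < d := Nat.pos_of_dvd_of_pos hdj hjpos
  rw [Finset.sum_congr rfl (fun μ hμ => finrank_ker_baseChange_sub_smul a m ha e he ℂ hmC
    (hdj.trans hj) ((mem_primitiveRoots hdpos).mp hμ)), Finset.sum_const,
    (Complex.isPrimitiveRoot_exp d hdpos.ne').card_primitiveRoots, smul_eq_mul]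

/-- **The lattice lemma (absolute form).** The cyclotomic multiplicities `e d` of a lattice
automorphism of order dividing `m` compute both the ranks of the fixed sublattices of its powers
and the eigenspace dimensions over any field in which `m ≠ 0`. -/
theorem exists_cyclotomic_multiplicities (a : Module.End ℤ E) (m : ℕ) (hm : 0 < m)
    (ha : a ^ m = 1) :
    ∃ e : ℕ → ℕ, a.charpoly = ∏ d ∈ m.divisors, cyclotomic d ℤ ^ e d ∧
      (∀ j, j ∣ m → finrank ℤ (LinearMap.ker (a ^ j - 1)) = ∑ d ∈ j.divisors, d.totient * e d) ∧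
      ∀ (k : Type u) [Field k], (m : k) ≠ 0 → ∀ (ζ : k) (d : ℕ), d ∣ m → IsPrimitiveRoot ζ d →
        finrank k (LinearMap.ker (a.baseChange k - ζ • (1 : Module.End k (k ⊗[ℤ] E)))) = e d := by
  obtain ⟨e, he⟩ := exists_charpoly_eq_prod_cyclotomic a m hm ha
  exact ⟨e, he, fun j hj => finrank_ker_pow_sub_one_eq a m hm ha e he j hj,
    fun k _ hmk ζ d hd hζ => finrank_ker_baseChange_sub_smul a m ha e he k hmk hd hζ⟩

end Lattice

/-- **The lattice lemma (comparison form).** Two lattices with automorphisms of order dividing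
`m` whose fixed sublattices under all powers have equal ranks have eigenspaces of equal
dimensions over every field `k` in which `m ≠ 0`. -/
theorem finrank_eigenspace_eq_of_finrank_fixed_eq {E₁ : Type v} {E₂ : Type*}
    [AddCommGroup E₁] [Module.Free ℤ E₁] [Module.Finite ℤ E₁]
    [AddCommGroup E₂] [Module.Free ℤ E₂] [Module.Finite ℤ E₂]
    (a₁ : Module.End ℤ E₁) (a₂ : Module.End ℤ E₂) (m : ℕ) (hm : 0 < m)
    (h₁ : a₁ ^ m = 1) (h₂ : a₂ ^ m = 1)
    (hr : ∀ j, j ∣ m → finrank ℤ (LinearMap.ker (a₁ ^ j - 1)) =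
      finrank ℤ (LinearMap.ker (a₂ ^ j - 1)))
    (k : Type u) [Field k] (hmk : (m : k) ≠ 0) (ζ : k) :
    finrank k (LinearMap.ker (a₁.baseChange k - ζ • (1 : Module.End k (k ⊗[ℤ] E₁)))) =
      finrank k (LinearMap.ker (a₂.baseChange k - ζ • (1 : Module.End k (k ⊗[ℤ] E₂)))) := by
  obtain ⟨e₁, he₁⟩ := exists_charpoly_eq_prod_cyclotomic a₁ m hm h₁
  obtain ⟨e₂, he₂⟩ := exists_charpoly_eq_prod_cyclotomic a₂ m hm h₂
  have key : ∀ d, d ∣ m → e₁ d = e₂ d := by
    intro d
    induction d using Nat.strong_induction_on with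
    | _ d ih =>
      intro hd
      have hdpos : 0 < d := Nat.pos_of_dvd_of_pos hd hm
      have e1 := finrank_ker_pow_sub_one_eq a₁ m hm h₁ e₁ he₁ d hd
      have e2 := finrank_ker_pow_sub_one_eq a₂ m hm h₂ e₂ he₂ d hd
      rw [hr d hd, e2, ← Nat.insert_self_properDivisors hdpos.ne',
        Finset.sum_insert Nat.self_notMem_properDivisors,
        Finset.sum_insert Nat.self_notMem_properDivisors] at e1
      have e3 : ∑ x ∈ d.properDivisors, x.totient * e₂ x =
          ∑ x ∈ d.properDivisors, x.totient * e₁ x :=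
        Finset.sum_congr rfl fun x hx => by
          rw [ih x (Nat.mem_properDivisors.mp hx).2 ((Nat.mem_properDivisors.mp hx).1.trans hd)]
      rw [e3] at e1
      exact (Nat.eq_of_mul_eq_mul_left (Nat.totient_pos.mpr hdpos) (Nat.add_right_cancel e1)).symm
  by_cases hζ : ζ ^ m = 1
  · have hd : orderOf ζ ∣ m := orderOf_dvd_of_pow_eq_one hζ
    rw [finrank_ker_baseChange_sub_smul a₁ m h₁ e₁ he₁ k hmk hd (IsPrimitiveRoot.orderOf ζ),
      finrank_ker_baseChange_sub_smul a₂ m h₂ e₂ he₂ k hmk hd (IsPrimitiveRoot.orderOf ζ),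
      key _ hd]
  · rw [finrank_ker_baseChange_sub_smul_eq_zero a₁ m h₁ k hmk hζ,
      finrank_ker_baseChange_sub_smul_eq_zero a₂ m h₂ k hmk hζ]

end Fermat.Agent.Lib.CycloMult
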