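/-
`Fermat.Agent.Lib.LinAlg.Family` (helper5, PADIC): a calculus of *families of subspaces* over a
local ring, on top of the constant-rank lemma (`ConstRank.RankFact`).

A family `W : Fam R ι` is a direct summand of the coordinate module `ι → R`, presented by a
projector `W.P` (`P * P = P`).  Its fibre at ANY ring homomorphism `θ : R →+* S` is
`W.fib θ = range (W.P.map θ) ⊆ ι → S` — no tensor products and no `Algebra` instances.

Operations (each comes with the description of ALL its fibres):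
* `Fam.image W M h`        : image under a matrix `M`, given `h : RankFact (M * W.P) ρ`;
* `Fam.preimage W Q M h`   : `{v ∈ W | M v ∈ Q}`, given `h : RankFact ((1 - Q.P) * M * W.P) ρ`;
* `Fam.kron W W'`          : the tensor family (spanned by the pure tensors);
* `Fam.ofGraph Φ`, `Fam.exists_graph` : graphs of matrices, entry and exit of a chain.
Over a local ring with a jointly injective family of field-valued points the needed `RankFact`s
exist as soon as the fibre dimensions at the points are bounded by those at the closed point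
(`exists_rankFact_image`, `exists_rankFact_preimage`).
-/
import Mathlib
import Fermat.Agent.Lib.LinAlg.ConstRank
import Fermat.Agent.Lib.LinAlg.ConstRankGraph

set_option autoImplicit false

open Matrix Module

namespace Fermat.Agent.Lib.LinAlg.Family

open Fermat.Agent.Lib.LinAlg.ConstRank

universe u v w

/-- A family of subspaces of `ι → R`: a direct summand, presented by a projector. -/
structure Fam (R : Type u) [CommRing R] (ι : Type v) [Fintype ι] where
  /-- the projector -/
  P : Matrix ι ι R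
  idem : P * P = P

namespace Fam

variable {R : Type u} [CommRing R] {ι : Type v} [Fintype ι]
variable {S : Type*} [CommRing S] {T : Type*} [CommRing T]

/-- Base change of a family. -/
def map (W : Fam R ι) (θ : R →+* S) : Fam S ι :=
  ⟨W.P.map θ, by rw [← Matrix.map_mul, W.idem]⟩

@[simp] theorem map_P (W : Fam R ι) (θ : R →+* S) : (W.map θ).P = W.P.map θ := rfl

/-- The module of a family: the range of its projector. -/
def mod (W : Fam R ι) : Submodule R (ι → R) := LinearMap.range W.P.mulVecLin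

/-- The fibre of a family at a ring homomorphism. -/
def fib (W : Fam R ι) (θ : R →+* S) : Submodule S (ι → S) := (W.map θ).mod

theorem fib_def (W : Fam R ι) (θ : R →+* S) :
    W.fib θ = LinearMap.range (W.P.map θ).mulVecLin := rfl

theorem mem_mod_iff (W : Fam R ι) (v : ι → R) : v ∈ W.mod ↔ W.P *ᵥ v = v := by
  constructor
  · rintro ⟨w, rfl⟩
    rw [Matrix.mulVecLin_apply, Matrix.mulVec_mulVec, W.idem]
  · intro h
    exact ⟨v, h⟩

theorem mem_fib_iff (W : Fam R ι) (θ : R →+* S) (v : ι → S) :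
    v ∈ W.fib θ ↔ (W.P.map θ) *ᵥ v = v :=
  (W.map θ).mem_mod_iff v

theorem mulVec_mem_mod (W : Fam R ι) (v : ι → R) : W.P *ᵥ v ∈ W.mod := ⟨v, rfl⟩

theorem mulVec_mem_fib (W : Fam R ι) (θ : R →+* S) (v : ι → S) : (W.P.map θ) *ᵥ v ∈ W.fib θ :=
  ⟨v, rfl⟩

theorem map_mem_fib (W : Fam R ι) (θ : R →+* S) {v : ι → R} (hv : v ∈ W.mod) :
    (fun i => θ (v i)) ∈ W.fib θ := by
  rw [mem_fib_iff]
  rw [mem_mod_iff] at hv
  funext i
  have := RingHom.map_mulVec θ W.P v i
  rw [hv] at this
  exact this.symm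

theorem fib_id (W : Fam R ι) : W.fib (RingHom.id R) = W.mod := by
  rw [fib_def, mod]
  congr 2

theorem fib_comp (W : Fam R ι) (θ : R →+* S) (φ : S →+* T) :
    W.fib (φ.comp θ) = (W.map θ).fib φ := by
  rw [fib_def, fib_def, map_P, Matrix.map_map]
  rfl

/-- The full family. -/
def top (R : Type u) [CommRing R] (ι : Type v) [Fintype ι] [DecidableEq ι] : Fam R ι :=
  ⟨1, Matrix.one_mul 1⟩

theorem fib_top [DecidableEq ι] (θ : R →+* S) : (top R ι).fib θ = ⊤ := by
  rw [eq_top_iff]
  intro v _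
  rw [mem_fib_iff]
  show ((1 : Matrix ι ι R).map θ) *ᵥ v = v
  rw [Matrix.map_one _ θ.map_zero θ.map_one, Matrix.one_mulVec]

end Fam

/-! ### Image and preimage of constant rank -/

section Aux

variable {S : Type*} [CommRing S] {ι : Type v} [Fintype ι] {κ : Type w} [Fintype κ]

theorem range_image_aux {ρ : ℕ} (P : Matrix ι ι S) (M : Matrix κ ι S)
    (B : Matrix κ (Fin ρ) S) (C : Matrix (Fin ρ) ι S) (B' : Matrix (Fin ρ) κ S)
    (C' : Matrix ι (Fin ρ) S) (hfact : M * P = B * C) (hB : B' * B = 1) (hC : C * C' = 1) :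
    LinearMap.range (B * B').mulVecLin = (LinearMap.range P.mulVecLin).map M.mulVecLin := by
  rw [← LinearMap.range_comp, ← Matrix.mulVecLin_mul, hfact]
  apply le_antisymm
  · rintro _ ⟨x, rfl⟩
    refine ⟨C' *ᵥ (B' *ᵥ x), ?_⟩
    simp only [Matrix.mulVecLin_apply, Matrix.mulVec_mulVec]
    have e : B * C * (C' * B') = B * B' := by
      rw [← Matrix.mul_assoc, Matrix.mul_assoc B C C', hC, Matrix.mul_one]
    rw [e]
  · rintro _ ⟨x, rfl⟩
    refine ⟨B *ᵥ (C *ᵥ x), ?_⟩
    simp only [Matrix.mulVecLin_apply, Matrix.mulVec_mulVec]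
    have e : B * B' * (B * C) = B * C := by
      rw [← Matrix.mul_assoc, Matrix.mul_assoc B B' B, hB, Matrix.mul_one]
    rw [e]

theorem preimage_idem_aux [DecidableEq ι] [DecidableEq κ] {ρ : ℕ} (P : Matrix ι ι S)
    (Q : Matrix κ κ S) (M : Matrix κ ι S)
    (B : Matrix κ (Fin ρ) S) (C : Matrix (Fin ρ) ι S) (B' : Matrix (Fin ρ) κ S)
    (C' : Matrix ι (Fin ρ) S) (hP : P * P = P) (hfact : (1 - Q) * M * P = B * C)
    (hB : B' * B = 1) (hC : C * C' = 1) :
    (P * (1 - C' * C)) * (P * (1 - C' * C)) = P * (1 - C' * C) := by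
  have hCP : C * P = C := by
    have h1 : C = B' * ((1 - Q) * M * P) := by
      rw [hfact, ← Matrix.mul_assoc, hB, Matrix.one_mul]
    calc C * P = B' * ((1 - Q) * M * P) * P := by rw [← h1]
      _ = B' * ((1 - Q) * M * (P * P)) := by simp only [Matrix.mul_assoc]
      _ = C := by rw [hP, ← h1]
  have hCN : C * (1 - C' * C) = 0 := by
    rw [Matrix.mul_sub, Matrix.mul_one, ← Matrix.mul_assoc, hC, Matrix.one_mul, sub_self]
  have hNPN : (1 - C' * C) * (P * (1 - C' * C)) = P * (1 - C' * C) := by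
    rw [Matrix.sub_mul, Matrix.one_mul, Matrix.mul_assoc C' C, ← Matrix.mul_assoc C P, hCP, hCN,
      Matrix.mul_zero, sub_zero]
  rw [Matrix.mul_assoc P, hNPN, ← Matrix.mul_assoc, hP]

theorem range_preimage_aux [DecidableEq ι] [DecidableEq κ] {ρ : ℕ} (P : Matrix ι ι S)
    (Q : Matrix κ κ S) (M : Matrix κ ι S)
    (B : Matrix κ (Fin ρ) S) (C : Matrix (Fin ρ) ι S) (B' : Matrix (Fin ρ) κ S)
    (C' : Matrix ι (Fin ρ) S) (hP : P * P = P) (hQ : Q * Q = Q)
    (hfact : (1 - Q) * M * P = B * C) (hB : B' * B = 1) (hC : C * C' = 1) :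
    LinearMap.range (P * (1 - C' * C)).mulVecLin =
      LinearMap.range P.mulVecLin ⊓ (LinearMap.range Q.mulVecLin).comap M.mulVecLin := by
  have hCN : C * (1 - C' * C) = 0 := by
    rw [Matrix.mul_sub, Matrix.mul_one, ← Matrix.mul_assoc, hC, Matrix.one_mul, sub_self]
  have hmemQ : ∀ y : κ → S, y ∈ LinearMap.range Q.mulVecLin ↔ (1 - Q) *ᵥ y = 0 := by
    intro y
    rw [Matrix.sub_mulVec, Matrix.one_mulVec, sub_eq_zero]
    constructor
    · rintro ⟨z, rfl⟩
      rw [Matrix.mulVecLin_apply, Matrix.mulVec_mulVec, hQ]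
    · intro h
      exact ⟨y, h.symm⟩
  apply le_antisymm
  · rintro _ ⟨w, rfl⟩
    rw [Submodule.mem_inf, Submodule.mem_comap, hmemQ]
    simp only [Matrix.mulVecLin_apply]
    refine ⟨⟨(1 - C' * C) *ᵥ w, by rw [Matrix.mulVecLin_apply, Matrix.mulVec_mulVec]⟩, ?_⟩
    rw [Matrix.mulVec_mulVec, Matrix.mulVec_mulVec, ← Matrix.mul_assoc, hfact,
      Matrix.mul_assoc B C, hCN, Matrix.mul_zero, Matrix.zero_mulVec]
  · rintro v ⟨hvP, hvQ⟩
    rw [SetLike.mem_coe, Submodule.mem_comap, hmemQ] at hvQ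
    obtain ⟨w, rfl⟩ := hvP
    simp only [Matrix.mulVecLin_apply] at hvQ ⊢
    have hPw : P *ᵥ (P *ᵥ w) = P *ᵥ w := by rw [Matrix.mulVec_mulVec, hP]
    have hG : (B * C) *ᵥ (P *ᵥ w) = 0 := by
      rw [← hfact, ← Matrix.mulVec_mulVec, hPw, ← Matrix.mulVec_mulVec]
      exact hvQ
    have hCv : C *ᵥ (P *ᵥ w) = 0 := by
      have := congrArg (fun z => B' *ᵥ z) hG
      simp only [Matrix.mulVec_zero] at this
      rwa [Matrix.mulVec_mulVec, ← Matrix.mul_assoc, hB, Matrix.one_mul] at this
    refine ⟨P *ᵥ w, ?_⟩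
    simp only [Matrix.mulVecLin_apply]
    rw [← Matrix.mulVec_mulVec, Matrix.sub_mulVec, Matrix.one_mulVec, ← Matrix.mulVec_mulVec, hCv,
      Matrix.mulVec_zero, sub_zero, hPw]

end Aux

namespace Fam

variable {R : Type u} [CommRing R] {ι : Type v} [Fintype ι] {κ : Type w} [Fintype κ]
variable {S : Type*} [CommRing S]

/-- The image of a family under a matrix, given a split rank factorisation of `M * W.P`. -/
def image (W : Fam R ι) (M : Matrix κ ι R) {ρ : ℕ} (h : RankFact (M * W.P) ρ) : Fam R κ :=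
  ⟨h.B * h.B', h.proj_range_idem⟩

/-- **Fibres of the image**: the image of the fibre, at every ring homomorphism. -/
theorem fib_image (W : Fam R ι) (M : Matrix κ ι R) {ρ : ℕ} (h : RankFact (M * W.P) ρ)
    (θ : R →+* S) :
    (W.image M h).fib θ = (W.fib θ).map (M.map θ).mulVecLin := by
  rw [fib_def, fib_def]
  show LinearMap.range ((h.B * h.B').map θ).mulVecLin = _
  rw [Matrix.map_mul]
  refine range_image_aux (W.P.map θ) (M.map θ) (h.B.map θ) (h.C.map θ) (h.B'.map θ) (h.C'.map θ)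
    ?_ ?_ ?_
  · have := congrArg (fun X : Matrix κ ι R => X.map θ) h.fact
    simpa only [Matrix.map_mul] using this
  · rw [← Matrix.map_mul, h.hB, Matrix.map_one _ θ.map_zero θ.map_one]
  · rw [← Matrix.map_mul, h.hC, Matrix.map_one _ θ.map_zero θ.map_one]

/-- The preimage `{v ∈ W | M v ∈ Q}`, given a split rank factorisation of
`(1 - Q.P) * M * W.P`. -/
def preimage [DecidableEq ι] [DecidableEq κ] (W : Fam R ι) (Q : Fam R κ) (M : Matrix κ ι R)
    {ρ : ℕ} (h : RankFact ((1 - Q.P) * M * W.P) ρ) : Fam R ι :=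
  ⟨W.P * (1 - h.C' * h.C),
    preimage_idem_aux W.P Q.P M h.B h.C h.B' h.C' W.idem h.fact h.hB h.hC⟩

/-- **Fibres of the preimage**, at every ring homomorphism. -/
theorem fib_preimage [DecidableEq ι] [DecidableEq κ] (W : Fam R ι) (Q : Fam R κ)
    (M : Matrix κ ι R) {ρ : ℕ} (h : RankFact ((1 - Q.P) * M * W.P) ρ) (θ : R →+* S) :
    (W.preimage Q M h).fib θ = W.fib θ ⊓ (Q.fib θ).comap (M.map θ).mulVecLin := by
  rw [fib_def, fib_def, fib_def]
  show LinearMap.range ((W.P * (1 - h.C' * h.C)).map θ).mulVecLin = _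
  have e1 : (W.P * (1 - h.C' * h.C)).map θ =
      W.P.map θ * (1 - h.C'.map θ * h.C.map θ) := by
    rw [Matrix.map_mul, Matrix.map_sub (f := θ) (fun x y => map_sub θ x y),
      Matrix.map_one _ θ.map_zero θ.map_one, Matrix.map_mul]
  rw [e1]
  refine range_preimage_aux (W.P.map θ) (Q.P.map θ) (M.map θ) (h.B.map θ) (h.C.map θ)
    (h.B'.map θ) (h.C'.map θ) ?_ ?_ ?_ ?_ ?_
  · rw [← Matrix.map_mul, W.idem]
  · rw [← Matrix.map_mul, Q.idem]
  · have := congrArg (fun X : Matrix κ ι R => X.map θ) h.fact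
    simp only [Matrix.map_mul] at this
    rw [← this, Matrix.map_sub (f := θ) (fun x y => map_sub θ x y),
      Matrix.map_one _ θ.map_zero θ.map_one]
  · rw [← Matrix.map_mul, h.hB, Matrix.map_one _ θ.map_zero θ.map_one]
  · rw [← Matrix.map_mul, h.hC, Matrix.map_one _ θ.map_zero θ.map_one]

end Fam

/-! ### Ranks: translation between matrix ranks and fibre dimensions -/

namespace Fam

section Field

variable {K : Type*} [Field K] {ι : Type v} [Fintype ι] {κ : Type w} [Fintype κ]

omit [Fintype κ] in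
theorem rank_mul_P (W : Fam K ι) (M : Matrix κ ι K) :
    (M * W.P).rank = finrank K (W.mod.map M.mulVecLin) := by
  rw [Matrix.rank, Matrix.mulVecLin_mul, LinearMap.range_comp]
  rfl

theorem rank_preimage_matrix [DecidableEq κ] (W : Fam K ι) (Q : Fam K κ) (M : Matrix κ ι K) :
    ((1 - Q.P) * M * W.P).rank + finrank K (W.mod ⊓ Q.mod.comap M.mulVecLin : Submodule K (ι → K))
      = finrank K W.mod := by
  set g : (ι → K) →ₗ[K] (κ → K) := ((1 - Q.P) * M).mulVecLin with hg
  have hker : LinearMap.ker g = Q.mod.comap M.mulVecLin := by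
    ext v
    rw [LinearMap.mem_ker, Submodule.mem_comap, mem_mod_iff, hg, Matrix.mulVecLin_apply,
      ← Matrix.mulVec_mulVec, Matrix.sub_mulVec, Matrix.one_mulVec, sub_eq_zero,
      Matrix.mulVecLin_apply]
    exact eq_comm
  have hrank : ((1 - Q.P) * M * W.P).rank = finrank K (W.mod.map g) := rank_mul_P W _
  have hrn := LinearMap.finrank_range_add_finrank_ker (g.domRestrict W.mod)
  rw [LinearMap.range_domRestrict, LinearMap.ker_domRestrict,
    ← Submodule.finrank_map_subtype_eq W.mod ((LinearMap.ker g).comap W.mod.subtype),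
    Submodule.map_comap_subtype, hker] at hrn
  rw [hrank]
  exact hrn

end Field

section Local

variable {R : Type u} [CommRing R] [IsLocalRing R] {ι : Type v} [Fintype ι] {κ : Type w}
  [Fintype κ]

/-- Over a local ring the projector of a family has a split rank factorisation. -/
theorem exists_rankFact (W : Fam R ι) : ∃ ν : ℕ, Nonempty (RankFact W.P ν) := by
  classical
  obtain ⟨ν, N, N', h1, h2⟩ := exists_split_of_idempotent W.P W.idem
  exact ⟨ν, ⟨⟨N, N', N', N, h2.symm, h1, h1⟩⟩⟩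

/-- The rank of a family over a local ring (the dimension of its closed fibre). -/
noncomputable def rank (W : Fam R ι) : ℕ := (W.P.map (IsLocalRing.residue R)).rank

/-- **The rank is constant**: every field-valued fibre has dimension `W.rank`. -/
theorem finrank_fib (W : Fam R ι) {K : Type*} [Field K] (θ : R →+* K) :
    finrank K (W.fib θ) = W.rank := by
  obtain ⟨ν, ⟨h⟩⟩ := W.exists_rankFact
  rw [rank, h.rank_map_eq]
  exact h.rank_map_eq θ

omit [IsLocalRing R] [Fintype κ] in
theorem rank_image_matrix (W : Fam R ι) (M : Matrix κ ι R) {K : Type*} [Field K]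
    (θ : R →+* K) :
    ((M * W.P).map θ).rank = finrank K ((W.fib θ).map (M.map θ).mulVecLin) := by
  rw [Matrix.map_mul]
  exact rank_mul_P (W.map θ) (M.map θ)

/-- **Existence of the factorisation for an image**: the dimension of the image of the fibre at
every point is at most the dimension `ρ` at the closed point. -/
theorem exists_rankFact_image (W : Fam R ι) (M : Matrix κ ι R) {I : Type*} {K : I → Type*}
    [∀ i, Field (K i)] (χ : ∀ i, R →+* K i) (hχ : ∀ r : R, (∀ i, χ i r = 0) → r = 0) (ρ : ℕ)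
    (hρ : finrank (IsLocalRing.ResidueField R)
      ((W.fib (IsLocalRing.residue R)).map (M.map (IsLocalRing.residue R)).mulVecLin) = ρ)
    (hrank : ∀ i, finrank (K i) ((W.fib (χ i)).map (M.map (χ i)).mulVecLin) ≤ ρ) :
    Nonempty (RankFact (M * W.P) ρ) :=
  exists_rankFact' (M * W.P) χ hχ ρ (by rw [rank_image_matrix]; exact hρ)
    (fun i => by rw [rank_image_matrix]; exact hrank i)

theorem rank_preimage_matrix_map [DecidableEq κ] (W : Fam R ι) (Q : Fam R κ)
    (M : Matrix κ ι R) {K : Type*} [Field K] (θ : R →+* K) :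
    (((1 - Q.P) * M * W.P).map θ).rank +
      finrank K (W.fib θ ⊓ (Q.fib θ).comap (M.map θ).mulVecLin : Submodule K (ι → K)) =
      W.rank := by
  have e : ((1 - Q.P) * M * W.P).map θ = (1 - Q.P.map θ) * M.map θ * W.P.map θ := by
    rw [Matrix.map_mul, Matrix.map_mul, Matrix.map_sub (f := θ) (fun x y => map_sub θ x y),
      Matrix.map_one _ θ.map_zero θ.map_one]
  rw [e, ← W.finrank_fib θ]
  exact rank_preimage_matrix (W.map θ) (Q.map θ) (M.map θ)

/-- **Existence of the factorisation for a preimage**: the dimension of the preimage in the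
fibre at every point is at least the dimension at the closed point. -/
theorem exists_rankFact_preimage [DecidableEq κ] (W : Fam R ι) (Q : Fam R κ)
    (M : Matrix κ ι R) {I : Type*} {K : I → Type*}
    [∀ i, Field (K i)] (χ : ∀ i, R →+* K i) (hχ : ∀ r : R, (∀ i, χ i r = 0) → r = 0)
    (hrank : ∀ i, finrank (IsLocalRing.ResidueField R)
        (W.fib (IsLocalRing.residue R) ⊓ (Q.fib (IsLocalRing.residue R)).comap
          (M.map (IsLocalRing.residue R)).mulVecLin : Submodule _ (ι → IsLocalRing.ResidueField R))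
      ≤ finrank (K i) (W.fib (χ i) ⊓ (Q.fib (χ i)).comap (M.map (χ i)).mulVecLin :
          Submodule (K i) (ι → K i))) :
    ∃ ρ : ℕ, Nonempty (RankFact ((1 - Q.P) * M * W.P) ρ) := by
  refine ⟨_, ConstRank.exists_rankFact ((1 - Q.P) * M * W.P) χ hχ fun i => ?_⟩
  have h1 := rank_preimage_matrix_map W Q M (χ i)
  have h2 := rank_preimage_matrix_map W Q M (IsLocalRing.residue R)
  have h3 := hrank i
  omega

end Local

end Fam

/-! ### Multiplication tables: products and transporters -/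

section Tab

variable {S : Type*} [CommRing S] {ι : Type v} [Fintype ι] {ι' : Type*} [Fintype ι']
  {κ : Type w}

/-- The bilinear map of a multiplication table `c`. -/
def mulTab (c : κ → ι → ι' → S) (v : ι → S) (w : ι' → S) : κ → S :=
  fun k => ∑ i, ∑ j, c k i j * v i * w j

/-- The pure tensor `v ⊗ w` as a vector on `ι × ι'`. -/
def tens (v : ι → S) (w : ι' → S) : ι × ι' → S := fun p => v p.1 * w p.2

/-- The matrix of a multiplication table on `ι × ι'`. -/
def tabMatrix (c : κ → ι → ι' → S) : Matrix κ (ι × ι') S := fun k p => c k p.1 p.2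

theorem tabMatrix_mulVec_tens (c : κ → ι → ι' → S) (v : ι → S) (w : ι' → S) :
    tabMatrix c *ᵥ tens v w = mulTab c v w := by
  funext k
  simp only [Matrix.mulVec, dotProduct, tabMatrix, tens, mulTab, Fintype.sum_prod_type]
  refine Finset.sum_congr rfl fun i _ => Finset.sum_congr rfl fun j _ => ?_
  ring

theorem mulTab_add_left (c : κ → ι → ι' → S) (v v' : ι → S) (w : ι' → S) :
    mulTab c (v + v') w = mulTab c v w + mulTab c v' w := by
  funext k
  simp only [mulTab, Pi.add_apply, mul_add, add_mul, Finset.sum_add_distrib]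

theorem mulTab_smul_left (c : κ → ι → ι' → S) (a : S) (v : ι → S) (w : ι' → S) :
    mulTab c (a • v) w = a • mulTab c v w := by
  funext k
  simp only [mulTab, Pi.smul_apply, smul_eq_mul, Finset.mul_sum]
  refine Finset.sum_congr rfl fun i _ => Finset.sum_congr rfl fun j _ => ?_
  ring

theorem mulTab_add_right (c : κ → ι → ι' → S) (v : ι → S) (w w' : ι' → S) :
    mulTab c v (w + w') = mulTab c v w + mulTab c v w' := by
  funext k
  simp only [mulTab, Pi.add_apply, mul_add, Finset.sum_add_distrib]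

theorem mulTab_smul_right (c : κ → ι → ι' → S) (a : S) (v : ι → S) (w : ι' → S) :
    mulTab c v (a • w) = a • mulTab c v w := by
  funext k
  simp only [mulTab, Pi.smul_apply, smul_eq_mul, Finset.mul_sum]
  refine Finset.sum_congr rfl fun i _ => Finset.sum_congr rfl fun j _ => ?_
  ring

theorem mulTab_zero_left (c : κ → ι → ι' → S) (w : ι' → S) : mulTab c 0 w = 0 := by
  funext k
  simp [mulTab]

/-- `mulTab c v ·` as a linear map. -/
def mulTabRight (c : κ → ι → ι' → S) (v : ι → S) : (ι' → S) →ₗ[S] (κ → S) where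
  toFun := mulTab c v
  map_add' := mulTab_add_right c v
  map_smul' := fun a w => mulTab_smul_right c a v w

/-- The span of the products `mulTab c v w`, `v ∈ W`, `w ∈ W'`. -/
def prodSpan (c : κ → ι → ι' → S) (W : Submodule S (ι → S)) (W' : Submodule S (ι' → S)) :
    Submodule S (κ → S) :=
  Submodule.span S {x | ∃ v ∈ W, ∃ w ∈ W', x = mulTab c v w}

/-- The transporter `{v ∈ P | mulTab c v U ⊆ Q}`. -/
def transp (c : κ → ι → ι' → S) (P : Submodule S (ι → S)) (U : Submodule S (ι' → S))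
    (Q : Submodule S (κ → S)) : Submodule S (ι → S) where
  carrier := {v | v ∈ P ∧ ∀ u ∈ U, mulTab c v u ∈ Q}
  zero_mem' := ⟨P.zero_mem, fun u _ => by rw [mulTab_zero_left]; exact Q.zero_mem⟩
  add_mem' := fun {a b} ha hb =>
    ⟨P.add_mem ha.1 hb.1, fun u hu => by
      rw [mulTab_add_left]; exact Q.add_mem (ha.2 u hu) (hb.2 u hu)⟩
  smul_mem' := fun a {v} hv =>
    ⟨P.smul_mem a hv.1, fun u hu => by
      rw [mulTab_smul_left]; exact Q.smul_mem a (hv.2 u hu)⟩

theorem mem_transp {c : κ → ι → ι' → S} {P : Submodule S (ι → S)} {U : Submodule S (ι' → S)}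
    {Q : Submodule S (κ → S)} {v : ι → S} :
    v ∈ transp c P U Q ↔ v ∈ P ∧ ∀ u ∈ U, mulTab c v u ∈ Q := Iff.rfl

end Tab

namespace Fam

section Kron

open Kronecker

variable {R : Type u} [CommRing R] {ι : Type v} [Fintype ι] {ι' : Type*} [Fintype ι']
variable {S : Type*} [CommRing S]

/-- The tensor family. -/
def kron (W : Fam R ι) (W' : Fam R ι') : Fam R (ι × ι') :=
  ⟨W.P ⊗ₖ W'.P, by rw [← Matrix.mul_kronecker_mul, W.idem, W'.idem]⟩

theorem map_kron (W : Fam R ι) (W' : Fam R ι') (θ : R →+* S) :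
    (W.kron W').map θ = (W.map θ).kron (W'.map θ) := by
  have : (W.P ⊗ₖ W'.P).map θ = W.P.map θ ⊗ₖ W'.P.map θ := by
    ext ⟨i, i'⟩ ⟨j, j'⟩
    simp
  show (⟨(W.P ⊗ₖ W'.P).map θ, _⟩ : Fam S (ι × ι')) = ⟨W.P.map θ ⊗ₖ W'.P.map θ, _⟩
  congr 1

theorem kron_mulVec_tens (A : Matrix ι ι R) (A' : Matrix ι' ι' R) (v : ι → R) (w : ι' → R) :
    (A ⊗ₖ A') *ᵥ tens v w = tens (A *ᵥ v) (A' *ᵥ w) := by
  funext ⟨i, i'⟩
  simp only [Matrix.mulVec, dotProduct, tens, Fintype.sum_prod_type, Matrix.kronecker_apply,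
    Finset.sum_mul_sum]
  refine Finset.sum_congr rfl fun j _ => Finset.sum_congr rfl fun j' _ => ?_
  ring

/-- The module of the tensor family is spanned by the pure tensors. -/
theorem mod_kron (W : Fam R ι) (W' : Fam R ι') :
    (W.kron W').mod = Submodule.span R {x | ∃ v ∈ W.mod, ∃ w ∈ W'.mod, x = tens v w} := by
  classical
  apply le_antisymm
  · rw [mod, Matrix.range_mulVecLin, Submodule.span_le]
    rintro _ ⟨⟨j, j'⟩, rfl⟩
    apply Submodule.subset_span
    refine ⟨W.P *ᵥ Pi.single j 1, W.mulVec_mem_mod _, W'.P *ᵥ Pi.single j' 1,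
      W'.mulVec_mem_mod _, ?_⟩
    rw [← kron_mulVec_tens]
    show (W.P ⊗ₖ W'.P).col (j, j') = _
    rw [← Matrix.mulVec_single_one]
    congr 1
    funext ⟨a, a'⟩
    simp only [tens, Pi.single_apply, Prod.mk.injEq]
    by_cases h1 : a = j <;> by_cases h2 : a' = j' <;> simp [h1, h2]
  · rw [Submodule.span_le]
    rintro _ ⟨v, hv, w, hw, rfl⟩
    rw [SetLike.mem_coe, mem_mod_iff]
    show (W.P ⊗ₖ W'.P) *ᵥ tens v w = tens v w
    rw [kron_mulVec_tens, (W.mem_mod_iff v).1 hv, (W'.mem_mod_iff w).1 hw]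

end Kron

end Fam

namespace Fam

section Mul

open Kronecker

variable {R : Type u} [CommRing R] {ι : Type v} [Fintype ι] {ι' : Type*} [Fintype ι']
  {κ : Type w} [Fintype κ]
variable {S : Type*} [CommRing S]

/-- Base change of a multiplication table. -/
def mapTab (θ : R →+* S) (c : κ → ι → ι' → R) : κ → ι → ι' → S := fun k i j => θ (c k i j)

omit [Fintype κ] [Fintype ι] [Fintype ι'] in
theorem tabMatrix_map (θ : R →+* S) (c : κ → ι → ι' → R) :
    (tabMatrix c).map θ = tabMatrix (mapTab θ c) := rfl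

omit [Fintype κ] in
theorem map_tab_mod_kron (W : Fam S ι) (W' : Fam S ι') (c : κ → ι → ι' → S) :
    ((W.kron W').mod).map (tabMatrix c).mulVecLin = prodSpan c W.mod W'.mod := by
  rw [mod_kron, Submodule.map_span, prodSpan]
  congr 1
  ext x
  constructor
  · rintro ⟨_, ⟨v, hv, w, hw, rfl⟩, rfl⟩
    exact ⟨v, hv, w, hw, tabMatrix_mulVec_tens c v w⟩
  · rintro ⟨v, hv, w, hw, rfl⟩
    exact ⟨tens v w, ⟨v, hv, w, hw, rfl⟩, tabMatrix_mulVec_tens c v w⟩

omit [Fintype κ] in
theorem map_tab_fib_kron (W : Fam R ι) (W' : Fam R ι') (c : κ → ι → ι' → R) (θ : R →+* S) :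
    ((W.kron W').fib θ).map ((tabMatrix c).map θ).mulVecLin =
      prodSpan (mapTab θ c) (W.fib θ) (W'.fib θ) := by
  rw [fib, map_kron, tabMatrix_map]
  exact map_tab_mod_kron _ _ _

/-- The product family `span {c(v, w) | v ∈ W, w ∈ W'}`, given a split rank factorisation. -/
def mul (W : Fam R ι) (W' : Fam R ι') (c : κ → ι → ι' → R) {ρ : ℕ}
    (h : RankFact (tabMatrix c * (W.kron W').P) ρ) : Fam R κ :=
  (W.kron W').image (tabMatrix c) h

/-- **Fibres of the product family.** -/
theorem fib_mul (W : Fam R ι) (W' : Fam R ι') (c : κ → ι → ι' → R) {ρ : ℕ}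
    (h : RankFact (tabMatrix c * (W.kron W').P) ρ) (θ : R →+* S) :
    (W.mul W' c h).fib θ = prodSpan (mapTab θ c) (W.fib θ) (W'.fib θ) := by
  rw [mul, fib_image, map_tab_fib_kron]

/-- Existence of the factorisation for a product family, from fibre dimensions. -/
theorem exists_rankFact_mul [IsLocalRing R] (W : Fam R ι) (W' : Fam R ι')
    (c : κ → ι → ι' → R) {I : Type*} {K : I → Type*}
    [∀ i, Field (K i)] (χ : ∀ i, R →+* K i) (hχ : ∀ r : R, (∀ i, χ i r = 0) → r = 0) (ρ : ℕ)
    (hρ : finrank (IsLocalRing.ResidueField R) (prodSpan (mapTab (IsLocalRing.residue R) c)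
      (W.fib (IsLocalRing.residue R)) (W'.fib (IsLocalRing.residue R))) = ρ)
    (hrank : ∀ i, finrank (K i)
      (prodSpan (mapTab (χ i) c) (W.fib (χ i)) (W'.fib (χ i))) ≤ ρ) :
    Nonempty (RankFact (tabMatrix c * (W.kron W').P) ρ) := by
  apply exists_rankFact_image (W.kron W') (tabMatrix c) χ hχ ρ
  · rw [map_tab_fib_kron]; exact hρ
  · intro i
    rw [map_tab_fib_kron]; exact hrank i

/-- The matrix of `v ↦ (c(v, U col j))_{(k, j)}`. -/
def transpMatrix (c : κ → ι → ι' → R) (U : Matrix ι' ι' R) : Matrix (κ × ι') ι R :=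
  fun p i => ∑ j', c p.1 i j' * U j' p.2

omit [Fintype κ] in
theorem transpMatrix_mulVec (c : κ → ι → ι' → R) (U : Matrix ι' ι' R) (v : ι → R) (k : κ)
    (j : ι') : (transpMatrix c U *ᵥ v) (k, j) = mulTab c v (U.col j) k := by
  simp only [Matrix.mulVec, dotProduct, transpMatrix, mulTab, Matrix.col_apply, Finset.sum_mul]
  refine Finset.sum_congr rfl fun i _ => Finset.sum_congr rfl fun j' _ => ?_
  ring

omit [Fintype κ] [Fintype ι] in
theorem transpMatrix_map (θ : R →+* S) (c : κ → ι → ι' → R) (U : Matrix ι' ι' R) :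
    (transpMatrix c U).map θ = transpMatrix (mapTab θ c) (U.map θ) := by
  ext p i
  simp [transpMatrix, mapTab, Matrix.map_apply, map_sum, map_mul]

theorem mem_mod_copies [DecidableEq ι'] (Q : Fam S κ) (x : κ × ι' → S) :
    x ∈ (Q.kron (top S ι')).mod ↔ ∀ j, (fun k => x (k, j)) ∈ Q.mod := by
  rw [mem_mod_iff]
  have key : ∀ k j, ((Q.kron (top S ι')).P *ᵥ x) (k, j) = (Q.P *ᵥ fun k => x (k, j)) k := by
    intro k j
    show ((Q.P ⊗ₖ (1 : Matrix ι' ι' S)) *ᵥ x) (k, j) = _
    simp only [Matrix.mulVec, dotProduct, Fintype.sum_prod_type, Matrix.kronecker_apply,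
      Matrix.one_apply]
    refine Finset.sum_congr rfl fun k' _ => ?_
    simp [Finset.sum_ite_eq]
  constructor
  · intro h j
    rw [mem_mod_iff]
    funext k
    rw [← key, h]
  · intro h
    funext ⟨k, j⟩
    rw [key, (Q.mem_mod_iff _).1 (h j)]

theorem transp_aux [DecidableEq ι'] (Pf : Fam S ι) (U : Fam S ι') (Q : Fam S κ)
    (c : κ → ι → ι' → S) :
    Pf.mod ⊓ ((Q.kron (top S ι')).mod).comap (transpMatrix c U.P).mulVecLin =
      transp c Pf.mod U.mod Q.mod := by
  ext v
  rw [Submodule.mem_inf, Submodule.mem_comap, mem_transp, mem_mod_copies]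
  refine and_congr_right fun _ => ?_
  have hcol : ∀ j, (fun k => (transpMatrix c U.P).mulVecLin v (k, j)) = mulTab c v (U.P.col j) := by
    intro j
    funext k
    rw [Matrix.mulVecLin_apply, transpMatrix_mulVec]
  constructor
  · intro h u hu
    have hle : U.mod ≤ Q.mod.comap (mulTabRight c v) := by
      rw [mod, Matrix.range_mulVecLin, Submodule.span_le]
      rintro _ ⟨j, rfl⟩
      rw [SetLike.mem_coe, Submodule.mem_comap]
      show mulTab c v (U.P.col j) ∈ Q.mod
      rw [← hcol]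
      exact h j
    exact hle hu
  · intro h j
    rw [hcol]
    apply h
    rw [← Matrix.mulVec_single_one]
    exact U.mulVec_mem_mod _

omit [Fintype ι] in
theorem map_top [DecidableEq ι'] (θ : R →+* S) : (top R ι').map θ = top S ι' := by
  show (⟨(1 : Matrix ι' ι' R).map θ, _⟩ : Fam S ι') = ⟨1, _⟩
  congr 1
  exact Matrix.map_one _ θ.map_zero θ.map_one

theorem fib_transp_eq [DecidableEq ι'] (Pf : Fam R ι) (U : Fam R ι') (Q : Fam R κ)
    (c : κ → ι → ι' → R) (θ : R →+* S) :
    Pf.fib θ ⊓ ((Q.kron (top R ι')).fib θ).comap ((transpMatrix c U.P).map θ).mulVecLin =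
      transp (mapTab θ c) (Pf.fib θ) (U.fib θ) (Q.fib θ) := by
  rw [fib, fib, map_kron, map_top, transpMatrix_map]
  exact transp_aux (Pf.map θ) (U.map θ) (Q.map θ) (mapTab θ c)

/-- The transporter family `{v ∈ Pf | c(v, U) ⊆ Q}`, given a split rank factorisation. -/
def transporter [DecidableEq ι] [DecidableEq ι'] [DecidableEq κ] (Pf : Fam R ι) (U : Fam R ι')
    (Q : Fam R κ) (c : κ → ι → ι' → R) {ρ : ℕ}
    (h : RankFact ((1 - (Q.kron (top R ι')).P) * transpMatrix c U.P * Pf.P) ρ) : Fam R ι :=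
  Pf.preimage (Q.kron (top R ι')) (transpMatrix c U.P) h

/-- **Fibres of the transporter family.** -/
theorem fib_transporter [DecidableEq ι] [DecidableEq ι'] [DecidableEq κ] (Pf : Fam R ι)
    (U : Fam R ι') (Q : Fam R κ) (c : κ → ι → ι' → R) {ρ : ℕ}
    (h : RankFact ((1 - (Q.kron (top R ι')).P) * transpMatrix c U.P * Pf.P) ρ) (θ : R →+* S) :
    (Pf.transporter U Q c h).fib θ = transp (mapTab θ c) (Pf.fib θ) (U.fib θ) (Q.fib θ) := by
  rw [transporter, fib_preimage, fib_transp_eq]

/-- Existence of the factorisation for a transporter family, from fibre dimensions. -/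
theorem exists_rankFact_transporter [IsLocalRing R] [DecidableEq ι'] [DecidableEq κ]
    (Pf : Fam R ι) (U : Fam R ι') (Q : Fam R κ) (c : κ → ι → ι' → R) {I : Type*}
    {K : I → Type*} [∀ i, Field (K i)] (χ : ∀ i, R →+* K i)
    (hχ : ∀ r : R, (∀ i, χ i r = 0) → r = 0)
    (hrank : ∀ i, finrank (IsLocalRing.ResidueField R)
        (transp (mapTab (IsLocalRing.residue R) c) (Pf.fib (IsLocalRing.residue R))
          (U.fib (IsLocalRing.residue R)) (Q.fib (IsLocalRing.residue R)))
      ≤ finrank (K i) (transp (mapTab (χ i) c) (Pf.fib (χ i)) (U.fib (χ i)) (Q.fib (χ i)))) :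
    ∃ ρ : ℕ, Nonempty
      (RankFact ((1 - (Q.kron (top R ι')).P) * transpMatrix c U.P * Pf.P) ρ) := by
  apply exists_rankFact_preimage Pf (Q.kron (top R ι')) (transpMatrix c U.P) χ hχ
  intro i
  rw [fib_transp_eq, fib_transp_eq]
  exact hrank i

end Mul

end Fam

/-! ### Elements of a family, multiplication by an element, graphs -/

namespace Fam

section Elements

variable {R : Type u} [CommRing R] {ι : Type v} [Fintype ι] {ι' : Type*} [Fintype ι']
  {κ : Type w} [Fintype κ]
variable {S : Type*} [CommRing S]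

/-- The columns of `B` in a split factorisation of the projector lie in every fibre. -/
theorem col_B_mem_fib (W : Fam R ι) {ρ : ℕ} (h : RankFact W.P ρ) (θ : R →+* S) (j : Fin ρ) :
    (fun i => θ (h.B i j)) ∈ W.fib θ := by
  rw [fib_def, (h.map θ).range_eq]
  classical
  refine ⟨Pi.single j 1, ?_⟩
  rw [Matrix.mulVecLin_apply, Matrix.mulVec_single_one]
  rfl

/-- ... and are unimodular: they are nonzero in every nontrivial fibre. -/
theorem col_B_ne_zero (W : Fam R ι) {ρ : ℕ} (h : RankFact W.P ρ) [Nontrivial S] (θ : R →+* S)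
    (j : Fin ρ) : (fun i => θ (h.B i j)) ≠ 0 := by
  classical
  intro h0
  have h1 : (h.B.map θ) *ᵥ Pi.single j 1 = 0 := by
    rw [Matrix.mulVec_single_one]
    exact h0
  have h2 := congrArg (fun z => (h.B'.map θ) *ᵥ z) h1
  simp only [Matrix.mulVec_zero] at h2
  rw [Matrix.mulVec_mulVec, ← Matrix.map_mul, h.hB, Matrix.map_one _ θ.map_zero θ.map_one,
    Matrix.one_mulVec] at h2
  have h3 := congrFun h2 j
  simp at h3

/-- A family of rank one is spanned, in every fibre, by its generator. -/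
theorem fib_eq_span_of_rank_one (W : Fam R ι) (h : RankFact W.P 1) (θ : R →+* S) :
    W.fib θ = Submodule.span S {fun i => θ (h.B i 0)} := by
  rw [fib_def, (h.map θ).range_eq, Matrix.range_mulVecLin]
  congr 1
  ext x
  constructor
  · rintro ⟨j, rfl⟩
    have hj : j = 0 := Subsingleton.elim _ _
    subst hj
    rfl
  · rintro rfl
    exact ⟨0, rfl⟩

/-- The matrix of `w ↦ c(u, w)`. -/
def leftMulMatrix (c : κ → ι → ι' → R) (u : ι → R) : Matrix κ ι' R :=
  fun k j => ∑ i, c k i j * u i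

/-- The matrix of `v ↦ c(v, u)`. -/
def rightMulMatrix (c : κ → ι → ι' → R) (u : ι' → R) : Matrix κ ι R :=
  fun k i => ∑ j, c k i j * u j

omit [Fintype κ] in
theorem leftMulMatrix_mulVec (c : κ → ι → ι' → R) (u : ι → R) (w : ι' → R) :
    leftMulMatrix c u *ᵥ w = mulTab c u w := by
  funext k
  simp only [Matrix.mulVec, dotProduct, leftMulMatrix, mulTab, Finset.sum_mul]
  rw [Finset.sum_comm]

omit [Fintype κ] in
theorem rightMulMatrix_mulVec (c : κ → ι → ι' → R) (u : ι' → R) (v : ι → R) :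
    rightMulMatrix c u *ᵥ v = mulTab c v u := by
  funext k
  simp only [Matrix.mulVec, dotProduct, rightMulMatrix, mulTab, Finset.sum_mul]
  refine Finset.sum_congr rfl fun i _ => Finset.sum_congr rfl fun j _ => ?_
  ring

omit [Fintype κ] [Fintype ι'] in
theorem leftMulMatrix_map (θ : R →+* S) (c : κ → ι → ι' → R) (u : ι → R) :
    (leftMulMatrix c u).map θ = leftMulMatrix (mapTab θ c) (fun i => θ (u i)) := by
  ext k j
  simp [leftMulMatrix, mapTab, Matrix.map_apply, map_sum, map_mul]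

omit [Fintype κ] [Fintype ι] in
theorem rightMulMatrix_map (θ : R →+* S) (c : κ → ι → ι' → R) (u : ι' → R) :
    (rightMulMatrix c u).map θ = rightMulMatrix (mapTab θ c) (fun j => θ (u j)) := by
  ext k i
  simp [rightMulMatrix, mapTab, Matrix.map_apply, map_sum, map_mul]

omit [Fintype κ] in
/-- In every fibre, `leftMulMatrix` is multiplication by the image of `u`. -/
theorem leftMulMatrix_map_mulVec (θ : R →+* S) (c : κ → ι → ι' → R) (u : ι → R) (w : ι' → S) :
    (leftMulMatrix c u).map θ *ᵥ w = mulTab (mapTab θ c) (fun i => θ (u i)) w := by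
  rw [leftMulMatrix_map, leftMulMatrix_mulVec]

omit [Fintype κ] in
/-- In every fibre, `rightMulMatrix` is multiplication by the image of `u`. -/
theorem rightMulMatrix_map_mulVec (θ : R →+* S) (c : κ → ι → ι' → R) (u : ι' → R) (v : ι → S) :
    (rightMulMatrix c u).map θ *ᵥ v = mulTab (mapTab θ c) v (fun j => θ (u j)) := by
  rw [rightMulMatrix_map, rightMulMatrix_mulVec]

end Elements

section Graph

variable {R : Type u} [CommRing R] {ι₁ : Type v} [Fintype ι₁] {ι₂ : Type w} [Fintype ι₂]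
variable {S : Type*} [CommRing S]

/-- The graph family of a matrix `Φ`: `{(v, Φ v)}`. -/
def ofGraph [DecidableEq ι₁] (Φ : Matrix ι₂ ι₁ R) : Fam R (ι₁ ⊕ ι₂) :=
  ⟨Matrix.fromBlocks 1 0 Φ 0, by
    rw [Matrix.fromBlocks_multiply]
    simp⟩

theorem mem_fib_ofGraph [DecidableEq ι₁] (Φ : Matrix ι₂ ι₁ R) (θ : R →+* S)
    (x : ι₁ ⊕ ι₂ → S) :
    x ∈ (ofGraph Φ).fib θ ↔ x ∘ Sum.inr = (Φ.map θ) *ᵥ (x ∘ Sum.inl) := by
  rw [mem_fib_iff]
  have hmap : (ofGraph Φ).P.map θ = Matrix.fromBlocks 1 0 (Φ.map θ) 0 := by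
    show (Matrix.fromBlocks 1 0 Φ 0).map θ = _
    rw [Matrix.fromBlocks_map, Matrix.map_one _ θ.map_zero θ.map_one, Matrix.map_zero _ θ.map_zero,
      Matrix.map_zero _ θ.map_zero]
  rw [hmap]
  have hx : x = Sum.elim (x ∘ Sum.inl) (x ∘ Sum.inr) := by
    funext i; cases i <;> rfl
  constructor
  · intro h
    rw [hx, Matrix.fromBlocks_mulVec] at h
    have h2 := congrArg (fun z => z ∘ Sum.inr) h
    simp only [Sum.elim_comp_inr, Sum.elim_comp_inl, Matrix.zero_mulVec, add_zero] at h2
    exact h2.symm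
  · intro h
    rw [hx, Matrix.fromBlocks_mulVec]
    simp only [Sum.elim_comp_inr, Sum.elim_comp_inl, Matrix.zero_mulVec, add_zero,
      Matrix.one_mulVec]
    rw [← h]

/-- **Exit of a chain**: a family over a local ring whose closed fibre projects bijectively
onto the `ι₁`-coordinates is a graph — data form, valid at every fibre. -/
theorem exists_graphFact [IsLocalRing R] [DecidableEq ι₁] (W : Fam R (ι₁ ⊕ ι₂)) {ρ : ℕ}
    (h : RankFact W.P ρ)
    (hproj : Function.Bijective
      (fun w : W.fib (IsLocalRing.residue R) =>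
        (w : ι₁ ⊕ ι₂ → IsLocalRing.ResidueField R) ∘ Sum.inl)) :
    Nonempty (GraphFact h.B (Sum.inl : ι₁ → ι₁ ⊕ ι₂) (Sum.inr : ι₂ → ι₁ ⊕ ι₂)) :=
  h.exists_graphFact Sum.inl Sum.inr hproj

theorem mem_fib_iff_graph [DecidableEq ι₁] (W : Fam R (ι₁ ⊕ ι₂)) {ρ : ℕ} (h : RankFact W.P ρ)
    (g : GraphFact h.B (Sum.inl : ι₁ → ι₁ ⊕ ι₂) (Sum.inr : ι₂ → ι₁ ⊕ ι₂)) (θ : R →+* S)
    (x : ι₁ ⊕ ι₂ → S) :
    x ∈ W.fib θ ↔ x ∘ Sum.inr = (g.Φ.map θ) *ᵥ (x ∘ Sum.inl) :=
  h.mem_range_map_iff_graph g (range_inl_or_range_inr ι₁ ι₂) θ x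

end Graph

section Iso

variable {R : Type u} [CommRing R] {ι : Type v} [Fintype ι] {κ : Type w} [Fintype κ]

/-- Change of coordinates: a split factorisation of `g * W.P` for a left-invertible `g`. -/
def rankFactLeftMul [DecidableEq ι] (W : Fam R ι) {ρ : ℕ} (h : RankFact W.P ρ) (g : Matrix κ ι R)
    (g' : Matrix ι κ R) (hg : g' * g = 1) : RankFact (g * W.P) ρ where
  B := g * h.B
  C := h.C
  B' := h.B' * g'
  C' := h.C'
  fact := by rw [Matrix.mul_assoc, ← h.fact]
  hB := by
    rw [Matrix.mul_assoc, ← Matrix.mul_assoc g' g, hg, Matrix.one_mul, h.hB]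
  hC := h.hC

end Iso

end Fam

end Fermat.Agent.Lib.LinAlg.Family
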