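/-
`Fermat.Agent.Lib.LinAlg.FamilyMore` (helper5, PADIC): complements to `Family.lean`.

* `rank_map_field`: the rank of a matrix over a field is invariant under field extension.
* Versions of the existence lemmas of `Family.lean` in which the CLOSED POINT is an arbitrary
  local homomorphism `ε : R →+* k` to a field (for instance `FunRing.closedPoint`), instead of
  literally `IsLocalRing.residue R`:
  `exists_rankFact_image'`, `exists_rankFact_preimage'`, `exists_rankFact_mul'`,
  `exists_rankFact_transporter'`, `exists_graphFact'`.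
-/
import Mathlib
import Fermat.Agent.Lib.LinAlg.Family

set_option autoImplicit false

open Matrix Module

namespace Fermat.Agent.Lib.LinAlg.Family

open Fermat.Agent.Lib.LinAlg.ConstRank

universe u v w

section Field

variable {K : Type*} [Field K]

/-- A matrix of rank `ρ` over a field has `ρ` linearly independent columns. -/
theorem exists_cols_linearIndependent {m n : Type*} [Fintype m] [Fintype n]
    (N : Matrix m n K) (ρ : ℕ) (hρ : N.rank = ρ) :
    ∃ c : Fin ρ → n, LinearIndependent K (fun i => N.col (c i)) := by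
  classical
  subst hρ
  obtain ⟨κ, a, ha, hspan, hli⟩ := exists_linearIndependent' K N.col
  have : Finite κ := Finite.of_injective a ha
  have := Fintype.ofFinite κ
  have hcard : Fintype.card κ = N.rank := by
    rw [rank_eq_finrank_span_cols, ← hspan, finrank_span_eq_card hli]
  let e : Fin N.rank ≃ κ := (Fintype.equivFinOfCardEq hcard).symm
  exact ⟨a ∘ e, hli.comp e e.injective⟩

/-- A matrix of rank `ρ` over a field has an invertible `ρ × ρ` submatrix. -/
theorem exists_isUnit_submatrix {m n : Type*} [Fintype m] [Fintype n]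
    (N : Matrix m n K) (ρ : ℕ) (hρ : N.rank = ρ) :
    ∃ (r : Fin ρ → m) (c : Fin ρ → n), IsUnit (N.submatrix r c) := by
  classical
  obtain ⟨c, hc⟩ := exists_cols_linearIndependent N ρ hρ
  set L : Matrix m (Fin ρ) K := N.submatrix id c with hL
  have hLcol : L.col = fun i => N.col (c i) := by
    ext i j; rfl
  have hLrank : L.rank = ρ := by
    rw [rank_eq_finrank_span_cols, hLcol, finrank_span_eq_card hc, Fintype.card_fin]
  have hLt : Lᵀ.rank = ρ := by rw [rank_transpose, hLrank]
  obtain ⟨r, hr⟩ := exists_cols_linearIndependent Lᵀ ρ hLt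
  refine ⟨r, c, ?_⟩
  rw [← linearIndependent_rows_iff_isUnit]
  exact hr

/-- Over a field every matrix has a split rank factorisation of size its rank. -/
theorem exists_rankFact_field {m n : Type*} [Fintype m] [Fintype n] (M : Matrix m n K)
    (ρ : ℕ) (hρ : M.rank = ρ) : Nonempty (RankFact M ρ) := by
  classical
  obtain ⟨r, c, hu⟩ := exists_isUnit_submatrix M ρ hρ
  set A : Matrix (Fin ρ) (Fin ρ) K := M.submatrix r c with hA
  have hAinv : A⁻¹ * A = 1 := Matrix.nonsing_inv_mul A ((Matrix.isUnit_iff_isUnit_det A).1 hu)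
  set L : Matrix m (Fin ρ) K := M.submatrix id c with hL
  set L' : Matrix (Fin ρ) m K := A⁻¹ * (1 : Matrix m m K).submatrix r id with hL'
  set T' : Matrix n (Fin ρ) K := (1 : Matrix n n K).submatrix id c with hT'
  have hMT' : M * T' = L := by
    ext i j
    simp [hT', hL, Matrix.mul_apply, Matrix.one_apply]
  have hrowL : (1 : Matrix m m K).submatrix r id * L = A := by
    ext i j
    simp [hL, hA, Matrix.mul_apply, Matrix.one_apply]
  have hL'L : L' * L = 1 := by
    rw [hL', Matrix.mul_assoc, hrowL, hAinv]
  have hle : LinearMap.range L.mulVecLin ≤ LinearMap.range M.mulVecLin := by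
    rw [← hMT', Matrix.mulVecLin_mul]
    exact LinearMap.range_comp_le_range _ _
  have hinjL : Function.Injective L.mulVecLin := by
    intro v w hvw
    have := congrArg (L'.mulVecLin) hvw
    simpa [Matrix.mulVec_mulVec, hL'L] using this
  have hfr : finrank K (LinearMap.range M.mulVecLin) ≤ finrank K (LinearMap.range L.mulVecLin) := by
    rw [LinearMap.finrank_range_of_inj hinjL, Module.finrank_pi, Fintype.card_fin]
    exact hρ.le
  have heq : LinearMap.range L.mulVecLin = LinearMap.range M.mulVecLin :=
    Submodule.eq_of_le_of_finrank_le hle hfr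
  have hzero : (1 - L * L') * M = 0 := by
    apply Matrix.toLin'.injective
    apply LinearMap.ext
    intro v
    have hv : M.mulVecLin v ∈ LinearMap.range L.mulVecLin := by
      rw [heq]; exact LinearMap.mem_range_self _ v
    obtain ⟨w, hw⟩ := hv
    simp only [Matrix.toLin'_apply, map_zero, LinearMap.zero_apply]
    rw [← Matrix.mulVec_mulVec]
    have hw' : M *ᵥ v = L *ᵥ w := by simpa using hw.symm
    rw [hw', Matrix.sub_mulVec, Matrix.one_mulVec, ← Matrix.mulVec_mulVec,
      Matrix.mulVec_mulVec w L' L, hL'L, Matrix.one_mulVec, sub_self]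
  rw [Matrix.sub_mul, Matrix.one_mul, sub_eq_zero] at hzero
  exact ⟨{ B := L, C := L' * M, B' := L', C' := T'
           fact := by rw [← Matrix.mul_assoc]; exact hzero
           hB := hL'L
           hC := by rw [Matrix.mul_assoc, hMT', hL'L] }⟩

/-- **The rank is invariant under field extension.** -/
theorem rank_map_field {L : Type*} [Field L] {m n : Type*} [Fintype m] [Fintype n]
    (M : Matrix m n K) (f : K →+* L) : (M.map f).rank = M.rank := by
  obtain ⟨h⟩ := exists_rankFact_field M M.rank rfl
  exact (h.map f).rank_eq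

/-- Bijectivity of `mulVec` descends along a field extension. -/
theorem bijective_mulVec_of_map {L : Type*} [Field L] {α β : Type*} [Fintype α] [Fintype β]
    (N : Matrix α β K) (f : K →+* L) (h : Function.Bijective (N.map f).mulVec) :
    Function.Bijective N.mulVec := by
  have hr := rank_map_field N f
  have h1 : (N.map f).rank = Fintype.card β := by
    have hinj : Function.Injective (N.map f).mulVecLin := h.1
    rw [Matrix.rank, LinearMap.finrank_range_of_inj hinj, Module.finrank_pi]
  have h2 : (N.map f).rank = Fintype.card α := by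
    have hsurj : LinearMap.range (N.map f).mulVecLin = ⊤ := LinearMap.range_eq_top.2 h.2
    rw [Matrix.rank, hsurj, finrank_top, Module.finrank_pi]
  have hrn := LinearMap.finrank_range_add_finrank_ker N.mulVecLin
  rw [Module.finrank_pi] at hrn
  have hrk : finrank K (LinearMap.range N.mulVecLin) = N.rank := rfl
  constructor
  · have hker : finrank K (LinearMap.ker N.mulVecLin) = 0 := by omega
    have hbot : LinearMap.ker N.mulVecLin = ⊥ := Submodule.finrank_eq_zero.1 hker
    exact LinearMap.ker_eq_bot.1 hbot
  · have htop : LinearMap.range N.mulVecLin = ⊤ := by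
      apply Submodule.eq_top_of_finrank_eq
      rw [Module.finrank_pi]
      omega
    exact LinearMap.range_eq_top.1 htop

end Field

namespace Fam

section ClosedPoint

variable {R : Type u} [CommRing R] [IsLocalRing R] {k : Type*} [Field k] (ε : R →+* k)
  [IsLocalHom ε]

/-- The rank at an arbitrary closed point equals the rank at the residue field. -/
theorem rank_map_closedPoint {m n : Type*} [Fintype m] [Fintype n] (X : Matrix m n R) :
    (X.map ε).rank = (X.map (IsLocalRing.residue R)).rank := by
  have h : X.map ε = (X.map (IsLocalRing.residue R)).map (IsLocalRing.ResidueField.lift ε) := by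
    ext i j
    simp [IsLocalRing.ResidueField.lift_residue_apply]
  rw [h, rank_map_field]

variable {ι : Type v} [Fintype ι] {κ : Type w} [Fintype κ] {ι' : Type*} [Fintype ι']

/-- `exists_rankFact_image` with an arbitrary closed point. -/
theorem exists_rankFact_image' (W : Fam R ι) (M : Matrix κ ι R) {I : Type*} {K : I → Type*}
    [∀ i, Field (K i)] (χ : ∀ i, R →+* K i) (hχ : ∀ r : R, (∀ i, χ i r = 0) → r = 0) (ρ : ℕ)
    (hρ : finrank k ((W.fib ε).map (M.map ε).mulVecLin) = ρ)
    (hrank : ∀ i, finrank (K i) ((W.fib (χ i)).map (M.map (χ i)).mulVecLin) ≤ ρ) :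
    Nonempty (RankFact (M * W.P) ρ) :=
  exists_rankFact' (M * W.P) χ hχ ρ
    (by rw [← rank_map_closedPoint ε, rank_image_matrix]; exact hρ)
    (fun i => by rw [rank_image_matrix]; exact hrank i)

/-- `exists_rankFact_preimage` with an arbitrary closed point. -/
theorem exists_rankFact_preimage' [DecidableEq κ] (W : Fam R ι) (Q : Fam R κ)
    (M : Matrix κ ι R) {I : Type*} {K : I → Type*}
    [∀ i, Field (K i)] (χ : ∀ i, R →+* K i) (hχ : ∀ r : R, (∀ i, χ i r = 0) → r = 0)
    (hrank : ∀ i, finrank k
        (W.fib ε ⊓ (Q.fib ε).comap (M.map ε).mulVecLin : Submodule k (ι → k))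
      ≤ finrank (K i) (W.fib (χ i) ⊓ (Q.fib (χ i)).comap (M.map (χ i)).mulVecLin :
          Submodule (K i) (ι → K i))) :
    ∃ ρ : ℕ, Nonempty (RankFact ((1 - Q.P) * M * W.P) ρ) := by
  refine ⟨_, ConstRank.exists_rankFact ((1 - Q.P) * M * W.P) χ hχ fun i => ?_⟩
  have h1 := rank_preimage_matrix_map W Q M (χ i)
  have h2 := rank_preimage_matrix_map W Q M ε
  have h3 := hrank i
  rw [← rank_map_closedPoint ε]
  omega

/-- `exists_rankFact_mul` with an arbitrary closed point. -/
theorem exists_rankFact_mul' (W : Fam R ι) (W' : Fam R ι')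
    (c : κ → ι → ι' → R) {I : Type*} {K : I → Type*}
    [∀ i, Field (K i)] (χ : ∀ i, R →+* K i) (hχ : ∀ r : R, (∀ i, χ i r = 0) → r = 0) (ρ : ℕ)
    (hρ : finrank k (prodSpan (mapTab ε c) (W.fib ε) (W'.fib ε)) = ρ)
    (hrank : ∀ i, finrank (K i)
      (prodSpan (mapTab (χ i) c) (W.fib (χ i)) (W'.fib (χ i))) ≤ ρ) :
    Nonempty (RankFact (tabMatrix c * (W.kron W').P) ρ) := by
  apply exists_rankFact_image' ε (W.kron W') (tabMatrix c) χ hχ ρ
  · rw [map_tab_fib_kron]; exact hρ
  · intro i
    rw [map_tab_fib_kron]; exact hrank i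

/-- `exists_rankFact_transporter` with an arbitrary closed point. -/
theorem exists_rankFact_transporter' [DecidableEq ι'] [DecidableEq κ]
    (Pf : Fam R ι) (U : Fam R ι') (Q : Fam R κ) (c : κ → ι → ι' → R) {I : Type*}
    {K : I → Type*} [∀ i, Field (K i)] (χ : ∀ i, R →+* K i)
    (hχ : ∀ r : R, (∀ i, χ i r = 0) → r = 0)
    (hrank : ∀ i, finrank k
        (transp (mapTab ε c) (Pf.fib ε) (U.fib ε) (Q.fib ε))
      ≤ finrank (K i) (transp (mapTab (χ i) c) (Pf.fib (χ i)) (U.fib (χ i)) (Q.fib (χ i)))) :
    ∃ ρ : ℕ, Nonempty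
      (RankFact ((1 - (Q.kron (top R ι')).P) * transpMatrix c U.P * Pf.P) ρ) := by
  apply exists_rankFact_preimage' ε Pf (Q.kron (top R ι')) (transpMatrix c U.P) χ hχ
  intro i
  rw [fib_transp_eq, fib_transp_eq]
  exact hrank i

end ClosedPoint

section GraphClosedPoint

variable {R : Type u} [CommRing R] [IsLocalRing R] {k : Type*} [Field k] (ε : R →+* k)
  [IsLocalHom ε]
variable {ι₁ : Type v} [Fintype ι₁] {ι₂ : Type w} [Fintype ι₂]

/-- `exists_graphFact` with an arbitrary closed point: if the closed fibre projects bijectively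
onto the `ι₁`-coordinates, the family is a graph. -/
theorem exists_graphFact' [DecidableEq ι₁] (W : Fam R (ι₁ ⊕ ι₂)) {ρ : ℕ} (h : RankFact W.P ρ)
    (hproj : Function.Bijective
      (fun w : W.fib ε => (w : ι₁ ⊕ ι₂ → k) ∘ Sum.inl)) :
    Nonempty (GraphFact h.B (Sum.inl : ι₁ → ι₁ ⊕ ι₂) (Sum.inr : ι₂ → ι₁ ⊕ ι₂)) := by
  apply ConstRank.exists_graphFact
  have h1 : ((h.B.submatrix Sum.inl id).map ε).mulVec =
      (fun w : LinearMap.range (W.P.map ε).mulVecLin => (w : ι₁ ⊕ ι₂ → k) ∘ Sum.inl) ∘
        (h.map ε).rangeEquiv := by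
    funext x
    rfl
  have h2 : Function.Bijective ((h.B.submatrix Sum.inl id).map ε).mulVec := by
    rw [h1]
    exact Function.Bijective.comp hproj (h.map ε).rangeEquiv.bijective
  have h3 : (h.B.submatrix Sum.inl id).map ε =
      ((h.B.submatrix Sum.inl id).map (IsLocalRing.residue R)).map
        (IsLocalRing.ResidueField.lift ε) := by
    ext i j
    simp [IsLocalRing.ResidueField.lift_residue_apply]
  rw [h3] at h2
  exact bijective_mulVec_of_map _ _ h2

end GraphClosedPoint

end Fam

end Fermat.Agent.Lib.LinAlg.Family
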