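/-
  Fixed points of a Frobenius-semilinear map (Lang's lemma, counting form).

  For a finite `p`-torsion abelian group `V₀`, a surjective map `g : V₀ → V₀` and a field `κ`
  of characteristic `p`, the additive maps `A : V₀ → κ` with `A (g x) = A x ^ p` are at most
  `#V₀` in number.  This is the counting leaf of the ordinary flat deformation count
  (TW-FLAT, step (5)).
-/
import Mathlib

namespace Fermat.Agent.Lib.FrobFixed

variable {p : ℕ} [Fact p.Prime]

/-- In a field of characteristic `p`, the solutions of `a ^ p = a` are the elements of the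
prime field. -/
theorem exists_zmod_of_pow_eq {κ : Type*} [Field κ] [CharP κ p] (a : κ) (h : a ^ p = a) :
    ∃ z : ZMod p, ((z.val : ℕ) : κ) = a := by
  letI : Algebra (ZMod p) κ := ZMod.algebra κ p
  have h1 : a ∈ (⊥ : Subfield κ) := (Subfield.mem_bot_iff_pow_eq_self κ p).2 h
  rw [Subfield.bot_eq_of_zMod_algebra p] at h1
  obtain ⟨z, hz⟩ := h1
  refine ⟨z, ?_⟩
  rw [← hz, ZMod.natCast_val]
  rfl

/-- Auxiliary form of `pow_card_le_of_linearIndependent` with the `ZMod p`-structures as
instance arguments. -/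
theorem pow_card_le_of_linearIndependent_aux {V₀ : Type*} [AddCommGroup V₀] [Finite V₀]
    [Module (ZMod p) V₀] {κ : Type*} [Field κ] [Algebra (ZMod p) κ]
    {ι : Type*} (v : ι → (V₀ →+ κ)) (hv : LinearIndependent κ v) :
    Finite ι ∧ p ^ Nat.card ι ≤ Nat.card V₀ := by
  classical
  haveI : Fintype V₀ := Fintype.ofFinite V₀
  set f₀ := Module.finrank (ZMod p) V₀ with hf₀
  let e : Module.Basis (Fin f₀) (ZMod p) V₀ := Module.finBasis (ZMod p) V₀
  let ev : (V₀ →+ κ) →ₗ[κ] (Fin f₀ → κ) :=
    { toFun := fun A i => A (e i)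
      map_add' := fun A B => by ext i; simp
      map_smul' := fun c A => by ext i; simp }
  have hev : Function.Injective ev := by
    rw [← LinearMap.ker_eq_bot, LinearMap.ker_eq_bot']
    intro A hA
    have h0 : A.toZModLinearMap p = 0 := by
      apply e.ext
      intro i
      have := congrFun hA i
      simpa [ev] using this
    apply AddMonoidHom.toZModLinearMap_injective p
    rw [h0]
    exact LinearMap.ext fun _ => rfl
  have hv' : LinearIndependent κ (ev ∘ v) := hv.map' ev (LinearMap.ker_eq_bot.2 hev)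
  haveI : Finite ι := hv'.finite
  refine ⟨inferInstance, ?_⟩
  haveI : Fintype ι := Fintype.ofFinite ι
  have hle : Fintype.card ι ≤ f₀ := by
    have := hv'.fintype_card_le_finrank
    simpa using this
  have hcard : Nat.card V₀ = p ^ f₀ := by
    rw [Nat.card_eq_fintype_card, Module.card_eq_pow_finrank (K := ZMod p) (V := V₀), ZMod.card]
  rw [hcard, Nat.card_eq_fintype_card]
  exact Nat.pow_le_pow_right (Fact.out : p.Prime).pos hle

/-- Evaluation on a `ZMod p`-basis is injective on additive maps: a family of additive maps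
`V₀ → κ` that is `κ`-linearly independent has at most `log_p #V₀` elements; stated as
`p ^ #ι ≤ #V₀`. -/
theorem pow_card_le_of_linearIndependent {V₀ : Type*} [AddCommGroup V₀] [Finite V₀]
    (hV : ∀ x : V₀, p • x = 0) {κ : Type*} [Field κ] [CharP κ p]
    {ι : Type*} (v : ι → (V₀ →+ κ)) (hv : LinearIndependent κ v) :
    Finite ι ∧ p ^ Nat.card ι ≤ Nat.card V₀ :=
  @pow_card_le_of_linearIndependent_aux p _ V₀ _ _ (AddCommGroup.zmodModule hV) κ _
    (ZMod.algebra κ p) ι v hv

/-- **Frobenius-twisted additive maps are few** (finiteness and count). -/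
theorem finite_and_card_frobTwisted_le {V₀ : Type*} [AddCommGroup V₀] [Finite V₀]
    (hV : ∀ x : V₀, p • x = 0) {κ : Type*} [Field κ] [CharP κ p] (g : V₀ → V₀)
    (hg : Function.Surjective g) :
    Finite {A : V₀ →+ κ // ∀ x, A (g x) = A x ^ p} ∧
      Nat.card {A : V₀ →+ κ // ∀ x, A (g x) = A x ^ p} ≤ Nat.card V₀ := by
  classical
  set S : Set (V₀ →+ κ) := {A | ∀ x, A (g x) = A x ^ p} with hS
  obtain ⟨b, hbS, hspan, hb⟩ := exists_linearIndependent κ S
  obtain ⟨hfin, hcard⟩ := pow_card_le_of_linearIndependent (p := p) hV _ hb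
  haveI : Fintype b := Fintype.ofFinite b
  -- every solution is an `𝔽_p`-combination of `b`
  have key : ∀ A : S, ∃ z : b → ZMod p,
      (A : V₀ →+ κ) = ∑ t : b, (((z t).val : ℕ) : κ) • (t : V₀ →+ κ) := by
    intro A
    have hA : (A : V₀ →+ κ) ∈ Submodule.span κ (Set.range (Subtype.val : b → (V₀ →+ κ))) := by
      rw [Subtype.range_coe, hspan]
      exact Submodule.subset_span A.2
    obtain ⟨l, hl⟩ := (Submodule.mem_span_range_iff_exists_fun κ).1 hA
    -- the twisted relation
    have hl' : ∑ t : b, l t ^ p • (t : V₀ →+ κ) = (A : V₀ →+ κ) := by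
      ext y
      obtain ⟨x, rfl⟩ := hg y
      have h1 : (A : V₀ →+ κ) (g x) = (A : V₀ →+ κ) x ^ p := A.2 x
      rw [h1, ← hl]
      simp only [AddMonoidHom.coe_finsetSum, Finset.sum_apply, AddMonoidHom.coe_smul,
        Pi.smul_apply, smul_eq_mul]
      rw [sum_pow_char]
      refine Finset.sum_congr rfl fun t _ => ?_
      rw [mul_pow, hbS t.2 x]
    have hdiff : ∑ t : b, (l t ^ p - l t) • (t : V₀ →+ κ) = 0 := by
      simp only [sub_smul, Finset.sum_sub_distrib, hl, hl', sub_self]
    have hzero := (Fintype.linearIndependent_iff.1 hb) _ hdiff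
    have hz : ∀ t : b, ∃ z : ZMod p, (((z.val : ℕ) : κ)) = l t := fun t =>
      exists_zmod_of_pow_eq (l t) (sub_eq_zero.1 (hzero t))
    choose z hz using hz
    exact ⟨z, by simp only [hz, hl]⟩
  choose z hz using key
  have hinj : Function.Injective z := by
    intro A B hAB
    apply Subtype.ext
    rw [hz A, hz B, hAB]
  refine ⟨Finite.of_injective z hinj, ?_⟩
  calc Nat.card {A : V₀ →+ κ // ∀ x, A (g x) = A x ^ p}
      = Nat.card S := rfl
    _ ≤ Nat.card (b → ZMod p) := Nat.card_le_card_of_injective z hinj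
    _ = p ^ Nat.card b := by rw [Nat.card_fun, Nat.card_zmod]
    _ ≤ Nat.card V₀ := hcard

/-- **Frobenius-twisted additive maps are few.** -/
theorem card_frobTwisted_le {V₀ : Type*} [AddCommGroup V₀] [Finite V₀]
    (hV : ∀ x : V₀, p • x = 0) {κ : Type*} [Field κ] [CharP κ p] (g : V₀ → V₀)
    (hg : Function.Surjective g) :
    Nat.card {A : V₀ →+ κ // ∀ x, A (g x) = A x ^ p} ≤ Nat.card V₀ :=
  (finite_and_card_frobTwisted_le hV g hg).2

/-- Multiplicative-domain variant: for a finite commutative group `G` of exponent `p`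
(e.g. a group of additive characters `AddChar k Qb`), the maps `A : G → κ` turning products
into sums and intertwining a surjection `g` with Frobenius are finitely many, at most `#G`. -/
theorem finite_and_card_frobTwisted_le_mul {G : Type*} [CommGroup G] [Finite G]
    (hG : ∀ x : G, x ^ p = 1) {κ : Type*} [Field κ] [CharP κ p] (g : G → G)
    (hg : Function.Surjective g) :
    Finite {A : G → κ // (∀ x y, A (x * y) = A x + A y) ∧ ∀ x, A (g x) = A x ^ p} ∧
    Nat.card {A : G → κ // (∀ x y, A (x * y) = A x + A y) ∧ ∀ x, A (g x) = A x ^ p}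
      ≤ Nat.card G := by
  classical
  have hV : ∀ x : Additive G, p • x = 0 := fun x => by
    have := hG (Additive.toMul x)
    exact congrArg Additive.ofMul this
  let g' : Additive G → Additive G := fun x => Additive.ofMul (g (Additive.toMul x))
  have hg' : Function.Surjective g' := fun y => by
    obtain ⟨x, hx⟩ := hg (Additive.toMul y)
    exact ⟨Additive.ofMul x, congrArg Additive.ofMul hx⟩
  obtain ⟨hfin, main⟩ := finite_and_card_frobTwisted_le (p := p) (κ := κ) hV g' hg'
  let Φ : {A : G → κ // (∀ x y, A (x * y) = A x + A y) ∧ ∀ x, A (g x) = A x ^ p} →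
      {A : Additive G →+ κ // ∀ x, A (g' x) = A x ^ p} := fun A =>
    ⟨AddMonoidHom.mk' (fun x : Additive G => A.1 (Additive.toMul x)) (fun x y => A.2.1 _ _),
      fun x => A.2.2 _⟩
  have hΦ : Function.Injective Φ := by
    intro A B hAB
    apply Subtype.ext
    funext x
    have := congrArg (fun C : {A : Additive G →+ κ // ∀ x, A (g' x) = A x ^ p} =>
      (C : Additive G →+ κ) (Additive.ofMul x)) hAB
    exact this
  exact ⟨Finite.of_injective Φ hΦ, (Nat.card_le_card_of_injective Φ hΦ).trans main⟩

end Fermat.Agent.Lib.FrobFixed
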