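/-
  Fixed points of a semilinear map, general form (Lang's lemma, counting form).

  `V` a finite-dimensional vector space over a field `κ`, `Φ : V → V` additive with
  `Φ (t • v) = t ^ q • Φ v`, `1 < q`.  Then `Φ` has at most `q ^ dim V` fixed points.
-/
import Mathlib

namespace Fermat.Agent.Lib.FrobFixed

open Polynomial

/-- The solutions of `t ^ q = t` in a field, `1 < q`, as a finset of at most `q` elements. -/
theorem exists_finset_pow_eq_self {κ : Type*} [Field κ] {q : ℕ} (hq : 1 < q) :
    ∃ R : Finset κ, (∀ t : κ, t ∈ R ↔ t ^ q = t) ∧ R.card ≤ q := by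
  classical
  have hne : (X ^ q - X : κ[X]) ≠ 0 := FiniteField.X_pow_card_sub_X_ne_zero κ hq
  refine ⟨(X ^ q - X : κ[X]).roots.toFinset, fun t => ?_, ?_⟩
  · rw [Multiset.mem_toFinset, mem_roots hne, IsRoot.def, eval_sub, eval_pow, eval_X, sub_eq_zero]
  · calc (X ^ q - X : κ[X]).roots.toFinset.card ≤ Multiset.card (X ^ q - X : κ[X]).roots :=
          Multiset.toFinset_card_le _
      _ ≤ (X ^ q - X : κ[X]).natDegree := card_roots' _
      _ = q := FiniteField.X_pow_card_sub_X_natDegree_eq κ hq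

/-- **Fixed points of a `q`-semilinear map**, `1 < q`: finitely many, at most `q ^ dim V`. -/
theorem card_fixed_pow_semilinear_le {κ : Type*} [Field κ] {q : ℕ} (hq : 1 < q)
    {V : Type*} [AddCommGroup V] [Module κ V] [FiniteDimensional κ V] (Φ : V → V)
    (hadd : ∀ v w, Φ (v + w) = Φ v + Φ w) (hsemi : ∀ (t : κ) (v : V), Φ (t • v) = t ^ q • Φ v) :
    {v : V | Φ v = v}.Finite ∧ Nat.card {v : V // Φ v = v} ≤ q ^ Module.finrank κ V := by
  classical
  set S : Set V := {v | Φ v = v} with hS
  let Φ' : V →+ V := AddMonoidHom.mk' Φ hadd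
  have hΦ' : ∀ v, Φ' v = Φ v := fun _ => rfl
  obtain ⟨b, hbS, hspan, hb⟩ := exists_linearIndependent κ S
  haveI : Finite b := hb.finite
  haveI : Fintype b := Fintype.ofFinite b
  have hbcard : Fintype.card b ≤ Module.finrank κ V := hb.fintype_card_le_finrank
  obtain ⟨R, hR, hRcard⟩ := exists_finset_pow_eq_self (κ := κ) hq
  -- every fixed point is a combination of `b` with coefficients in `R`
  have key : ∀ v : S, ∃ z : b → R, (v : V) = ∑ t : b, ((z t : κ)) • (t : V) := by
    intro v
    have hv : (v : V) ∈ Submodule.span κ (Set.range (Subtype.val : b → V)) := by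
      rw [Subtype.range_coe, hspan]
      exact Submodule.subset_span v.2
    obtain ⟨l, hl⟩ := (Submodule.mem_span_range_iff_exists_fun κ).1 hv
    have hl' : ∑ t : b, l t ^ q • (t : V) = (v : V) := by
      have h1 : Φ (v : V) = (v : V) := v.2
      rw [← h1, ← hl, ← hΦ', map_sum]
      refine Finset.sum_congr rfl fun t _ => ?_
      rw [hΦ', hsemi, hbS t.2]
    have hdiff : ∑ t : b, (l t ^ q - l t) • (t : V) = 0 := by
      simp only [sub_smul, Finset.sum_sub_distrib, hl, hl', sub_self]
    have hzero := (Fintype.linearIndependent_iff.1 hb) _ hdiff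
    exact ⟨fun t => ⟨l t, (hR _).2 (sub_eq_zero.1 (hzero t))⟩, hl.symm⟩
  choose z hz using key
  have hinj : Function.Injective z := by
    intro v w hvw
    apply Subtype.ext
    rw [hz v, hz w, hvw]
  haveI : Finite S := Finite.of_injective z hinj
  refine ⟨Set.toFinite S, ?_⟩
  calc Nat.card {v : V // Φ v = v} = Nat.card S := rfl
    _ ≤ Nat.card (b → R) := Nat.card_le_card_of_injective z hinj
    _ = R.card ^ Fintype.card b := by
        rw [Nat.card_fun, Nat.card_eq_fintype_card, Nat.card_eq_fintype_card, Fintype.card_coe]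
    _ ≤ q ^ Fintype.card b := Nat.pow_le_pow_left hRcard _
    _ ≤ q ^ Module.finrank κ V := Nat.pow_le_pow_right (by omega) hbcard

/-- **Fixed points of a Frobenius-semilinear map** (`Φ (t • v) = t ^ (p ^ m) • Φ v`, `0 < m`):
finitely many, at most `(p ^ m) ^ dim V`. -/
theorem card_fixed_semilinear_le {κ : Type*} [Field κ] {p : ℕ} [Fact p.Prime] [CharP κ p]
    (m : ℕ) (hm : 0 < m) {V : Type*} [AddCommGroup V] [Module κ V] [FiniteDimensional κ V]
    (Φ : V → V) (hadd : ∀ v w, Φ (v + w) = Φ v + Φ w)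
    (hsemi : ∀ (t : κ) (v : V), Φ (t • v) = t ^ (p ^ m) • Φ v) :
    {v : V | Φ v = v}.Finite ∧ Nat.card {v : V // Φ v = v} ≤ (p ^ m) ^ Module.finrank κ V :=
  card_fixed_pow_semilinear_le
    (Nat.one_lt_pow hm.ne' (Fact.out : p.Prime).one_lt) Φ hadd hsemi

end Fermat.Agent.Lib.FrobFixed
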