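import Mathlib

/-!
# Lattices with an automorphism of finite order: eigenvalue multiplicities mod `p`

`Λ` a finitely generated free `ℤ`-module, `a : Λ → Λ` with `a ^ m = 1`.  The ranks of the fixed
lattices `ker (a ^ j - 1)` determine the characteristic polynomial of `a`, hence (for `p ∤ m`)
the dimensions of all eigenspaces of `a ⊗ k`, `k` a field of characteristic `p`.

* `finrank_ker_sub_smul_eq_rootMultiplicity` : for an endomorphism `T` of a finite-dimensional
  vector space with `T ^ m = 1`, `m ≠ 0` in the field: geometric = algebraic multiplicity;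
* `finrank_ker_aeval_prod` : kernel of a product of distinct linear factors;
* `rootMultiplicity_map_eq_of_isPrimitiveRoot` : a rational polynomial has the same multiplicity
  at all primitive `d`-th roots of unity of `ℂ`;
* `charpoly_eq_of_finrank_fixed_eq` : equal fixed ranks ⇒ equal characteristic polynomials;
* `finrank_eigenspace_eq_of_finrank_fixed_eq` : the statement of task TW-EC-L1.
-/

set_option autoImplicit false

open Polynomial Module TensorProduct

namespace Fermat.Agent.Lib.LatticeEigen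

noncomputable section

/-! ### Geometric = algebraic multiplicity for endomorphisms of finite order -/

section Field

variable {K V : Type*} [Field K] [AddCommGroup V] [Module K V] [FiniteDimensional K V]

omit [FiniteDimensional K V] in
theorem isSemisimple_of_pow_eq_one (T : Module.End K V) {m : ℕ} (hT : T ^ m = 1)
    (hm : (m : K) ≠ 0) : T.IsSemisimple := by
  have hsep : (X ^ m - 1 : K[X]).Separable := X_pow_sub_one_separable_iff.mpr hm
  refine Module.End.isSemisimple_of_squarefree_aeval_eq_zero hsep.squarefree ?_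
  simp [hT]

/-- For `T ^ m = 1` with `m` invertible: the dimension of the eigenspace is the multiplicity of
the eigenvalue in the characteristic polynomial. -/
theorem finrank_ker_sub_smul_eq_rootMultiplicity (T : Module.End K V) {m : ℕ} (hT : T ^ m = 1)
    (hm : (m : K) ≠ 0) (μ : K) :
    finrank K (LinearMap.ker (T - μ • (1 : Module.End K V))) = T.charpoly.rootMultiplicity μ := by
  have hss := isSemisimple_of_pow_eq_one T hT hm
  rw [← LinearMap.finrank_maxGenEigenspace_eq T μ,
    hss.isFinitelySemisimple.maxGenEigenspace_eq_eigenspace μ, Module.End.eigenspace_def]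

omit [FiniteDimensional K V] in
/-- If `T ^ m = 1` and `μ ^ m ≠ 1`, then `μ` is not an eigenvalue. -/
theorem ker_sub_smul_eq_bot_of_pow_ne_one (T : Module.End K V) {m : ℕ} (hT : T ^ m = 1)
    {μ : K} (hμ : μ ^ m ≠ 1) : LinearMap.ker (T - μ • (1 : Module.End K V)) = ⊥ := by
  rw [eq_bot_iff]
  intro v hv
  rw [LinearMap.mem_ker, LinearMap.sub_apply, LinearMap.smul_apply, Module.End.one_apply,
    sub_eq_zero] at hv
  have hpow : ∀ n : ℕ, (T ^ n) v = μ ^ n • v := by
    intro n
    induction n with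
    | zero => simp
    | succ n ih =>
      rw [pow_succ, Module.End.mul_apply, hv, map_smul, ih, smul_smul, pow_succ, mul_comm]
  have h1 := hpow m
  rw [hT, Module.End.one_apply] at h1
  have h2 : (1 - μ ^ m) • v = 0 := by rw [sub_smul, one_smul, ← h1, sub_self]
  rcases smul_eq_zero.mp h2 with h | h
  · exact absurd (sub_eq_zero.mp h).symm hμ
  · exact (Submodule.mem_bot K).mpr h

/-- Kernel of a product of distinct linear factors: the dimensions add up. -/
theorem finrank_ker_aeval_prod (T : Module.End K V) (S : Finset K) :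
    finrank K (LinearMap.ker (aeval T (∏ μ ∈ S, (X - C μ) : K[X])))
      = ∑ μ ∈ S, finrank K (LinearMap.ker (T - μ • (1 : Module.End K V))) := by
  classical
  induction S using Finset.induction_on with
  | empty =>
    have h1 : LinearMap.ker (aeval T (∏ μ ∈ (∅ : Finset K), (X - C μ) : K[X])) = ⊥ := by
      rw [Finset.prod_empty, map_one]; exact LinearMap.ker_id
    rw [h1, finrank_bot, Finset.sum_empty]
  | insert a S ha ih =>
    rw [Finset.prod_insert ha, Finset.sum_insert ha, ← ih]
    have hcop : IsCoprime (X - C a : K[X]) (∏ μ ∈ S, (X - C μ)) := by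
      apply IsCoprime.prod_right
      intro μ hμ
      apply isCoprime_X_sub_C_of_isUnit_sub
      exact (sub_ne_zero.mpr (fun h => ha (by rw [h]; exact hμ))).isUnit
    have hsup := sup_ker_aeval_eq_ker_aeval_mul_of_coprime T hcop
    have hdis := disjoint_ker_aeval_of_isCoprime T hcop
    have hlin : aeval T (X - C a : K[X]) = T - a • (1 : Module.End K V) := by
      rw [map_sub, aeval_X, aeval_C, Algebra.algebraMap_eq_smul_one]
    rw [← hsup, ← hlin]
    have := Submodule.finrank_sup_add_finrank_inf_eq (LinearMap.ker (aeval T (X - C a : K[X])))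
      (LinearMap.ker (aeval T (∏ μ ∈ S, (X - C μ) : K[X])))
    rw [disjoint_iff.mp hdis, finrank_bot, add_zero] at this
    exact this

end Field

/-! ### Galois invariance of root multiplicities -/

/-- A rational polynomial has the same multiplicity at all primitive `d`-th roots of unity. -/
theorem rootMultiplicity_map_eq_of_isPrimitiveRoot (f : ℚ[X]) {d : ℕ} (hd : 0 < d) {μ μ' : ℂ}
    (h : IsPrimitiveRoot μ d) (h' : IsPrimitiveRoot μ' d) :
    (f.map (algebraMap ℚ ℂ)).rootMultiplicity μ = (f.map (algebraMap ℚ ℂ)).rootMultiplicity μ' := by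
  by_cases hf : f = 0
  · simp [hf]
  have hΦm : (cyclotomic d ℚ).Monic := cyclotomic.monic d ℚ
  have hfin := finiteMultiplicity_of_degree_pos_of_monic (degree_cyclotomic_pos d ℚ hd) hΦm hf
  obtain ⟨g, hfg, hg⟩ := hfin.exists_eq_pow_mul_and_not_dvd
  set e := multiplicity (cyclotomic d ℚ) f with he
  have key : ∀ ν : ℂ, IsPrimitiveRoot ν d →
      (f.map (algebraMap ℚ ℂ)).rootMultiplicity ν = e := by
    intro ν hν
    have hne : NeZero ((d : ℕ) : ℂ) := ⟨by exact_mod_cast hd.ne'⟩
    have hmap : (cyclotomic d ℚ).map (algebraMap ℚ ℂ) = cyclotomic d ℂ := map_cyclotomic d _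
    have hfmap : f.map (algebraMap ℚ ℂ) = cyclotomic d ℂ ^ e * g.map (algebraMap ℚ ℂ) := by
      conv_lhs => rw [hfg]
      rw [Polynomial.map_mul, Polynomial.map_pow, hmap]
    have hf0 : f.map (algebraMap ℚ ℂ) ≠ 0 := by
      rw [Ne, Polynomial.map_eq_zero]; exact hf
    have hΦ1 : (cyclotomic d ℂ).rootMultiplicity ν = 1 := by
      apply le_antisymm (rootMultiplicity_le_one_of_separable (separable_cyclotomic d ℂ) ν)
      have hroot : IsRoot (cyclotomic d ℂ) ν := isRoot_cyclotomic_iff.mpr hν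
      exact (rootMultiplicity_pos (cyclotomic_ne_zero d ℂ)).mpr hroot
    have hpow : ∀ n : ℕ, (cyclotomic d ℂ ^ n).rootMultiplicity ν = n := by
      intro n
      induction n with
      | zero => simp
      | succ n ih =>
        rw [pow_succ, rootMultiplicity_mul (mul_ne_zero (pow_ne_zero n (cyclotomic_ne_zero d ℂ))
          (cyclotomic_ne_zero d ℂ)), ih, hΦ1]
    have hg0 : (g.map (algebraMap ℚ ℂ)).rootMultiplicity ν = 0 := by
      apply rootMultiplicity_eq_zero
      intro hroot
      apply hg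
      rw [cyclotomic_eq_minpoly_rat hν hd]
      apply minpoly.dvd
      rw [IsRoot, eval_map_algebraMap] at hroot
      exact hroot
    rw [hfmap] at hf0 ⊢
    rw [rootMultiplicity_mul hf0, hpow, hg0, add_zero]
  rw [key μ h, key μ' h']

/-! ### Base change of kernels -/

/-- The rank of the kernel of an endomorphism of a lattice is the dimension of the kernel of its
base change to a field of characteristic zero. -/
theorem finrank_ker_baseChange {Λ Λ' : Type*} [AddCommGroup Λ] [AddCommGroup Λ']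
    [Module.Free ℤ Λ] [Module.Finite ℤ Λ]
    (K : Type*) [Field K] [CharZero K] (f : Λ →ₗ[ℤ] Λ') :
    finrank K (LinearMap.ker (f.baseChange K)) = finrank ℤ (LinearMap.ker f) := by
  rw [← Module.finrank_baseChange (R := K) (S := ℤ) (M' := LinearMap.ker f)]
  exact (LinearMap.tensorKerEquiv K K f).finrank_eq.symm

/-! ### Fixed ranks and sums of multiplicities -/

section Field2

variable {K V : Type*} [Field K] [AddCommGroup V] [Module K V] [FiniteDimensional K V]

/-- If `K` contains a primitive `j`-th root of unity, the fixed space of `T ^ j` has dimension the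
sum of the dimensions of the eigenspaces of `T` at the `j`-th roots of unity. -/
theorem finrank_ker_pow_sub_one (T : Module.End K V) {j : ℕ} (hj : 0 < j) {ζ : K}
    (hζ : IsPrimitiveRoot ζ j) :
    finrank K (LinearMap.ker (T ^ j - 1))
      = ∑ μ ∈ nthRootsFinset j (1 : K), finrank K (LinearMap.ker (T - μ • (1 : Module.End K V))) := by
  have h : aeval T (X ^ j - 1 : K[X]) = T ^ j - 1 := by
    rw [map_sub, map_pow, aeval_X, map_one]
  rw [← finrank_ker_aeval_prod, ← X_pow_sub_one_eq_prod hj hζ, h]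

end Field2

/-- Möbius-type inversion: two functions on the complex roots of unity, each constant on the
primitive `d`-th roots for every `d`, with equal sums over the `j`-th roots of unity for all `j`,
coincide on all roots of unity. -/
theorem eq_of_sum_nthRoots_eq (n₁ n₂ : ℂ → ℕ)
    (hc₁ : ∀ d : ℕ, 0 < d → ∀ μ μ' : ℂ, IsPrimitiveRoot μ d → IsPrimitiveRoot μ' d → n₁ μ = n₁ μ')
    (hc₂ : ∀ d : ℕ, 0 < d → ∀ μ μ' : ℂ, IsPrimitiveRoot μ d → IsPrimitiveRoot μ' d → n₂ μ = n₂ μ')
    (hsum : ∀ j : ℕ, 0 < j →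
      ∑ μ ∈ nthRootsFinset j (1 : ℂ), n₁ μ = ∑ μ ∈ nthRootsFinset j (1 : ℂ), n₂ μ) :
    ∀ d : ℕ, 0 < d → ∀ μ : ℂ, IsPrimitiveRoot μ d → n₁ μ = n₂ μ := by
  classical
  intro d
  induction d using Nat.strong_induction_on with
  | _ d ih =>
    intro hd μ hμ
    have hU := IsPrimitiveRoot.nthRoots_one_eq_biUnion_primitiveRoots (R := ℂ) (n := d)
    have hdisj : ((Nat.divisors d : Finset ℕ) : Set ℕ).PairwiseDisjoint
        (fun i => primitiveRoots i ℂ) := fun x _ y _ hxy => IsPrimitiveRoot.disjoint hxy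
    have h := hsum d hd
    rw [hU, Finset.sum_biUnion hdisj, Finset.sum_biUnion hdisj,
      ← Nat.insert_self_properDivisors hd.ne', Finset.sum_insert Nat.self_notMem_properDivisors,
      Finset.sum_insert Nat.self_notMem_properDivisors] at h
    have hprop : ∑ i ∈ Nat.properDivisors d, ∑ ν ∈ primitiveRoots i ℂ, n₁ ν
        = ∑ i ∈ Nat.properDivisors d, ∑ ν ∈ primitiveRoots i ℂ, n₂ ν := by
      refine Finset.sum_congr rfl (fun e he => Finset.sum_congr rfl (fun ν hν => ?_))
      have he' := Nat.mem_properDivisors.mp he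
      have hepos : 0 < e := Nat.pos_of_dvd_of_pos he'.1 hd
      exact ih e he'.2 hepos ν ((mem_primitiveRoots hepos).mp hν)
    rw [hprop] at h
    have h' := Nat.add_right_cancel h
    rw [Finset.sum_congr rfl (fun ν hν => hc₁ d hd ν μ ((mem_primitiveRoots hd).mp hν) hμ),
      Finset.sum_congr rfl (fun ν hν => hc₂ d hd ν μ ((mem_primitiveRoots hd).mp hν) hμ),
      Finset.sum_const, Finset.sum_const, smul_eq_mul, smul_eq_mul] at h'
    have hcard : 0 < (primitiveRoots d ℂ).card :=
      Finset.card_pos.mpr ⟨μ, (mem_primitiveRoots hd).mpr hμ⟩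
    exact Nat.eq_of_mul_eq_mul_left hcard h'

/-! ### The main theorem -/

section Lattice

variable {Λ₁ Λ₂ : Type*} [AddCommGroup Λ₁] [AddCommGroup Λ₂]
  [Module.Free ℤ Λ₁] [Module.Finite ℤ Λ₁] [Module.Free ℤ Λ₂] [Module.Finite ℤ Λ₂]

/-- For a lattice automorphism of finite order, the complex eigenspace dimension is the root
multiplicity of the characteristic polynomial. -/
theorem finrank_ker_baseChange_sub_smul_eq_rootMultiplicity {Λ : Type*} [AddCommGroup Λ]
    [Module.Free ℤ Λ] [Module.Finite ℤ Λ] (a : Λ →ₗ[ℤ] Λ) {m : ℕ} (h : a ^ m = 1)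
    (K : Type*) [Field K] (hm : (m : K) ≠ 0) (μ : K) :
    finrank K (LinearMap.ker (a.baseChange K - μ • (1 : Module.End K (K ⊗[ℤ] Λ))))
      = (a.charpoly.map (algebraMap ℤ K)).rootMultiplicity μ := by
  have hT : (a.baseChange K) ^ m = 1 := by
    rw [← LinearMap.baseChange_pow, h, LinearMap.baseChange_one]
  rw [finrank_ker_sub_smul_eq_rootMultiplicity _ hT hm μ, LinearMap.charpoly_baseChange]

/-- Equal fixed ranks of all powers ⇒ equal root multiplicities of the characteristic
polynomials at every complex number. -/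
theorem rootMultiplicity_charpoly_eq_of_finrank_fixed_eq
    (a₁ : Λ₁ →ₗ[ℤ] Λ₁) (a₂ : Λ₂ →ₗ[ℤ] Λ₂) (m : ℕ) (hm : 0 < m)
    (h₁ : a₁ ^ m = 1) (h₂ : a₂ ^ m = 1)
    (hfix : ∀ j : ℕ, Module.finrank ℤ (LinearMap.ker (a₁ ^ j - 1))
              = Module.finrank ℤ (LinearMap.ker (a₂ ^ j - 1))) (μ : ℂ) :
    (a₁.charpoly.map (algebraMap ℤ ℂ)).rootMultiplicity μ
      = (a₂.charpoly.map (algebraMap ℤ ℂ)).rootMultiplicity μ := by
  have hm' : (m : ℂ) ≠ 0 := by exact_mod_cast hm.ne'
  have hT₁ : (a₁.baseChange ℂ) ^ m = 1 := by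
    rw [← LinearMap.baseChange_pow, h₁, LinearMap.baseChange_one]
  have hT₂ : (a₂.baseChange ℂ) ^ m = 1 := by
    rw [← LinearMap.baseChange_pow, h₂, LinearMap.baseChange_one]
  have hL₁ := finrank_ker_baseChange_sub_smul_eq_rootMultiplicity a₁ h₁ ℂ hm'
  have hL₂ := finrank_ker_baseChange_sub_smul_eq_rootMultiplicity a₂ h₂ ℂ hm'
  by_cases hμ : μ ^ m = 1
  · have hd : 0 < orderOf μ := orderOf_pos_iff.mpr (isOfFinOrder_iff_pow_eq_one.mpr ⟨m, hm, hμ⟩)
    have hprim : IsPrimitiveRoot μ (orderOf μ) := IsPrimitiveRoot.orderOf μ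
    have hcomp : ∀ f : ℤ[X], f.map (algebraMap ℤ ℂ)
        = (f.map (algebraMap ℤ ℚ)).map (algebraMap ℚ ℂ) := by
      intro f
      rw [Polynomial.map_map]
      congr 1
    refine eq_of_sum_nthRoots_eq
      (fun ν => (a₁.charpoly.map (algebraMap ℤ ℂ)).rootMultiplicity ν)
      (fun ν => (a₂.charpoly.map (algebraMap ℤ ℂ)).rootMultiplicity ν) ?_ ?_ ?_ _ hd μ hprim
    · intro d hd ν ν' hν hν'
      simp only [hcomp]
      exact rootMultiplicity_map_eq_of_isPrimitiveRoot _ hd hν hν'
    · intro d hd ν ν' hν hν'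
      simp only [hcomp]
      exact rootMultiplicity_map_eq_of_isPrimitiveRoot _ hd hν hν'
    · intro j hj
      have hζ : IsPrimitiveRoot (Complex.exp (2 * Real.pi * Complex.I / j)) j :=
        Complex.isPrimitiveRoot_exp j hj.ne'
      have e₁ : (a₁.baseChange ℂ) ^ j - 1 = (a₁ ^ j - 1).baseChange ℂ := by
        rw [LinearMap.baseChange_sub, LinearMap.baseChange_pow, LinearMap.baseChange_one]
      have e₂ : (a₂.baseChange ℂ) ^ j - 1 = (a₂ ^ j - 1).baseChange ℂ := by
        rw [LinearMap.baseChange_sub, LinearMap.baseChange_pow, LinearMap.baseChange_one]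
      have s₁ := finrank_ker_pow_sub_one (a₁.baseChange ℂ) hj hζ
      have s₂ := finrank_ker_pow_sub_one (a₂.baseChange ℂ) hj hζ
      rw [e₁, finrank_ker_baseChange] at s₁
      rw [e₂, finrank_ker_baseChange] at s₂
      simp only [hL₁] at s₁
      simp only [hL₂] at s₂
      rw [← s₁, ← s₂, hfix j]
  · rw [← hL₁, ← hL₂, ker_sub_smul_eq_bot_of_pow_ne_one _ hT₁ hμ,
      ker_sub_smul_eq_bot_of_pow_ne_one _ hT₂ hμ, finrank_bot, finrank_bot]

/-- Two lattice automorphisms of finite order whose powers have fixed lattices of equal ranks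
have the same characteristic polynomial. -/
theorem charpoly_eq_of_finrank_fixed_eq
    (a₁ : Λ₁ →ₗ[ℤ] Λ₁) (a₂ : Λ₂ →ₗ[ℤ] Λ₂) (m : ℕ) (hm : 0 < m)
    (h₁ : a₁ ^ m = 1) (h₂ : a₂ ^ m = 1)
    (hfix : ∀ j : ℕ, Module.finrank ℤ (LinearMap.ker (a₁ ^ j - 1))
              = Module.finrank ℤ (LinearMap.ker (a₂ ^ j - 1))) :
    a₁.charpoly = a₂.charpoly := by
  classical
  have hinj : Function.Injective (algebraMap ℤ ℂ) := (algebraMap ℤ ℂ).injective_int
  apply Polynomial.map_injective _ hinj
  have hmon₁ : (a₁.charpoly.map (algebraMap ℤ ℂ)).Monic := (LinearMap.charpoly_monic a₁).map _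
  have hmon₂ : (a₂.charpoly.map (algebraMap ℤ ℂ)).Monic := (LinearMap.charpoly_monic a₂).map _
  have e₁ := (IsAlgClosed.splits (a₁.charpoly.map (algebraMap ℤ ℂ))).eq_prod_roots_of_monic hmon₁
  have e₂ := (IsAlgClosed.splits (a₂.charpoly.map (algebraMap ℤ ℂ))).eq_prod_roots_of_monic hmon₂
  have hroots : (a₁.charpoly.map (algebraMap ℤ ℂ)).roots
      = (a₂.charpoly.map (algebraMap ℤ ℂ)).roots := by
    refine Multiset.ext.mpr (fun μ => ?_)
    rw [count_roots, count_roots]
    exact rootMultiplicity_charpoly_eq_of_finrank_fixed_eq a₁ a₂ m hm h₁ h₂ hfix μ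
  calc a₁.charpoly.map (algebraMap ℤ ℂ)
      = ((a₁.charpoly.map (algebraMap ℤ ℂ)).roots.map (X - C ·)).prod := e₁
    _ = ((a₂.charpoly.map (algebraMap ℤ ℂ)).roots.map (X - C ·)).prod := by rw [hroots]
    _ = a₂.charpoly.map (algebraMap ℤ ℂ) := e₂.symm

end Lattice

/-- **TW-EC-L1.**  Let `Λ₁`, `Λ₂` be lattices with automorphisms `a₁`, `a₂` of order dividing `m`
such that all powers have fixed lattices of the same rank.  Then for every field `k` of
characteristic `p ∤ m` and every `ζ : k`, the `ζ`-eigenspaces of `a₁ ⊗ k` and `a₂ ⊗ k` have the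
same dimension. -/
theorem finrank_eigenspace_eq_of_finrank_fixed_eq
    {Λ₁ Λ₂ : Type} [AddCommGroup Λ₁] [AddCommGroup Λ₂]
    [Module.Free ℤ Λ₁] [Module.Finite ℤ Λ₁] [Module.Free ℤ Λ₂] [Module.Finite ℤ Λ₂]
    (a₁ : Λ₁ →ₗ[ℤ] Λ₁) (a₂ : Λ₂ →ₗ[ℤ] Λ₂) (m : ℕ) (hm : 0 < m)
    (h₁ : a₁ ^ m = 1) (h₂ : a₂ ^ m = 1)
    (hfix : ∀ j : ℕ, Module.finrank ℤ (LinearMap.ker (a₁ ^ j - 1))
              = Module.finrank ℤ (LinearMap.ker (a₂ ^ j - 1)))
    (p : ℕ) [Fact p.Prime] (hpm : ¬ p ∣ m) (k : Type) [Field k] [CharP k p] (ζ : k) :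
    Module.finrank k (LinearMap.ker (a₁.baseChange k - ζ • 1))
      = Module.finrank k (LinearMap.ker (a₂.baseChange k - ζ • 1)) := by
  have hcp := charpoly_eq_of_finrank_fixed_eq a₁ a₂ m hm h₁ h₂ hfix
  have hmk : (m : k) ≠ 0 := by
    rw [Ne, CharP.cast_eq_zero_iff k p]; exact hpm
  rw [finrank_ker_baseChange_sub_smul_eq_rootMultiplicity a₁ h₁ k hmk ζ,
    finrank_ker_baseChange_sub_smul_eq_rootMultiplicity a₂ h₂ k hmk ζ, hcp]

end

end Fermat.Agent.Lib.LatticeEigen
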