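import Fermat.Agent.Lib.LinAlg.LatticeEigen

/-!
# Eigenspaces of permutation modules and additivity in short exact sequences

Complements to `LatticeEigen.lean` (task TW-EC-L1, items (i) and (ii)).

* `permLin R g : (Ω → R) →ₗ[R] (Ω → R)`, `f ↦ f ∘ (g • ·)`, for a group action of `G` on `Ω`;
* `finrank_ker_permLin_pow_sub_one` : the rank of the functions fixed by `g ^ j` is the number of
  orbits of `g ^ j`;
* `finrank_ker_permLin_sub_smul`, `finrank_ker_permLin_baseChange_sub_smul` : the `ζ`-eigenspace of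
  the permutation module has dimension `#{orbits O : ζ ^ #O = 1}` (any field, any `ζ`);
* `finrank_ker_sub_smul_of_exact` : additivity of eigenspace dimensions in short exact sequences
  when the middle endomorphism has order prime to the characteristic;
* `finrank_ker_sub_smul_le_of_exact` : subadditivity without any hypothesis.
-/

set_option autoImplicit false

open Polynomial Module TensorProduct

namespace Fermat.Agent.Lib.LatticeEigen

noncomputable section

/-! ### Permutation modules -/

section Perm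

variable {G Ω : Type*} [Group G] [MulAction G Ω]

/-- The `R`-linear endomorphism `f ↦ f ∘ (g • ·)` of `Ω → R`. -/
def permLin (R : Type*) [Semiring R] (g : G) : (Ω → R) →ₗ[R] (Ω → R) :=
  LinearMap.funLeft R R (fun x : Ω => g • x)

@[simp] theorem permLin_apply (R : Type*) [Semiring R] (g : G) (f : Ω → R) (x : Ω) :
    permLin R g f x = f (g • x) := rfl

theorem permLin_one (R : Type*) [Semiring R] :
    permLin R (1 : G) = (1 : Module.End R (Ω → R)) := by
  ext f x
  simp

theorem permLin_mul (R : Type*) [Semiring R] (g h : G) :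
    (permLin R (g * h) : Module.End R (Ω → R)) = permLin R h * permLin R g := by
  ext f x
  simp [mul_smul]

theorem permLin_pow (R : Type*) [Semiring R] (g : G) (j : ℕ) :
    (permLin R g : Module.End R (Ω → R)) ^ j = permLin R (g ^ j) := by
  induction j with
  | zero => rw [pow_zero, pow_zero, permLin_one]
  | succ j ih => rw [pow_succ, ih, ← permLin_mul, ← pow_succ']

/-- If `g ^ m` acts trivially on `Ω` then `permLin R g ^ m = 1`. -/
theorem permLin_pow_eq_one (R : Type*) [Semiring R] (g : G) (m : ℕ)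
    (h : ∀ x : Ω, g ^ m • x = x) : (permLin R g : Module.End R (Ω → R)) ^ m = 1 := by
  rw [permLin_pow]
  ext f x
  simp [h]

theorem mem_ker_permLin_sub_one_iff (R : Type*) [Ring R] (g : G) (f : Ω → R) :
    f ∈ LinearMap.ker ((permLin R g : Module.End R (Ω → R)) - 1) ↔ ∀ x, f (g • x) = f x := by
  rw [LinearMap.mem_ker, LinearMap.sub_apply, sub_eq_zero]
  constructor
  · intro h x
    exact congrFun h x
  · intro h
    funext x
    exact h x

theorem mem_ker_permLin_sub_smul_iff (k : Type*) [Field k] (g : G) (ζ : k) (f : Ω → k) :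
    f ∈ LinearMap.ker ((permLin k g : Module.End k (Ω → k)) - ζ • 1)
      ↔ ∀ x, f (g • x) = ζ * f x := by
  rw [LinearMap.mem_ker, LinearMap.sub_apply, sub_eq_zero]
  constructor
  · intro h x
    exact congrFun h x
  · intro h
    funext x
    exact h x

theorem mk_smul_eq_mk (g : G) (x : Ω) :
    (Quotient.mk'' (g • x) : MulAction.orbitRel.Quotient (Subgroup.zpowers g) Ω)
      = Quotient.mk'' x :=
  Quotient.sound' ⟨⟨g, Subgroup.mem_zpowers g⟩, rfl⟩

/-- In a finite `G`-set, points in the same `⟨g⟩`-orbit differ by a natural power of `g`. -/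
theorem exists_nat_pow_smul_eq_of_mk_eq [Finite Ω] (g : G) {x y : Ω}
    (h : (Quotient.mk'' y : MulAction.orbitRel.Quotient (Subgroup.zpowers g) Ω)
      = Quotient.mk'' x) : ∃ e : ℕ, g ^ e • x = y := by
  have h' : y ∈ MulAction.orbit (Subgroup.zpowers g) x := Quotient.exact' h
  obtain ⟨⟨a, ha⟩, rfl⟩ := h'
  obtain ⟨z, rfl⟩ := Subgroup.mem_zpowers_iff.mp ha
  have hpos : 0 < Function.minimalPeriod (fun y : Ω => g • y) x :=
    Function.minimalPeriod_pos_of_mem_periodicPts ((MulAction.injective g).mem_periodicPts x)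
  refine ⟨(z % (Function.minimalPeriod (fun y : Ω => g • y) x : ℤ)).toNat, ?_⟩
  have hz : (((z % (Function.minimalPeriod (fun y : Ω => g • y) x : ℤ)).toNat : ℕ) : ℤ)
      = z % (Function.minimalPeriod (fun y : Ω => g • y) x : ℤ) :=
    Int.toNat_of_nonneg (Int.emod_nonneg _ (by exact_mod_cast hpos.ne'))
  rw [← zpow_natCast, hz, MulAction.zpow_smul_mod_minimalPeriod]
  rfl

/-- The functions fixed by `g ^ j` form a free module of rank the number of orbits of `g ^ j`. -/
theorem finrank_ker_permLin_pow_sub_one [Finite Ω] (R : Type*) [Ring R] [StrongRankCondition R]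
    (g : G) (j : ℕ) :
    finrank R (LinearMap.ker ((permLin R g : Module.End R (Ω → R)) ^ j - 1))
      = Nat.card (MulAction.orbitRel.Quotient (Subgroup.zpowers (g ^ j)) Ω) := by
  classical
  rw [permLin_pow]
  generalize g ^ j = h
  have : Fintype (MulAction.orbitRel.Quotient (Subgroup.zpowers h) Ω) := Fintype.ofFinite _
  let Φ : (MulAction.orbitRel.Quotient (Subgroup.zpowers h) Ω → R) →ₗ[R] (Ω → R) :=
    LinearMap.funLeft R R
      (fun x : Ω => (Quotient.mk'' x : MulAction.orbitRel.Quotient (Subgroup.zpowers h) Ω))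
  have hΦinj : Function.Injective Φ := by
    intro c c' hcc
    funext O
    induction O using Quotient.inductionOn' with
    | h x => exact congrFun hcc x
  have hrange : LinearMap.range Φ
      = LinearMap.ker ((permLin R h : Module.End R (Ω → R)) - 1) := by
    ext f
    rw [mem_ker_permLin_sub_one_iff]
    constructor
    · rintro ⟨c, rfl⟩ x
      show c (Quotient.mk'' (h • x)) = c (Quotient.mk'' x)
      rw [mk_smul_eq_mk]
    · intro hf
      have key : ∀ z : ℤ, ∀ x, f (h ^ z • x) = f x := by
        intro z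
        induction z using Int.induction_on with
        | zero => intro x; simp
        | succ n ih => intro x; rw [zpow_add_one, mul_smul, ih]; exact hf x
        | pred n ih =>
          intro x
          rw [zpow_sub_one, mul_smul, ih]
          have := hf (h⁻¹ • x)
          rw [smul_inv_smul] at this
          exact this.symm
      refine ⟨fun O => Quotient.liftOn' O f (fun a b hab => ?_), ?_⟩
      · have hab' : a ∈ MulAction.orbit (Subgroup.zpowers h) b := hab
        obtain ⟨⟨s, hs⟩, rfl⟩ := hab'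
        obtain ⟨z, rfl⟩ := Subgroup.mem_zpowers_iff.mp hs
        exact key z b
      · funext x
        rfl
  rw [← hrange, LinearMap.finrank_range_of_inj hΦinj, Module.finrank_fintype_fun_eq_card,
    Nat.card_eq_fintype_card]

/-- The `ζ`-eigenspace of the permutation module `Ω → k`: its dimension is the number of orbits
`O` of `g` with `ζ ^ #O = 1`.  No hypothesis on the characteristic. -/
theorem finrank_ker_permLin_sub_smul [Finite Ω] (k : Type*) [Field k] (g : G) (ζ : k) :
    finrank k (LinearMap.ker ((permLin k g : Module.End k (Ω → k)) - ζ • 1))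
      = Nat.card {O : MulAction.orbitRel.Quotient (Subgroup.zpowers g) Ω //
          ζ ^ Nat.card O.orbit = 1} := by
  classical
  have : Fintype {O : MulAction.orbitRel.Quotient (Subgroup.zpowers g) Ω //
      ζ ^ Nat.card O.orbit = 1} := Fintype.ofFinite _
  -- the period function
  have hcard : ∀ x : Ω,
      Nat.card (MulAction.orbitRel.Quotient.orbit
          (Quotient.mk'' x : MulAction.orbitRel.Quotient (Subgroup.zpowers g) Ω))
        = Function.minimalPeriod (fun y : Ω => g • y) x := by
    intro x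
    rw [MulAction.orbitRel.Quotient.orbit_mk]
    have : Fintype (MulAction.orbit (Subgroup.zpowers g) x) := Fintype.ofFinite _
    rw [Nat.card_eq_fintype_card, ← MulAction.minimalPeriod_eq_card]
  have hper : ∀ x : Ω, g ^ Function.minimalPeriod (fun y : Ω => g • y) x • x = x :=
    fun x => MulAction.pow_smul_eq_iff_minimalPeriod_dvd.mpr dvd_rfl
  have hEpow : ∀ f : Ω → k, (∀ x, f (g • x) = ζ * f x) →
      ∀ (e : ℕ) (x : Ω), f (g ^ e • x) = ζ ^ e * f x := by
    intro f hf e
    induction e with
    | zero => intro x; simp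
    | succ e ih => intro x; rw [pow_succ', mul_smul, hf, ih, pow_succ', mul_assoc]
  have hζ : ∀ (r : Ω) (a b : ℕ), ζ ^ Function.minimalPeriod (fun y : Ω => g • y) r = 1 →
      g ^ a • r = g ^ b • r → ζ ^ a = ζ ^ b := by
    have aux : ∀ (r : Ω) (a b : ℕ), a ≤ b →
        ζ ^ Function.minimalPeriod (fun y : Ω => g • y) r = 1 →
        g ^ a • r = g ^ b • r → ζ ^ a = ζ ^ b := by
      intro r a b hab h1 h2
      obtain ⟨c, rfl⟩ := Nat.exists_eq_add_of_le hab
      rw [pow_add, mul_smul] at h2
      have h3 : g ^ c • r = r := (smul_left_cancel _ h2).symm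
      obtain ⟨d, hd⟩ := MulAction.pow_smul_eq_iff_minimalPeriod_dvd.mp h3
      rw [pow_add, hd, pow_mul, h1, one_pow, mul_one]
    intro r a b h1 h2
    rcases Nat.le_total a b with hab | hab
    · exact aux r a b hab h1 h2
    · exact (aux r b a hab h1 h2.symm).symm
  -- representatives and exponents
  have hrep : ∀ O : MulAction.orbitRel.Quotient (Subgroup.zpowers g) Ω,
      (Quotient.mk'' (Quotient.out O) : MulAction.orbitRel.Quotient (Subgroup.zpowers g) Ω) = O :=
    fun O => Quotient.out_eq' O
  have hex : ∀ x : Ω, ∃ e : ℕ, g ^ e • Quotient.out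
      (Quotient.mk'' x : MulAction.orbitRel.Quotient (Subgroup.zpowers g) Ω) = x :=
    fun x => exists_nat_pow_smul_eq_of_mk_eq g (hrep (Quotient.mk'' x)).symm
  choose e he using hex
  -- the comparison map
  let Φ : LinearMap.ker ((permLin k g : Module.End k (Ω → k)) - ζ • 1) →ₗ[k]
      ({O : MulAction.orbitRel.Quotient (Subgroup.zpowers g) Ω // ζ ^ Nat.card O.orbit = 1} → k) :=
    (LinearMap.funLeft k k (fun O : {O : MulAction.orbitRel.Quotient (Subgroup.zpowers g) Ω //
      ζ ^ Nat.card O.orbit = 1} => Quotient.out O.1)).comp (Submodule.subtype _)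
  have hΦ : ∀ (f : LinearMap.ker ((permLin k g : Module.End k (Ω → k)) - ζ • 1))
      (O : {O : MulAction.orbitRel.Quotient (Subgroup.zpowers g) Ω // ζ ^ Nat.card O.orbit = 1}),
      Φ f O = (f : Ω → k) (Quotient.out O.1) := fun f O => rfl
  have hinj : Function.Injective Φ := by
    rw [← LinearMap.ker_eq_bot, LinearMap.ker_eq_bot']
    intro f hf0
    have hf := (mem_ker_permLin_sub_smul_iff k g ζ f.1).mp f.2
    apply Subtype.ext
    funext x
    show (f : Ω → k) x = 0
    by_cases hg : ζ ^ Function.minimalPeriod (fun y : Ω => g • y) x = 1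
    · have hgood : ζ ^ Nat.card (MulAction.orbitRel.Quotient.orbit
          (Quotient.mk'' x : MulAction.orbitRel.Quotient (Subgroup.zpowers g) Ω)) = 1 := by
        rw [hcard]; exact hg
      have h0 : (f : Ω → k) (Quotient.out
          (Quotient.mk'' x : MulAction.orbitRel.Quotient (Subgroup.zpowers g) Ω)) = 0 :=
        congrFun hf0 ⟨Quotient.mk'' x, hgood⟩
      rw [← he x, hEpow f.1 hf, h0, mul_zero]
    · have h1 := hEpow f.1 hf (Function.minimalPeriod (fun y : Ω => g • y) x) x
      rw [hper] at h1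
      have h2 : (1 - ζ ^ Function.minimalPeriod (fun y : Ω => g • y) x) * (f : Ω → k) x = 0 := by
        rw [sub_mul, one_mul, ← h1, sub_self]
      rcases mul_eq_zero.mp h2 with h | h
      · exact absurd (sub_eq_zero.mp h).symm hg
      · exact h
  have hsurj : Function.Surjective Φ := by
    intro c
    let f : Ω → k := fun x =>
      if h : ζ ^ Nat.card (MulAction.orbitRel.Quotient.orbit
          (Quotient.mk'' x : MulAction.orbitRel.Quotient (Subgroup.zpowers g) Ω)) = 1
      then ζ ^ e x * c ⟨Quotient.mk'' x, h⟩ else 0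
    have hfE : f ∈ LinearMap.ker ((permLin k g : Module.End k (Ω → k)) - ζ • 1) := by
      rw [mem_ker_permLin_sub_smul_iff]
      intro x
      by_cases h : ζ ^ Nat.card (MulAction.orbitRel.Quotient.orbit
          (Quotient.mk'' x : MulAction.orbitRel.Quotient (Subgroup.zpowers g) Ω)) = 1
      · have h' : ζ ^ Nat.card (MulAction.orbitRel.Quotient.orbit
          (Quotient.mk'' (g • x) : MulAction.orbitRel.Quotient (Subgroup.zpowers g) Ω)) = 1 := by
          rw [mk_smul_eq_mk]; exact h
        have e1 : f (g • x) = ζ ^ e (g • x) * c ⟨Quotient.mk'' (g • x), h'⟩ := dif_pos h'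
        have e2 : f x = ζ ^ e x * c ⟨Quotient.mk'' x, h⟩ := dif_pos h
        have e3 : c ⟨Quotient.mk'' (g • x), h'⟩ = c ⟨Quotient.mk'' x, h⟩ :=
          congrArg c (Subtype.ext (mk_smul_eq_mk g x))
        have e4 : ζ ^ e (g • x) = ζ ^ (e x + 1) := by
          apply hζ (Quotient.out
            (Quotient.mk'' x : MulAction.orbitRel.Quotient (Subgroup.zpowers g) Ω))
          · rw [← hcard, hrep]; exact h
          · have h5 := he (g • x)
            rw [mk_smul_eq_mk] at h5
            rw [h5, pow_succ', mul_smul, he x]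
        rw [e1, e2, e3, e4, pow_succ', mul_assoc]
      · have h' : ¬ ζ ^ Nat.card (MulAction.orbitRel.Quotient.orbit
          (Quotient.mk'' (g • x) : MulAction.orbitRel.Quotient (Subgroup.zpowers g) Ω)) = 1 := by
          rw [mk_smul_eq_mk]; exact h
        have e1 : f (g • x) = 0 := dif_neg h'
        have e2 : f x = 0 := dif_neg h
        rw [e1, e2, mul_zero]
    refine ⟨⟨f, hfE⟩, ?_⟩
    funext O
    obtain ⟨O, hO⟩ := O
    rw [hΦ]
    show f (Quotient.out O) = c ⟨O, hO⟩
    have h' : ζ ^ Nat.card (MulAction.orbitRel.Quotient.orbit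
          (Quotient.mk'' (Quotient.out O) : MulAction.orbitRel.Quotient (Subgroup.zpowers g) Ω)) = 1 := by
      rw [hrep]; exact hO
    have e1 : f (Quotient.out O)
        = ζ ^ e (Quotient.out O) * c ⟨Quotient.mk'' (Quotient.out O), h'⟩ := dif_pos h'
    have e3 : c ⟨Quotient.mk'' (Quotient.out O), h'⟩ = c ⟨O, hO⟩ :=
      congrArg c (Subtype.ext (hrep O))
    have e4 : ζ ^ e (Quotient.out O) = ζ ^ 0 := by
      apply hζ (Quotient.out O)
      · rw [← hcard, hrep]; exact hO
      · have h5 := he (Quotient.out O)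
        rw [hrep] at h5
        rw [h5, pow_zero, one_smul]
    rw [e1, e3, e4, pow_zero, one_mul]
  have hfin := (LinearEquiv.ofBijective Φ ⟨hinj, hsurj⟩).finrank_eq
  rw [hfin, Module.finrank_fintype_fun_eq_card, Nat.card_eq_fintype_card]

/-- Base-change form of `finrank_ker_permLin_sub_smul`, matching the conclusion of
`finrank_eigenspace_eq_of_finrank_fixed_eq` for `Λ₂ = (Ω → ℤ)`, `a₂ = permLin ℤ g`. -/
theorem finrank_ker_permLin_baseChange_sub_smul [Finite Ω] (k : Type*) [Field k] (g : G) (ζ : k) :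
    finrank k (LinearMap.ker
        ((permLin ℤ g).baseChange k - ζ • (1 : Module.End k (k ⊗[ℤ] (Ω → ℤ)))))
      = Nat.card {O : MulAction.orbitRel.Quotient (Subgroup.zpowers g) Ω //
          ζ ^ Nat.card O.orbit = 1} := by
  classical
  have : Fintype Ω := Fintype.ofFinite Ω
  rw [← finrank_ker_permLin_sub_smul k g ζ]
  have hconj : ∀ t : k ⊗[ℤ] (Ω → ℤ), TensorProduct.piScalarRight ℤ k k Ω
      ((permLin ℤ g).baseChange k t) = permLin k g (TensorProduct.piScalarRight ℤ k k Ω t) := by
    intro t
    induction t using TensorProduct.induction_on with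
    | zero => simp
    | tmul a f =>
      funext x
      simp
    | add t t' h h' => simp only [map_add, h, h']
  have hker : LinearMap.ker ((permLin ℤ g).baseChange k - ζ • (1 : Module.End k (k ⊗[ℤ] (Ω → ℤ))))
      = (LinearMap.ker ((permLin k g : Module.End k (Ω → k)) - ζ • 1)).comap
          ((TensorProduct.piScalarRight ℤ k k Ω : (k ⊗[ℤ] (Ω → ℤ)) ≃ₗ[k] (Ω → k)) :
            (k ⊗[ℤ] (Ω → ℤ)) →ₗ[k] (Ω → k)) := by
    ext t
    rw [Submodule.mem_comap, LinearMap.mem_ker, LinearMap.mem_ker, LinearMap.sub_apply,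
      LinearMap.sub_apply, LinearMap.smul_apply, LinearMap.smul_apply, Module.End.one_apply,
      Module.End.one_apply, LinearEquiv.coe_coe, ← hconj, ← map_smul, ← map_sub,
      LinearEquiv.map_eq_zero_iff]
  rw [hker]
  exact (LinearEquiv.ofSubmodule' (TensorProduct.piScalarRight ℤ k k Ω) _).finrank_eq

end Perm

/-! ### Short exact sequences -/

section Exact

variable {k V₁ V₂ V₃ : Type*} [Field k] [AddCommGroup V₁] [Module k V₁] [AddCommGroup V₂]
  [Module k V₂] [AddCommGroup V₃] [Module k V₃] [FiniteDimensional k V₂]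

omit [FiniteDimensional k V₂] in
theorem mem_ker_sub_smul_iff (T : Module.End k V₂) (ζ : k) (v : V₂) :
    v ∈ LinearMap.ker (T - ζ • (1 : Module.End k V₂)) ↔ T v = ζ • v := by
  rw [LinearMap.mem_ker, LinearMap.sub_apply, LinearMap.smul_apply, Module.End.one_apply,
    sub_eq_zero]

/-- Core of the exact-sequence lemmas: the `ζ`-eigenspace of the middle term is an extension of
its image in `V₃` by the `ζ`-eigenspace of `V₁`. -/
theorem finrank_ker_sub_smul_eq_add_finrank_map
    (T₁ : Module.End k V₁) (T₂ : Module.End k V₂)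
    (i : V₁ →ₗ[k] V₂) (π : V₂ →ₗ[k] V₃) (hi : Function.Injective i) (hex : Function.Exact i π)
    (h₁ : ∀ v, i (T₁ v) = T₂ (i v)) (ζ : k) :
    finrank k (LinearMap.ker (T₂ - ζ • (1 : Module.End k V₂)))
      = finrank k (LinearMap.ker (T₁ - ζ • (1 : Module.End k V₁)))
        + finrank k ((LinearMap.ker (T₂ - ζ • (1 : Module.End k V₂))).map π) := by
  have hmaps : ∀ u ∈ LinearMap.ker (T₁ - ζ • (1 : Module.End k V₁)),
      i u ∈ LinearMap.ker (T₂ - ζ • (1 : Module.End k V₂)) := by
    intro u hu
    rw [mem_ker_sub_smul_iff] at hu ⊢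
    rw [← h₁, hu, map_smul]
  let j : LinearMap.ker (T₁ - ζ • (1 : Module.End k V₁)) →ₗ[k]
      LinearMap.ker (T₂ - ζ • (1 : Module.End k V₂)) := i.restrict hmaps
  let π' : LinearMap.ker (T₂ - ζ • (1 : Module.End k V₂)) →ₗ[k] V₃ :=
    π.domRestrict (LinearMap.ker (T₂ - ζ • (1 : Module.End k V₂)))
  have hj : Function.Injective j := by
    intro u u' huu
    apply Subtype.ext
    apply hi
    exact congrArg Subtype.val huu
  have hrange : LinearMap.range j = LinearMap.ker π' := by
    ext v
    rw [LinearMap.mem_ker]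
    constructor
    · rintro ⟨u, rfl⟩
      exact hex.apply_apply_eq_zero u.1
    · intro hv
      have hv' : π v.1 = 0 := hv
      obtain ⟨u, hu⟩ := (hex v.1).mp hv'
      have huk : u ∈ LinearMap.ker (T₁ - ζ • (1 : Module.End k V₁)) := by
        rw [mem_ker_sub_smul_iff]
        apply hi
        rw [h₁, hu, map_smul, hu]
        exact (mem_ker_sub_smul_iff T₂ ζ v.1).mp v.2
      exact ⟨⟨u, huk⟩, Subtype.ext hu⟩
  have hrn := LinearMap.finrank_range_add_finrank_ker π'
  have hr : LinearMap.range π' = (LinearMap.ker (T₂ - ζ • (1 : Module.End k V₂))).map π :=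
    LinearMap.range_domRestrict _ _
  rw [← hrange, LinearMap.finrank_range_of_inj hj, hr] at hrn
  omega

/-- Subadditivity of eigenspace dimensions in an exact sequence `V₁ → V₂ → V₃` (`i` injective). -/
theorem finrank_ker_sub_smul_le_of_exact [FiniteDimensional k V₃]
    (T₁ : Module.End k V₁) (T₂ : Module.End k V₂) (T₃ : Module.End k V₃)
    (i : V₁ →ₗ[k] V₂) (π : V₂ →ₗ[k] V₃) (hi : Function.Injective i) (hex : Function.Exact i π)
    (h₁ : ∀ v, i (T₁ v) = T₂ (i v)) (h₂ : ∀ v, π (T₂ v) = T₃ (π v)) (ζ : k) :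
    finrank k (LinearMap.ker (T₂ - ζ • (1 : Module.End k V₂)))
      ≤ finrank k (LinearMap.ker (T₁ - ζ • (1 : Module.End k V₁)))
        + finrank k (LinearMap.ker (T₃ - ζ • (1 : Module.End k V₃))) := by
  rw [finrank_ker_sub_smul_eq_add_finrank_map T₁ T₂ i π hi hex h₁ ζ]
  apply Nat.add_le_add_left
  apply Submodule.finrank_mono
  rintro w ⟨v, hv, rfl⟩
  rw [SetLike.mem_coe, mem_ker_sub_smul_iff] at hv
  rw [mem_ker_sub_smul_iff, ← h₂, hv, map_smul]

/-- Additivity of eigenspace dimensions in a short exact sequence `0 → V₁ → V₂ → V₃ → 0` of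
vector spaces with compatible endomorphisms, when `T₂ ^ m = 1` with `m` invertible in `k`. -/
theorem finrank_ker_sub_smul_of_exact
    (T₁ : Module.End k V₁) (T₂ : Module.End k V₂) (T₃ : Module.End k V₃)
    (i : V₁ →ₗ[k] V₂) (π : V₂ →ₗ[k] V₃) (hi : Function.Injective i) (hex : Function.Exact i π)
    (hπ : Function.Surjective π)
    (h₁ : ∀ v, i (T₁ v) = T₂ (i v)) (h₂ : ∀ v, π (T₂ v) = T₃ (π v))
    {m : ℕ} (hT : T₂ ^ m = 1) (hm : (m : k) ≠ 0) (ζ : k) :
    finrank k (LinearMap.ker (T₂ - ζ • (1 : Module.End k V₂)))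
      = finrank k (LinearMap.ker (T₁ - ζ • (1 : Module.End k V₁)))
        + finrank k (LinearMap.ker (T₃ - ζ • (1 : Module.End k V₃))) := by
  rw [finrank_ker_sub_smul_eq_add_finrank_map T₁ T₂ i π hi hex h₁ ζ]
  suffices hmap : (LinearMap.ker (T₂ - ζ • (1 : Module.End k V₂))).map π
      = LinearMap.ker (T₃ - ζ • (1 : Module.End k V₃)) by rw [hmap]
  apply le_antisymm
  · rintro w ⟨v, hv, rfl⟩
    rw [SetLike.mem_coe, mem_ker_sub_smul_iff] at hv
    rw [mem_ker_sub_smul_iff, ← h₂, hv, map_smul]
  · intro w hw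
    rw [mem_ker_sub_smul_iff] at hw
    have hss := isSemisimple_of_pow_eq_one T₂ hT hm
    have hinv : LinearMap.range i ∈ Module.End.invtSubmodule T₂ := by
      rw [Module.End.mem_invtSubmodule]
      rintro _ ⟨u, rfl⟩
      exact ⟨T₁ u, h₁ u⟩
    obtain ⟨W, hW, hc⟩ := Module.End.isSemisimple_iff.mp hss _ hinv
    rw [Module.End.mem_invtSubmodule] at hW
    obtain ⟨v₀, rfl⟩ := hπ w
    have hv₀ : v₀ ∈ LinearMap.range i ⊔ W := by rw [hc.sup_eq_top]; exact Submodule.mem_top
    obtain ⟨a, ha, b, hb, rfl⟩ := Submodule.mem_sup.mp hv₀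
    have hπa : π a = 0 := (hex a).mpr ha
    have hπb : π b = π (a + b) := by rw [map_add, hπa, zero_add]
    refine ⟨b, ?_, hπb⟩
    rw [SetLike.mem_coe, mem_ker_sub_smul_iff]
    have hmem : T₂ b - ζ • b ∈ W := W.sub_mem (hW hb) (W.smul_mem ζ hb)
    have hmem' : T₂ b - ζ • b ∈ LinearMap.range i := by
      apply (hex _).mp
      rw [map_sub, map_smul, h₂, hπb, hw, sub_self]
    have := (Submodule.disjoint_def.mp hc.disjoint) _ hmem' hmem
    exact sub_eq_zero.mp this

/-- Product case: eigenspace dimensions add for `T₁.prodMap T₃` (no hypothesis). -/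
theorem finrank_ker_prodMap_sub_smul [FiniteDimensional k V₁] [FiniteDimensional k V₃]
    (T₁ : Module.End k V₁) (T₃ : Module.End k V₃) (ζ : k) :
    finrank k (LinearMap.ker (T₁.prodMap T₃ - ζ • (1 : Module.End k (V₁ × V₃))))
      = finrank k (LinearMap.ker (T₁ - ζ • (1 : Module.End k V₁)))
        + finrank k (LinearMap.ker (T₃ - ζ • (1 : Module.End k V₃))) := by
  have hex : Function.Exact (LinearMap.inl k V₁ V₃) (LinearMap.snd k V₁ V₃) := by
    intro v
    constructor
    · intro h
      exact ⟨v.1, Prod.ext rfl (by simpa using h.symm)⟩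
    · rintro ⟨u, rfl⟩
      rfl
  rw [finrank_ker_sub_smul_eq_add_finrank_map T₁ (T₁.prodMap T₃) (LinearMap.inl k V₁ V₃)
    (LinearMap.snd k V₁ V₃) LinearMap.inl_injective hex (fun v => by simp) ζ]
  suffices hmap : (LinearMap.ker (T₁.prodMap T₃ - ζ • (1 : Module.End k (V₁ × V₃)))).map
      (LinearMap.snd k V₁ V₃) = LinearMap.ker (T₃ - ζ • (1 : Module.End k V₃)) by rw [hmap]
  apply le_antisymm
  · rintro w ⟨v, hv, rfl⟩
    rw [SetLike.mem_coe, mem_ker_sub_smul_iff] at hv
    rw [mem_ker_sub_smul_iff]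
    have := congrArg Prod.snd hv
    simpa using this
  · intro w hw
    rw [mem_ker_sub_smul_iff] at hw
    refine ⟨(0, w), ?_, rfl⟩
    rw [SetLike.mem_coe, mem_ker_sub_smul_iff]
    ext
    · simp
    · simpa using hw

end Exact

end

end Fermat.Agent.Lib.LatticeEigen
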