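import Mathlib

/-!
# Fixed points of Frobenius-semilinear maps

Mathlib-only counting lemmas for step (S4)(γ) of the flat local count (TW row 335):

* `card_pow_eq_self_le` : `a ^ Q = a` has at most `Q` solutions in a field (`1 < Q`);
* `card_fixed_semilinear_le` : an additive self-map `Φ` of a finite-dimensional `κ`-vector space
  `V` with `Φ (b • v) = b ^ Q • Φ v` has at most `Q ^ dim V` fixed points;
* `finrank_semilinear_le` : the `κ`-space of `ι`-semilinear maps `Λ → κ` (`ι : k0 →+* κ`) has
  dimension at most `dim_{k0} Λ`;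
* `card_semilinear_fixed_le` : the additive `ι`-semilinear maps `A : Λ → κ` with
  `A (c x) = u * A x ^ Q` are at most `Q ^ dim_{k0} Λ` in number;
* `card_semilinear_fixed_le_card` : for `Q = #k0` the bound is `#Λ`;
* `card_semilinear_fixed_mul_le_card` : the same for a multiplicatively written finite group `M`
  (e.g. a group of additive characters) with a scalar action given as a function;
* `semilinear_of_closure`, `exists_ringHom_of_semilinear` (and their multiplicative forms
  `semilinear_mul_of_closure`, `exists_ringHom_of_semilinear_mul`): semilinearity on ring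
  generators propagates, and a non-zero eigen-map produces the ring homomorphism `ι`.
-/

namespace Fermat.Agent.Lib.SemilinCount

open Module Polynomial

/-- In a field, `a ^ Q = a` has at most `Q` solutions (`1 < Q`). -/
theorem card_pow_eq_self_le {κ : Type*} [Field κ] (Q : ℕ) (hQ : 1 < Q) :
    {a : κ | a ^ Q = a}.Finite ∧ Nat.card {a : κ | a ^ Q = a} ≤ Q := by
  classical
  have hne : (X ^ Q - X : κ[X]) ≠ 0 := FiniteField.X_pow_card_sub_X_ne_zero κ hQ
  have hsub : {a : κ | a ^ Q = a} ⊆ ((X ^ Q - X : κ[X]).roots.toFinset : Set κ) := by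
    intro a ha
    simp only [Finset.mem_coe, Multiset.mem_toFinset, mem_roots hne, IsRoot.def, eval_sub,
      eval_pow, eval_X]
    exact sub_eq_zero.mpr ha
  have hfin : {a : κ | a ^ Q = a}.Finite := (Finset.finite_toSet _).subset hsub
  refine ⟨hfin, ?_⟩
  calc Nat.card {a : κ | a ^ Q = a} = {a : κ | a ^ Q = a}.ncard := Nat.card_coe_set_eq _
    _ ≤ ((X ^ Q - X : κ[X]).roots.toFinset : Set κ).ncard :=
        Set.ncard_le_ncard hsub (Finset.finite_toSet _)
    _ = (X ^ Q - X : κ[X]).roots.toFinset.card := Set.ncard_coe_finset _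
    _ ≤ Multiset.card (X ^ Q - X : κ[X]).roots := Multiset.toFinset_card_le _
    _ ≤ (X ^ Q - X : κ[X]).natDegree := card_roots' _
    _ = Q := FiniteField.X_pow_card_sub_X_natDegree_eq κ hQ

/-- **Fixed points of a `Q`-Frobenius-semilinear map.** An additive self-map `Φ` of a
finite-dimensional `κ`-vector space with `Φ (b • v) = b ^ Q • Φ v` (`1 < Q`) has at most
`Q ^ dim V` fixed points. -/
theorem card_fixed_semilinear_le {κ V : Type*} [Field κ] [AddCommGroup V] [Module κ V]
    [FiniteDimensional κ V] (Q : ℕ) (hQ : 1 < Q) (Φ : V → V)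
    (hadd : ∀ v w, Φ (v + w) = Φ v + Φ w) (hsemi : ∀ (b : κ) v, Φ (b • v) = b ^ Q • Φ v) :
    {v | Φ v = v}.Finite ∧ Nat.card {v | Φ v = v} ≤ Q ^ finrank κ V := by
  classical
  obtain ⟨b, hbF, hspan, hli⟩ := exists_linearIndependent κ {v | Φ v = v}
  have hbfin : b.Finite := hli.setFinite
  have : Fintype b := hbfin.fintype
  have hcard : Fintype.card b ≤ finrank κ V := hli.fintype_card_le_finrank
  let Φ' : V →+ V := AddMonoidHom.mk' Φ hadd
  have hcoord : ∀ v : {v | Φ v = v}, ∃ c : b → {a : κ | a ^ Q = a},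
      ∑ i, (c i : κ) • (i : V) = v := by
    rintro ⟨v, hv⟩
    have hmem : v ∈ Submodule.span κ (Set.range (Subtype.val : b → V)) := by
      rw [Subtype.range_coe, hspan]; exact Submodule.subset_span hv
    obtain ⟨c, hc⟩ := (Submodule.mem_span_range_iff_exists_fun κ).mp hmem
    have h1 : ∑ i, (c i ^ Q) • (i : V) = v := by
      have h : Φ' (∑ i, c i • (i : V)) = ∑ i, (c i ^ Q) • (i : V) := by
        rw [map_sum]
        refine Finset.sum_congr rfl fun i _ => ?_
        show Φ (c i • (i : V)) = _
        rw [hsemi, (hbF i.2 : Φ i = i)]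
      rw [← h, hc]; exact hv
    have h2 : ∑ i, (c i ^ Q - c i) • (i : V) = 0 := by
      simp only [sub_smul, Finset.sum_sub_distrib, h1, hc, sub_self]
    have h3 := (Fintype.linearIndependent_iff.mp hli) _ h2
    exact ⟨fun i => ⟨c i, sub_eq_zero.mp (h3 i)⟩, hc⟩
  choose cf hcf using hcoord
  have hinj : Function.Injective cf := by
    intro v w hvw
    apply Subtype.ext
    rw [← hcf v, ← hcf w, hvw]
  obtain ⟨hFfin, hFcard⟩ := card_pow_eq_self_le (κ := κ) Q hQ
  have : Finite {a : κ | a ^ Q = a} := hFfin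
  have : Finite {v | Φ v = v} := Finite.of_injective cf hinj
  refine ⟨Set.toFinite _, ?_⟩
  calc Nat.card {v | Φ v = v} ≤ Nat.card (b → {a : κ | a ^ Q = a}) :=
        Nat.card_le_card_of_injective cf hinj
    _ = Nat.card {a : κ | a ^ Q = a} ^ Nat.card b := Nat.card_fun
    _ ≤ Q ^ Nat.card b := Nat.pow_le_pow_left hFcard _
    _ ≤ Q ^ finrank κ V :=
        Nat.pow_le_pow_right (by omega) (by rw [Nat.card_eq_fintype_card]; exact hcard)

section additive

variable {k0 κ Λ : Type*} [Field k0] [Field κ] [AddCommGroup Λ] [Module k0 Λ]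

/-- The `κ`-space of `ι`-semilinear maps `Λ → κ` is finite-dimensional of dimension at most
`dim_{k0} Λ` (evaluate on a basis). -/
theorem finrank_semilinear_le [Module.Finite k0 Λ] (ι : k0 →+* κ) :
    FiniteDimensional κ (Λ →ₛₗ[ι] κ) ∧ finrank κ (Λ →ₛₗ[ι] κ) ≤ finrank k0 Λ := by
  let e := Module.finBasis k0 Λ
  let ev : (Λ →ₛₗ[ι] κ) →ₗ[κ] (Fin (finrank k0 Λ) → κ) :=
    { toFun := fun A i => A (e i)
      map_add' := fun A B => rfl
      map_smul' := fun b A => rfl }
  have hinj : Function.Injective ev := by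
    intro A B h
    exact e.ext fun i => congrFun h i
  have : FiniteDimensional κ (Λ →ₛₗ[ι] κ) := FiniteDimensional.of_injective ev hinj
  refine ⟨inferInstance, ?_⟩
  have := LinearMap.finrank_le_finrank_of_injective hinj
  simpa using this

/-- **The count (γ), general exponent.** For `ι : k0 →+* κ`, an exponent `Q > 1` with
`ι a ^ Q = ι a` and `x ↦ x ^ Q` additive on `κ`, a `k0`-linear automorphism `c` of `Λ` and
`u : κ`: the additive `ι`-semilinear maps `A : Λ → κ` with `A (c x) = u * A x ^ Q` are at most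
`Q ^ dim_{k0} Λ` in number. -/
theorem card_semilinear_fixed_le [Module.Finite k0 Λ] (ι : k0 →+* κ) (Q : ℕ) (hQ : 1 < Q)
    (hι : ∀ a : k0, ι a ^ Q = ι a) (hfrob : ∀ x y : κ, (x + y) ^ Q = x ^ Q + y ^ Q)
    (c : Λ ≃ₗ[k0] Λ) (u : κ) :
    {A : Λ → κ | (∀ x y, A (x + y) = A x + A y) ∧ (∀ (a : k0) x, A (a • x) = ι a * A x) ∧
        ∀ x, A (c x) = u * A x ^ Q}.Finite ∧
    Nat.card {A : Λ → κ | (∀ x y, A (x + y) = A x + A y) ∧
        (∀ (a : k0) x, A (a • x) = ι a * A x) ∧ ∀ x, A (c x) = u * A x ^ Q} ≤
      Q ^ finrank k0 Λ := by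
  obtain ⟨hfd, hrk⟩ := finrank_semilinear_le (Λ := Λ) ι
  have := hfd
  let Φ : (Λ →ₛₗ[ι] κ) → (Λ →ₛₗ[ι] κ) := fun A =>
    { toFun := fun x => u * A (c.symm x) ^ Q
      map_add' := fun x y => by
        simp only [map_add, hfrob, mul_add]
      map_smul' := fun a x => by
        simp only [map_smul, LinearMap.map_smulₛₗ, smul_eq_mul, mul_pow, hι]
        ring }
  have hΦadd : ∀ A B, Φ (A + B) = Φ A + Φ B := by
    intro A B
    ext x
    simp only [Φ, LinearMap.coe_mk, AddHom.coe_mk, LinearMap.add_apply, hfrob, mul_add]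
  have hΦsemi : ∀ (b : κ) A, Φ (b • A) = b ^ Q • Φ A := by
    intro b A
    ext x
    simp only [Φ, LinearMap.coe_mk, AddHom.coe_mk, LinearMap.smul_apply, smul_eq_mul, mul_pow]
    ring
  obtain ⟨hfin, hcard⟩ := card_fixed_semilinear_le Q hQ Φ hΦadd hΦsemi
  have : Finite {A : Λ →ₛₗ[ι] κ | Φ A = A} := hfin
  let S : Set (Λ → κ) := {A : Λ → κ | (∀ x y, A (x + y) = A x + A y) ∧
        (∀ (a : k0) x, A (a • x) = ι a * A x) ∧ ∀ x, A (c x) = u * A x ^ Q}
  let f : S → {A : Λ →ₛₗ[ι] κ | Φ A = A} := fun A =>
    ⟨{ toFun := A.1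
       map_add' := A.2.1
       map_smul' := fun a x => by simpa using A.2.2.1 a x }, by
      ext x
      have h := A.2.2.2 (c.symm x)
      simp only [LinearEquiv.apply_symm_apply] at h
      simp only [Φ, LinearMap.coe_mk, AddHom.coe_mk]
      exact h.symm⟩
  have hf : Function.Injective f := by
    intro A B h
    apply Subtype.ext
    have h' := congrArg (fun z : {A : Λ →ₛₗ[ι] κ | Φ A = A} => (z.1 : Λ → κ)) h
    exact h'
  have : Finite S := Finite.of_injective f hf
  refine ⟨Set.toFinite S, ?_⟩
  calc Nat.card S ≤ Nat.card {A : Λ →ₛₗ[ι] κ | Φ A = A} := Nat.card_le_card_of_injective f hf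
    _ ≤ Q ^ finrank κ (Λ →ₛₗ[ι] κ) := hcard
    _ ≤ Q ^ finrank k0 Λ := Nat.pow_le_pow_right (by omega) hrk

/-- **The count (γ) for `Q = #k0`.** `k0` a finite field, `Λ` a finite `k0`-module,
`ι : k0 →+* κ`, `c` a `k0`-linear automorphism of `Λ`, `u : κ`: the additive `ι`-semilinear maps
`A : Λ → κ` with `A (c x) = u * A x ^ #k0` are at most `#Λ` in number. -/
theorem card_semilinear_fixed_le_card [Finite k0] [Finite Λ] (ι : k0 →+* κ) (c : Λ ≃ₗ[k0] Λ)
    (u : κ) :
    {A : Λ → κ | (∀ x y, A (x + y) = A x + A y) ∧ (∀ (a : k0) x, A (a • x) = ι a * A x) ∧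
        ∀ x, A (c x) = u * A x ^ Nat.card k0}.Finite ∧
    Nat.card {A : Λ → κ | (∀ x y, A (x + y) = A x + A y) ∧
        (∀ (a : k0) x, A (a • x) = ι a * A x) ∧ ∀ x, A (c x) = u * A x ^ Nat.card k0} ≤
      Nat.card Λ := by
  classical
  have : Fintype k0 := Fintype.ofFinite k0
  obtain ⟨p, hp⟩ := CharP.exists k0
  have := hp
  obtain ⟨n, hpp, hn⟩ := FiniteField.card k0 p
  have : Fact p.Prime := ⟨hpp⟩
  have : CharP κ p := charP_of_injective_ringHom ι.injective p
  have hQ : Nat.card k0 = p ^ (n : ℕ) := by rw [Nat.card_eq_fintype_card, hn]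
  have h1 : 1 < Nat.card k0 := by
    rw [Nat.card_eq_fintype_card]; exact Fintype.one_lt_card
  have hι : ∀ a : k0, ι a ^ Nat.card k0 = ι a := by
    intro a
    rw [← map_pow, Nat.card_eq_fintype_card, FiniteField.pow_card]
  have hfrob : ∀ x y : κ, (x + y) ^ Nat.card k0 = x ^ Nat.card k0 + y ^ Nat.card k0 := by
    intro x y
    rw [hQ]
    exact add_pow_char_pow x y p n
  have h := card_semilinear_fixed_le (Λ := Λ) ι (Nat.card k0) h1 hι hfrob c u
  refine ⟨h.1, h.2.trans ?_⟩
  rw [Module.natCard_eq_pow_finrank (K := k0) (V := Λ)]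

/-- Semilinearity on a set of ring generators propagates to the whole ring. -/
theorem semilinear_of_closure {R : Type*} [Ring R] {Λ' : Type*} [AddCommGroup Λ'] [Module R Λ']
    (G : Set R) (hG : Subring.closure G = ⊤) (ι : R →+* κ) (A : Λ' → κ)
    (hAadd : ∀ x y, A (x + y) = A x + A y)
    (h : ∀ a ∈ G, ∀ x, A (a • x) = ι a * A x) : ∀ a x, A (a • x) = ι a * A x := by
  have hA0 : A 0 = 0 := by simpa using hAadd 0 0
  have hAneg : ∀ x, A (-x) = -A x := by
    intro x
    have := hAadd x (-x)
    rw [add_neg_cancel, hA0] at this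
    exact eq_neg_of_add_eq_zero_right this.symm
  intro a
  have ha : a ∈ Subring.closure G := hG ▸ Subring.mem_top a
  induction ha using Subring.closure_induction with
  | mem a ha => exact h a ha
  | zero => intro x; simp [hA0]
  | one => intro x; simp
  | add a b _ _ iha ihb => intro x; rw [add_smul, hAadd, iha, ihb, map_add, add_mul]
  | neg a _ iha => intro x; rw [neg_smul, hAneg, iha, map_neg, neg_mul]
  | mul a b _ _ iha ihb => intro x; rw [mul_smul, iha, ihb, map_mul, mul_assoc]

/-- **The homomorphism `ι` of a non-zero eigen-map.** If a non-zero additive `A : Λ → κ`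
satisfies `A (a • x) = θ a * A x` for `a` in a set `G` of ring generators of `k0`, then there is
a ring homomorphism `ι : k0 →+* κ` extending `θ` on `G` for which `A` is `ι`-semilinear. -/
theorem exists_ringHom_of_semilinear {R : Type*} [Ring R] {Λ' : Type*} [AddCommGroup Λ']
    [Module R Λ'] (A : Λ' → κ) (hA : ∃ x, A x ≠ 0)
    (hAadd : ∀ x y, A (x + y) = A x + A y) (G : Set R) (hG : Subring.closure G = ⊤)
    (θ : R → κ) (h : ∀ a ∈ G, ∀ x, A (a • x) = θ a * A x) :
    ∃ ι : R →+* κ, (∀ a ∈ G, ι a = θ a) ∧ ∀ a x, A (a • x) = ι a * A x := by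
  obtain ⟨x₀, hx₀⟩ := hA
  have hA0 : A 0 = 0 := by simpa using hAadd 0 0
  have hAneg : ∀ x, A (-x) = -A x := by
    intro x
    have := hAadd x (-x)
    rw [add_neg_cancel, hA0] at this
    exact eq_neg_of_add_eq_zero_right this.symm
  have hex : ∀ a : R, ∃ b : κ, ∀ x, A (a • x) = b * A x := by
    intro a
    have ha : a ∈ Subring.closure G := hG ▸ Subring.mem_top a
    induction ha using Subring.closure_induction with
    | mem a ha => exact ⟨θ a, h a ha⟩
    | zero => exact ⟨0, fun x => by simp [hA0]⟩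
    | one => exact ⟨1, fun x => by simp⟩
    | add a b _ _ iha ihb =>
      obtain ⟨s, hs⟩ := iha
      obtain ⟨t, ht⟩ := ihb
      exact ⟨s + t, fun x => by rw [add_smul, hAadd, hs, ht, add_mul]⟩
    | neg a _ iha =>
      obtain ⟨s, hs⟩ := iha
      exact ⟨-s, fun x => by rw [neg_smul, hAneg, hs, neg_mul]⟩
    | mul a b _ _ iha ihb =>
      obtain ⟨s, hs⟩ := iha
      obtain ⟨t, ht⟩ := ihb
      exact ⟨s * t, fun x => by rw [mul_smul, hs, ht, mul_assoc]⟩
  choose ιf hιf using hex
  have huniq : ∀ (a : R) (b : κ), (∀ x, A (a • x) = b * A x) → ιf a = b := by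
    intro a b hb
    have h1 := hιf a x₀
    rw [hb x₀] at h1
    exact (mul_right_cancel₀ hx₀ h1).symm
  refine ⟨{ toFun := ιf
            map_one' := huniq 1 1 fun x => by simp
            map_mul' := fun a b => huniq _ _ fun x => by rw [mul_smul, hιf, hιf, mul_assoc]
            map_zero' := huniq 0 0 fun x => by simp [hA0]
            map_add' := fun a b => huniq _ _ fun x => by rw [add_smul, hAadd, hιf, hιf, add_mul] },
    fun a ha => huniq a (θ a) (h a ha), fun a x => hιf a x⟩

end additive

section multiplicative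

variable {k0 κ M : Type*} [Field κ] [CommGroup M]

/-- The module structure on `Additive M` defined by a scalar action `act : R → M → M` written
multiplicatively. -/
@[reducible] def moduleOfAct {R : Type*} [Ring R] (act : R → M → M)
    (hact_add : ∀ a b x, act (a + b) x = act a x * act b x)
    (hact_mul : ∀ a b x, act (a * b) x = act a (act b x))
    (hact_one : ∀ x, act 1 x = x)
    (hact_map : ∀ a x y, act a (x * y) = act a x * act a y) : Module R (Additive M) where
  smul a x := Additive.ofMul (act a x.toMul)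
  one_smul x := by
    show Additive.ofMul (act 1 x.toMul) = x
    rw [hact_one]; rfl
  mul_smul a b x := by
    show Additive.ofMul (act (a * b) x.toMul) = Additive.ofMul (act a (act b x.toMul))
    rw [hact_mul]
  smul_zero a := by
    show Additive.ofMul (act a 1) = 0
    have h := hact_map a 1 1
    rw [mul_one] at h
    have h1 : act a 1 = 1 := by simpa using h
    rw [h1]; rfl
  smul_add a x y := by
    show Additive.ofMul (act a (x.toMul * y.toMul)) =
      Additive.ofMul (act a x.toMul * act a y.toMul)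
    rw [hact_map]
  add_smul a b x := by
    show Additive.ofMul (act (a + b) x.toMul) = Additive.ofMul (act a x.toMul * act b x.toMul)
    rw [hact_add]
  zero_smul x := by
    show Additive.ofMul (act 0 x.toMul) = 0
    have h := hact_add 0 0 x.toMul
    rw [add_zero] at h
    have h1 : act 0 x.toMul = 1 := by simpa using h
    rw [h1]; rfl

/-- **The count (γ), multiplicative form.** `k0` a finite field, `M` a finite commutative group
(written multiplicatively, e.g. additive characters) with a scalar action `act : k0 → M → M`,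
`ι : k0 →+* κ`, `c` a bijective endomorphism of `M` commuting with the action, `u : κ`: the maps
`A : M → κ` with `A (x * y) = A x + A y`, `A (act a x) = ι a * A x` and
`A (c x) = u * A x ^ #k0` are at most `#M` in number. -/
theorem card_semilinear_fixed_mul_le_card [Field k0] [Finite k0] [Finite M] (act : k0 → M → M)
    (hact_add : ∀ a b x, act (a + b) x = act a x * act b x)
    (hact_mul : ∀ a b x, act (a * b) x = act a (act b x))
    (hact_one : ∀ x, act 1 x = x)
    (hact_map : ∀ a x y, act a (x * y) = act a x * act a y)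
    (ι : k0 →+* κ) (c : M → M) (hc : Function.Bijective c)
    (hc_mul : ∀ x y, c (x * y) = c x * c y) (hc_act : ∀ a x, c (act a x) = act a (c x))
    (u : κ) :
    {A : M → κ | (∀ x y, A (x * y) = A x + A y) ∧ (∀ (a : k0) x, A (act a x) = ι a * A x) ∧
        ∀ x, A (c x) = u * A x ^ Nat.card k0}.Finite ∧
    Nat.card {A : M → κ | (∀ x y, A (x * y) = A x + A y) ∧
        (∀ (a : k0) x, A (act a x) = ι a * A x) ∧ ∀ x, A (c x) = u * A x ^ Nat.card k0} ≤
      Nat.card M := by
  let : Module k0 (Additive M) := moduleOfAct act hact_add hact_mul hact_one hact_map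
  let ce : Additive M ≃ₗ[k0] Additive M :=
    { toFun := fun x => Additive.ofMul (c x.toMul)
      invFun := fun x => Additive.ofMul ((Equiv.ofBijective c hc).symm x.toMul)
      left_inv := fun x => by
        show Additive.ofMul ((Equiv.ofBijective c hc).symm (c x.toMul)) = x
        rw [← Equiv.ofBijective_apply c hc, Equiv.symm_apply_apply]; rfl
      right_inv := fun x => by
        show Additive.ofMul (c ((Equiv.ofBijective c hc).symm x.toMul)) = x
        rw [← Equiv.ofBijective_apply c hc, Equiv.apply_symm_apply]; rfl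
      map_add' := fun x y => by
        show Additive.ofMul (c (x.toMul * y.toMul)) = Additive.ofMul (c x.toMul * c y.toMul)
        rw [hc_mul]
      map_smul' := fun a x => by
        show Additive.ofMul (c (act a x.toMul)) = Additive.ofMul (act a (c x.toMul))
        rw [hc_act] }
  have : Finite (Additive M) := inferInstanceAs (Finite M)
  obtain ⟨hfin, hcard⟩ := card_semilinear_fixed_le_card (Λ := Additive M) ι ce u
  let S : Set (M → κ) := {A : M → κ | (∀ x y, A (x * y) = A x + A y) ∧
        (∀ (a : k0) x, A (act a x) = ι a * A x) ∧ ∀ x, A (c x) = u * A x ^ Nat.card k0}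
  let T : Set (Additive M → κ) := {A : Additive M → κ | (∀ x y, A (x + y) = A x + A y) ∧
        (∀ (a : k0) x, A (a • x) = ι a * A x) ∧ ∀ x, A (ce x) = u * A x ^ Nat.card k0}
  have : Finite T := hfin
  let f : S → T := fun A => ⟨fun x => A.1 x.toMul,
    fun x y => A.2.1 x.toMul y.toMul, fun a x => A.2.2.1 a x.toMul, fun x => A.2.2.2 x.toMul⟩
  have hf : Function.Injective f := by
    intro A B h
    apply Subtype.ext
    funext x
    have h' := congrArg (fun z : T => z.1 (Additive.ofMul x)) h
    exact h'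
  have : Finite S := Finite.of_injective f hf
  refine ⟨Set.toFinite S, ?_⟩
  calc Nat.card S ≤ Nat.card T := Nat.card_le_card_of_injective f hf
    _ ≤ Nat.card (Additive M) := hcard
    _ = Nat.card M := rfl

/-- Semilinearity on ring generators propagates (multiplicative form). -/
theorem semilinear_mul_of_closure {R : Type*} [Ring R] (act : R → M → M)
    (hact_add : ∀ a b x, act (a + b) x = act a x * act b x)
    (hact_mul : ∀ a b x, act (a * b) x = act a (act b x))
    (hact_one : ∀ x, act 1 x = x)
    (hact_map : ∀ a x y, act a (x * y) = act a x * act a y)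
    (G : Set R) (hG : Subring.closure G = ⊤) (ι : R →+* κ) (A : M → κ)
    (hAmul : ∀ x y, A (x * y) = A x + A y)
    (h : ∀ a ∈ G, ∀ x, A (act a x) = ι a * A x) : ∀ a x, A (act a x) = ι a * A x := by
  let : Module R (Additive M) := moduleOfAct act hact_add hact_mul hact_one hact_map
  intro a x
  exact semilinear_of_closure (Λ' := Additive M) G hG ι (fun y => A y.toMul)
    (fun y z => hAmul y.toMul z.toMul) (fun b hb y => h b hb y.toMul) a (Additive.ofMul x)

/-- The homomorphism `ι` of a non-zero eigen-map (multiplicative form). -/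
theorem exists_ringHom_of_semilinear_mul {R : Type*} [Ring R] (act : R → M → M)
    (hact_add : ∀ a b x, act (a + b) x = act a x * act b x)
    (hact_mul : ∀ a b x, act (a * b) x = act a (act b x))
    (hact_one : ∀ x, act 1 x = x)
    (hact_map : ∀ a x y, act a (x * y) = act a x * act a y)
    (A : M → κ) (hA : ∃ x, A x ≠ 0) (hAmul : ∀ x y, A (x * y) = A x + A y)
    (G : Set R) (hG : Subring.closure G = ⊤) (θ : R → κ)
    (h : ∀ a ∈ G, ∀ x, A (act a x) = θ a * A x) :
    ∃ ι : R →+* κ, (∀ a ∈ G, ι a = θ a) ∧ ∀ a x, A (act a x) = ι a * A x := by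
  let : Module R (Additive M) := moduleOfAct act hact_add hact_mul hact_one hact_map
  obtain ⟨x₀, hx₀⟩ := hA
  obtain ⟨ι, h1, h2⟩ := exists_ringHom_of_semilinear (Λ' := Additive M) (fun y => A y.toMul)
    ⟨Additive.ofMul x₀, hx₀⟩ (fun y z => hAmul y.toMul z.toMul) G hG θ
    (fun b hb y => h b hb y.toMul)
  exact ⟨ι, h1, fun a x => h2 a (Additive.ofMul x)⟩

end multiplicative

end Fermat.Agent.Lib.SemilinCount
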