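import Mathlib

/-!
# Fixed points of Frobenius-semilinear maps

* `card_fixed_le` : for a field `κ` of characteristic `p`, a finite-dimensional `κ`-vector space `V`
  and an additive `F : V → V` with `F (a • v) = a ^ p • F v`, the fixed points of `F` are finite
  in number, at most `p ^ dim V`.
* `card_semilinear_le` : for a finite field `k` and any field `κ`, both of characteristic `p`, and
  `c ∈ kˣ`, there are at most `#k` additive maps `g : k → κ` with `g (c a) = g a ^ p`.
-/

set_option autoImplicit false

namespace Fermat.Agent.Lib.SemilinFixed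

open Module Polynomial

section Roots

variable {κ : Type*} [Field κ] (p : ℕ) [Fact p.Prime]

/-- The solutions of `a ^ p = a` in a field are at most `p`. -/
theorem card_pow_eq_self_le :
    Finite {a : κ // a ^ p = a} ∧ Nat.card {a : κ // a ^ p = a} ≤ p := by
  classical
  have hp1 : 1 < p := (Fact.out : p.Prime).one_lt
  have hne : (X ^ p - X : κ[X]) ≠ 0 := FiniteField.X_pow_card_sub_X_ne_zero κ hp1
  have hsub : {a : κ | a ^ p = a} ⊆ ↑((X ^ p - X : κ[X]).roots.toFinset) := by
    intro a ha
    simp only [Finset.mem_coe, Multiset.mem_toFinset, mem_roots hne, IsRoot.def, eval_sub,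
      eval_pow, eval_X]
    exact sub_eq_zero.mpr ha
  have hfin : {a : κ | a ^ p = a}.Finite := (Finset.finite_toSet _).subset hsub
  refine ⟨hfin.to_subtype, ?_⟩
  have h1 : Nat.card {a : κ // a ^ p = a} ≤ ((X ^ p - X : κ[X]).roots.toFinset).card := by
    have := Set.ncard_le_ncard hsub (Finset.finite_toSet _)
    rw [Set.ncard_coe_finset] at this
    exact this
  calc Nat.card {a : κ // a ^ p = a} ≤ ((X ^ p - X : κ[X]).roots.toFinset).card := h1
    _ ≤ Multiset.card (X ^ p - X : κ[X]).roots := Multiset.toFinset_card_le _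
    _ ≤ (X ^ p - X : κ[X]).natDegree := card_roots' _
    _ = p := FiniteField.X_pow_card_sub_X_natDegree_eq κ hp1

end Roots

section Fixed

variable {κ V : Type*} [Field κ] (p : ℕ) [Fact p.Prime] [AddCommGroup V] [Module κ V]
  [FiniteDimensional κ V]

/-- **Fixed points of a Frobenius-semilinear additive map** on a finite-dimensional vector space
over a field of characteristic `p` are at most `p ^ dim` in number. -/
theorem card_fixed_le (F : V →+ V) (hF : ∀ (a : κ) (v : V), F (a • v) = a ^ p • F v) :
    {v : V | F v = v}.Finite ∧ Nat.card {v : V | F v = v} ≤ p ^ finrank κ V := by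
  classical
  obtain ⟨b, hbX, hspan, hli⟩ := exists_linearIndependent κ {v : V | F v = v}
  have hbfin : b.Finite := hli.setFinite
  have : Fintype b := hbfin.fintype
  have hcard : Fintype.card b ≤ finrank κ V := hli.fintype_card_le_finrank
  obtain ⟨hRfin, hRcard⟩ := card_pow_eq_self_le (κ := κ) p
  -- coordinates of a fixed vector
  have hmem : ∀ v : {v : V | F v = v}, (v : V) ∈ Submodule.span κ (Set.range ((↑) : b → V)) := by
    intro v
    rw [Subtype.range_coe, hspan]
    exact Submodule.subset_span v.2
  let r : {v : V | F v = v} → (b →₀ κ) := fun v => hli.repr ⟨v, hmem v⟩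
  have hr : ∀ v : {v : V | F v = v}, ∑ i : b, r v i • (i : V) = v := by
    intro v
    have h := hli.linearCombination_repr ⟨v, hmem v⟩
    rw [Finsupp.linearCombination_apply,
      Finsupp.sum_fintype _ (fun (i : b) (a : κ) => a • (i : V)) (fun i => zero_smul κ _)] at h
    exact h
  have hpow : ∀ (v : {v : V | F v = v}) (i : b), r v i ^ p = r v i := by
    intro v
    have h1 : F (∑ i : b, r v i • (i : V)) = ∑ i : b, (r v i ^ p) • (i : V) := by
      rw [map_sum]
      refine Finset.sum_congr rfl fun i _ => ?_
      rw [hF, hbX i.2]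
    rw [hr v, v.2] at h1
    have h2 : ∑ i : b, (r v i ^ p - r v i) • (i : V) = 0 := by
      simp only [sub_smul, Finset.sum_sub_distrib]
      rw [← h1, hr v, sub_self]
    have h3 := (Fintype.linearIndependent_iff.mp hli) (fun i => r v i ^ p - r v i) h2
    exact fun i => sub_eq_zero.mp (h3 i)
  let e : {v : V | F v = v} → (b → {a : κ // a ^ p = a}) := fun v i => ⟨r v i, hpow v i⟩
  have he : Function.Injective e := by
    intro v w hvw
    apply Subtype.ext
    rw [← hr v, ← hr w]
    refine Finset.sum_congr rfl fun i _ => ?_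
    have := congrArg Subtype.val (congrFun hvw i)
    show r v i • (i : V) = r w i • (i : V)
    rw [show r v i = r w i from this]
  have := hRfin
  have hfinX : Finite {v : V | F v = v} := Finite.of_injective e he
  refine ⟨Set.toFinite _, ?_⟩
  calc Nat.card {v : V | F v = v} ≤ Nat.card (b → {a : κ // a ^ p = a}) :=
        Nat.card_le_card_of_injective e he
    _ = Nat.card {a : κ // a ^ p = a} ^ Nat.card b := Nat.card_fun
    _ ≤ p ^ Nat.card b := Nat.pow_le_pow_left hRcard _
    _ ≤ p ^ finrank κ V := by
        rw [Nat.card_eq_fintype_card]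
        exact Nat.pow_le_pow_right (Fact.out : p.Prime).pos hcard

end Fixed

section Semilinear

variable {k κ : Type*} [Field k] [Finite k] [Field κ] (p : ℕ) [Fact p.Prime] [CharP k p]
  [CharP κ p]

/-- The `κ`-space of additive maps `k → κ`. -/
def addFun (k κ : Type*) [Field k] [Field κ] : Submodule κ (k → κ) where
  carrier := {g | ∀ a b, g (a + b) = g a + g b}
  zero_mem' := fun _ _ => by simp
  add_mem' := by
    intro g h hg hh a b
    simp only [Pi.add_apply, hg a b, hh a b]
    ring
  smul_mem' := by
    intro c g hg a b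
    simp only [Pi.smul_apply, hg a b, smul_add]

omit [Finite k] in
lemma addFun_map_nsmul (g : addFun k κ) (n : ℕ) (x : k) : g.1 (n • x) = n • g.1 x := by
  induction n with
  | zero =>
    have h := g.2 0 0
    rw [add_zero] at h
    simpa using left_eq_add.mp h
  | succ n ih => rw [succ_nsmul, succ_nsmul, g.2, ih]

omit [CharP κ p] in
include p in
/-- The additive maps `k → κ` form a space of dimension `d` with `p ^ d ≤ #k`. -/
theorem pow_finrank_addFun_le :
    p ^ finrank κ (addFun k κ) ≤ Nat.card k := by
  classical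
  let _ : Algebra (ZMod p) k := ZMod.algebra k p
  have : Fintype k := Fintype.ofFinite k
  let b := Module.finBasis (ZMod p) k
  let ev : addFun k κ →ₗ[κ] (Fin (finrank (ZMod p) k) → κ) :=
    { toFun := fun g i => g.1 (b i)
      map_add' := fun _ _ => rfl
      map_smul' := fun _ _ => rfl }
  have hev : Function.Injective ev := by
    refine (injective_iff_map_eq_zero ev).mpr fun g hg => ?_
    apply Subtype.ext
    funext x
    have hx : x = ∑ i, (b.repr x i).val • b i := by
      conv_lhs => rw [← b.sum_repr x]
      refine Finset.sum_congr rfl fun i _ => ?_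
      rw [← Nat.cast_smul_eq_nsmul (ZMod p), ZMod.natCast_zmod_val]
    have hsum : ∀ (s : Finset (Fin (finrank (ZMod p) k))) (f : Fin (finrank (ZMod p) k) → k),
        g.1 (∑ i ∈ s, f i) = ∑ i ∈ s, g.1 (f i) := by
      intro s f
      induction s using Finset.induction_on with
      | empty =>
        have h := g.2 0 0
        rw [add_zero] at h
        simpa using left_eq_add.mp h
      | insert a s ha ih => rw [Finset.sum_insert ha, Finset.sum_insert ha, g.2, ih]
    rw [hx, hsum]
    refine Finset.sum_eq_zero fun i _ => ?_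
    rw [addFun_map_nsmul, show g.1 (b i) = 0 from congrFun hg i, smul_zero]
  have h := LinearMap.finrank_le_finrank_of_injective hev
  rw [Module.finrank_fin_fun] at h
  calc p ^ finrank κ (addFun k κ) ≤ p ^ finrank (ZMod p) k :=
        Nat.pow_le_pow_right (Fact.out : p.Prime).pos h
    _ = Nat.card k := by
        rw [Nat.card_eq_fintype_card, Module.card_eq_pow_finrank (K := ZMod p) (V := k),
          ZMod.card]

/-- **The semilinear count**: for a finite field `k` and a field `κ` of the same characteristic
`p`, and `c ≠ 0` in `k`, there are at most `#k` additive maps `g : k → κ` with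
`g (c * a) = g a ^ p`. -/
theorem card_semilinear_le (c : k) (hc : c ≠ 0) :
    {g : k → κ | (∀ a b, g (a + b) = g a + g b) ∧ ∀ a, g (c * a) = g a ^ p}.Finite ∧
      Nat.card {g : k → κ | (∀ a b, g (a + b) = g a + g b) ∧ ∀ a, g (c * a) = g a ^ p} ≤
        Nat.card k := by
  classical
  -- the Frobenius-semilinear map `g ↦ (a ↦ g (c⁻¹ a) ^ p)` on additive maps
  let F : addFun k κ →+ addFun k κ :=
    { toFun := fun g => ⟨fun a => g.1 (c⁻¹ * a) ^ p, fun a b => by
        show g.1 (c⁻¹ * (a + b)) ^ p = g.1 (c⁻¹ * a) ^ p + g.1 (c⁻¹ * b) ^ p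
        rw [mul_add, g.2, add_pow_char]⟩
      map_zero' := by
        apply Subtype.ext
        funext a
        show (0 : κ) ^ p = 0
        exact zero_pow (Fact.out : p.Prime).ne_zero
      map_add' := fun g h => by
        apply Subtype.ext
        funext a
        show (g.1 (c⁻¹ * a) + h.1 (c⁻¹ * a)) ^ p = g.1 (c⁻¹ * a) ^ p + h.1 (c⁻¹ * a) ^ p
        exact add_pow_char _ _ p }
  have hF : ∀ (a : κ) (g : addFun k κ), F (a • g) = a ^ p • F g := by
    intro a g
    apply Subtype.ext
    funext x
    show (a * g.1 (c⁻¹ * x)) ^ p = a ^ p * g.1 (c⁻¹ * x) ^ p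
    exact mul_pow _ _ _
  obtain ⟨hfin, hcard⟩ := card_fixed_le (κ := κ) p F hF
  let e : {g : k → κ | (∀ a b, g (a + b) = g a + g b) ∧ ∀ a, g (c * a) = g a ^ p} →
      {v : addFun k κ | F v = v} := fun g => ⟨⟨g.1, g.2.1⟩, by
        apply Subtype.ext
        funext a
        show g.1 (c⁻¹ * a) ^ p = g.1 a
        rw [← g.2.2, mul_inv_cancel_left₀ hc]⟩
  have he : Function.Injective e := by
    intro g h hgh
    apply Subtype.ext
    exact congrArg (fun v : {v : addFun k κ | F v = v} => (v.1.1 : k → κ)) hgh
  have := hfin.to_subtype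
  have hfinG : Finite {g : k → κ | (∀ a b, g (a + b) = g a + g b) ∧ ∀ a, g (c * a) = g a ^ p} :=
    Finite.of_injective e he
  refine ⟨Set.toFinite _, ?_⟩
  calc Nat.card {g : k → κ | (∀ a b, g (a + b) = g a + g b) ∧ ∀ a, g (c * a) = g a ^ p}
      ≤ Nat.card {v : addFun k κ | F v = v} := Nat.card_le_card_of_injective e he
    _ ≤ p ^ finrank κ (addFun k κ) := hcard
    _ ≤ Nat.card k := pow_finrank_addFun_le p

end Semilinear

end Fermat.Agent.Lib.SemilinFixed
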